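import Fermat.Agent.RT.Glue.Transfer
import Fermat.Agent.OrdinaryAtP.Residual
import Fermat.Agent.EC.Rep.OddRep
import Fermat.Agent.GaloisReps.Rep
import Fermat.Agent.Mazur.Eisenstein.CycInertia

/-!
# Residual facts of the models at `p`

For an odd `p`, two models at the same level have the same trace and determinant on every
eigen-lattice. So the
residual hypotheses (absolute irreducibility, ordinarity at `p`) pass between them; they give an
element of inertia with determinant not residually one, an inertia invariant functional on the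
lattice and a prime `l` with `a_l - l - 1` a unit.

See `exists_inertia_det_unit`, `exists_invariant_functional` and `exists_isUnit_sub_succ`.
-/

set_option autoImplicit false

noncomputable section

open IsLocalRing Module
open scoped TensorProduct
open Fermat.Agent.GaloisReps
open Fermat.Agent.OrdinaryAtP (trace_mul_self_eq)

namespace Fermat.Agent.RT.AtP

variable {N p : ℕ} [NeZero N] [Fact p.Prime] {R : Type} [CommRing R] [IsDomain R]
  [IsDiscreteValuationRing R] [CharZero R] (ι : ℤ_[p] →+* R) (θ : FullHecke N →+* R)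
  (hpR : (p : R) ∈ maximalIdeal R)

/-! ## Comparison of two models -/

include hpR in
omit [CharZero R] in
theorem isUnit_two_of_ne_two (hp2 : p ≠ 2) : IsUnit (2 : R) := by
  have hco : Nat.Coprime p 2 :=
    (Nat.Prime.coprime_iff_not_dvd (Fact.out : p.Prime)).mpr fun h =>
      hp2 ((Nat.prime_dvd_prime_iff_eq Fact.out Nat.prime_two).mp h)
  obtain ⟨a, b, hab⟩ := Nat.Coprime.cast (R := R) hco
  refine not_not.mp fun h2 => (maximalIdeal.isMaximal R).ne_top ((Ideal.eq_top_iff_one _).mpr ?_)
  rw [← hab]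
  exact add_mem (Ideal.mul_mem_left _ a hpR) (Ideal.mul_mem_left _ b (by exact_mod_cast h2))

include hpR in
/-- Two models have the same traces. -/
theorem trace_eigenAction_eq (D D' : HeckeGaloisModel N p) (σ : AbsGal) :
    LinearMap.trace R _ (D.eigenAction ι θ σ) = LinearMap.trace R _ (D'.eigenAction ι θ σ) := by
  -- modulo `p ^ n` both are the trace of a power of one Frobenius element
  refine sub_eq_zero.mp (HeckeGaloisModel.eq_zero_of_forall_pow_dvd hpR fun n => ?_)
  obtain ⟨L₁, hL₁, h₁⟩ := D.gal_continuous n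
  obtain ⟨L₂, hL₂, h₂⟩ := D'.gal_continuous n
  obtain ⟨l, hl, hlS, A, hA, s, hs, i, hi⟩ :=
    frobeniusDensity (L₁ ⊔ L₂) inferInstance σ (N * p).primeFactors
  have hlN : ¬ l ∣ N * p := fun hdvd => hlS (Nat.mem_primeFactors.mpr
    ⟨hl, hdvd, mul_ne_zero (NeZero.ne N) (Fact.out : p.Prime).ne_zero⟩)
  have hfix := inv_mul_fixes (g := s ^ i) (h := σ) (fun x hx => (hi x hx).symm)
  have hcongr : ∀ E : HeckeGaloisModel N p,
      (E.gal ((s ^ i)⁻¹ * σ)).map (PadicInt.toZModPow n) = 1 →
      (p : R) ^ n ∣ LinearMap.trace R _ (E.eigenAction ι θ σ) -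
        powerTrace (θ (HeckeDuality.heckeOp N 2 l hl)) (l : R) i := by
    intro E hE
    rw [← trace_pow_of_charpoly (E.finrank_eigenspace_domain θ) _ _ l
      (E.charpoly_eigenAction_frobenius ι θ hpR hl hlN hA hs) i, ← map_pow,
      LinearMap.trace_eq_matrix_trace R (E.eigenBasis θ),
      LinearMap.trace_eq_matrix_trace R (E.eigenBasis θ), Matrix.trace_fin_two,
      Matrix.trace_fin_two, add_sub_add_comm]
    exact dvd_add (E.eigenMatrix_congr ι θ hE 0 0) (E.eigenMatrix_congr ι θ hE 1 1)
  have := dvd_sub (hcongr D (h₁ _ fun x hx => hfix x (le_sup_left (b := L₂) hx)))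
    (hcongr D' (h₂ _ fun x hx => hfix x (le_sup_right (a := L₁) hx)))
  rwa [sub_sub_sub_cancel_right] at this

include hpR in
/-- Two models have the same determinants. -/
theorem det_eigenAction_eq (hp2 : p ≠ 2) (D D' : HeckeGaloisModel N p) (σ : AbsGal) :
    LinearMap.det (D.eigenAction ι θ σ) = LinearMap.det (D'.eigenAction ι θ σ) := by
  have h1 := trace_mul_self_eq (D.rep ι θ hpR) σ
  have h2 := trace_mul_self_eq (D'.rep ι θ hpR) σ
  change LinearMap.trace R _ (D.eigenAction ι θ (σ * σ)) =
    LinearMap.trace R _ (D.eigenAction ι θ σ) ^ 2 - 2 * LinearMap.det (D.eigenAction ι θ σ) at h1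
  change LinearMap.trace R _ (D'.eigenAction ι θ (σ * σ)) =
    LinearMap.trace R _ (D'.eigenAction ι θ σ) ^ 2 - 2 * LinearMap.det (D'.eigenAction ι θ σ) at h2
  rw [trace_eigenAction_eq ι θ hpR D D', trace_eigenAction_eq ι θ hpR D D' σ, h2] at h1
  exact (isUnit_two_of_ne_two hpR hp2).mul_left_cancel (by linear_combination h1)

include hpR in
/-- Absolute irreducibility passes between models. -/
theorem isAbsolutelyIrreducible_transfer (D D' : HeckeGaloisModel N p)
    (habs : (D.rep ι θ hpR).residual.IsAbsolutelyIrreducible) :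
    (D'.rep ι θ hpR).residual.IsAbsolutelyIrreducible := by
  obtain ⟨k, g, h, hu⟩ := exists_isUnit_trace_commutator (D.rep ι θ hpR) habs
  refine Glue.isAbsolutelyIrreducible_of_trace_commutator _ ⟨k, g, h, ?_⟩
  show IsUnit (LinearMap.trace R _ (D'.eigenAction ι θ (k * g * h)) -
    LinearMap.trace R _ (D'.eigenAction ι θ (g * k * h)))
  rw [← trace_eigenAction_eq ι θ hpR D D', ← trace_eigenAction_eq ι θ hpR D D']
  exact hu

/-! ## Residual ordinarity -/

include hpR in
/-- An element of inertia with determinant residually different from `1`. -/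
theorem exists_inertia_det_unit (hp2 : p ≠ 2) (D : HeckeGaloisModel N p)
    {A : ValuationSubring (AlgebraicClosure ℚ)} (hA : A.LiesOverPrime p) :
    ∃ τ ∈ A.inertiaSubgroupIn ℚ, IsUnit (LinearMap.det (D.eigenAction ι θ τ) - 1) := by
  have hp : p.Prime := Fact.out
  obtain ⟨τ, hτ, h⟩ := Mazur.Eisenstein.exists_inertia_inv hA hp 1
  refine ⟨τ, hτ, by_contra fun hn => ?_⟩
  have h1 := D.det_eigenAction_congr ι θ hpR (s := τ) (q := p - 1) (n := 1) fun ζ hζ => by
    rw [h ζ hζ]
    rw [pow_one] at hζ
    exact inv_eq_of_mul_eq_one_right (by rw [← pow_succ', Nat.sub_add_cancel hp.one_le, hζ])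
  rw [pow_one] at h1
  have h2 : LinearMap.det (D.eigenAction ι θ τ) - ((p - 1 : ℕ) : R) ∈ maximalIdeal R := by
    obtain ⟨c, hc⟩ := h1
    rw [hc]
    exact Ideal.mul_mem_right _ _ hpR
  have h3 := sub_mem hn h2
  rw [Nat.cast_sub hp.one_le, Nat.cast_one, sub_sub_sub_cancel_left] at h3
  refine IsLocalRing.notMem_maximalIdeal.mpr (isUnit_two_of_ne_two hpR hp2) ?_
  have := sub_mem hpR h3
  rw [show (p : R) - ((p : R) - 1 - 1) = 2 by ring] at this
  exact this

omit [Fact (Nat.Prime p)] in
/-- On a residually ordinary representation the traces of `(τ₀ - det τ₀) (τ - 1) g` vanish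
residually. -/
theorem trace_ordinary_mem {T : Type} [CommRing T] [IsLocalRing T] (ρ : GaloisRepAdic T)
    (hres : (GaloisRepAdic.ofResidualGaloisRep ρ.residual).IsOrdinaryAt p)
    {A : ValuationSubring (AlgebraicClosure ℚ)} (hA : A.LiesOverPrime p) {τ₀ τ : AbsGal}
    (hτ₀ : τ₀ ∈ A.inertiaSubgroupIn ℚ) (hτ : τ ∈ A.inertiaSubgroupIn ℚ) (g : AbsGal) :
    LinearMap.trace T ρ.V
      ((ρ.ρ τ₀ - LinearMap.det (ρ.ρ τ₀) • 1) * (ρ.ρ τ - 1) * ρ.ρ g) ∈ maximalIdeal T := by
  obtain ⟨L, ⟨b₀, rfl⟩, hD, hI⟩ := hres A hA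
  -- residually the image of `τ - 1` is in the stable line, on which `τ₀` is `det τ₀`
  set k := ResidueField T
  let b : Module.Basis (Fin 2) k (k ⊗[T] ρ.V) := b₀
  set X := (ρ.ρ τ₀ - LinearMap.det (ρ.ρ τ₀) • 1) * (ρ.ρ τ - 1) * ρ.ρ g
  have hdec : τ₀ ∈ A.decompositionSubgroup ℚ := by
    obtain ⟨⟨t, ht⟩, -, rfl⟩ := hτ₀
    exact ht
  set f := fun σ => (ρ.ρ σ).baseChange k
  obtain ⟨x, hx⟩ := Submodule.mem_span_singleton.mp
    (hD τ₀ hdec _ (Submodule.mem_span_singleton_self _))
  change x • b 0 = f τ₀ (b 0) at hx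
  obtain ⟨c, hc⟩ := Submodule.mem_span_singleton.mp (hI τ₀ hτ₀ (b 1))
  change c • b 0 = f τ₀ (b 1) - b 1 at hc
  have h1 : f τ₀ (b 1) = c • b 0 + b 1 := by rw [hc]; abel
  have hdet : algebraMap T k (LinearMap.det (ρ.ρ τ₀)) = x := by
    rw [← LinearMap.det_baseChange]
    show LinearMap.det (f τ₀) = x
    rw [← LinearMap.det_toMatrix b, Matrix.det_fin_two]
    simp [LinearMap.toMatrix_apply, ← hx, h1]
  have hzero : ∀ v, X.baseChange k v = 0 := by
    intro v
    simp only [X, LinearMap.baseChange_mul, LinearMap.baseChange_sub, LinearMap.baseChange_smul,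
      LinearMap.baseChange_one, Module.End.mul_apply, LinearMap.sub_apply, LinearMap.smul_apply,
      Module.End.one_apply]
    obtain ⟨e, he⟩ := Submodule.mem_span_singleton.mp (hI τ hτ (f g v))
    change e • b 0 = f τ (f g v) - f g v at he
    show f τ₀ (f τ (f g v) - f g v) - _ = 0
    rw [← he, map_smul (f τ₀), ← hx, ← IsScalarTower.algebraMap_smul k (LinearMap.det (ρ.ρ τ₀)),
      hdet, smul_comm, sub_self]
  rw [← residue_eq_zero_iff, ← ResidueField.algebraMap_eq, ← LinearMap.trace_baseChange,
    show X.baseChange k = 0 from LinearMap.ext hzero, map_zero]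

variable {ι θ}

theorem trace_expand {S V G : Type*} [CommRing S] [AddCommGroup V] [Module S V] [Monoid G]
    (r : G →* Module.End S V) (d : S) (a b g : G) :
    LinearMap.trace S V ((r a - d • 1) * (r b - 1) * r g) =
      LinearMap.trace S V (r (a * b * g)) - LinearMap.trace S V (r (a * g)) -
        d * LinearMap.trace S V (r (b * g)) + d * LinearMap.trace S V (r g) := by
  simp only [map_mul r, sub_mul, mul_sub, smul_mul_assoc, one_mul, mul_one, map_sub, map_smul,
    smul_eq_mul]
  ring

theorem toMatrix_sub_smul {S V : Type*} [CommRing S] [AddCommGroup V] [Module S V] {n : Type*}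
    [Fintype n] [DecidableEq n] (b : Module.Basis n S V) (f : Module.End S V) (d : S) :
    LinearMap.toMatrix b b (f - d • 1) = LinearMap.toMatrix b b f - d • 1 := by
  rw [map_sub, map_smul, LinearMap.toMatrix_one]

include hpR in
/-- **Residual ordinarity in any model**, as equations. -/
theorem residual_eq_of_ordinary (hp2 : p ≠ 2) (D D' : HeckeGaloisModel N p)
    (habs : (D.rep ι θ hpR).residual.IsAbsolutelyIrreducible)
    (hres : (GaloisRepAdic.ofResidualGaloisRep (D.rep ι θ hpR).residual).IsOrdinaryAt p)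
    {A : ValuationSubring (AlgebraicClosure ℚ)} (hA : A.LiesOverPrime p) {τ₀ τ : AbsGal}
    (hτ₀ : τ₀ ∈ A.inertiaSubgroupIn ℚ) (hτ : τ ∈ A.inertiaSubgroupIn ℚ)
    (v : eigenspace D'.hecke θ) :
    ((D'.eigenAction ι θ τ₀ - LinearMap.det (D'.eigenAction ι θ τ₀) • 1) *
      (D'.eigenAction ι θ τ - 1)) v ∈ maximalIdeal R •
          (⊤ : Submodule R (eigenspace D'.hecke θ)) := by
  refine mem_smul_of_forall_trace_comp (D'.rep ι θ hpR)
    (isAbsolutelyIrreducible_transfer ι θ hpR D D' habs) _ _ (fun g => ?_) v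
  change LinearMap.trace R (eigenspace D'.hecke θ) (D'.eigenAction ι θ g * _) ∈ _
  rw [LinearMap.trace_mul_comm]
  have key := fun E : HeckeGaloisModel N p =>
    trace_expand (E.eigenAction ι θ) (LinearMap.det (E.eigenAction ι θ τ₀)) τ₀ τ g
  rw [key, ← trace_eigenAction_eq ι θ hpR D D', ← trace_eigenAction_eq ι θ hpR D D',
    ← trace_eigenAction_eq ι θ hpR D D', ← trace_eigenAction_eq ι θ hpR D D',
    ← det_eigenAction_eq ι θ hpR hp2 D D', ← key]
  exact trace_ordinary_mem (D.rep ι θ hpR) hres hA hτ₀ hτ g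

include hpR in
/-- An inertia invariant functional on the lattice modulo the maximal ideal. -/
theorem exists_invariant_functional (hp2 : p ≠ 2) (D D' : HeckeGaloisModel N p)
    (habs : (D.rep ι θ hpR).residual.IsAbsolutelyIrreducible)
    (hres : (GaloisRepAdic.ofResidualGaloisRep (D.rep ι θ hpR).residual).IsOrdinaryAt p)
    {A : ValuationSubring (AlgebraicClosure ℚ)} (hA : A.LiesOverPrime p) :
    ∃ f : eigenspace D'.hecke θ →+ ZMod p, f ≠ 0 ∧
      (∀ r ∈ maximalIdeal R, ∀ v, f (r • v) = 0) ∧
      ∀ τ ∈ A.inertiaSubgroupIn ℚ, ∀ v, f (D'.eigenAction ι θ τ v) = f v := by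
  classical
  obtain ⟨τ₀, hτ₀, hu⟩ := exists_inertia_det_unit ι θ hpR hp2 D' hA
  let b := D'.eigenBasis θ
  set X := D'.eigenAction ι θ τ₀ - LinearMap.det (D'.eigenAction ι θ τ₀) • 1
  -- `τ₀ - det τ₀` is residually nonzero: pick a nonzero entry and a functional not killing it
  obtain ⟨j, i, hji⟩ : ∃ j i, residue R (b.repr (X (b j)) i) ≠ 0 := by
    by_contra hall
    push Not at hall
    have h0 : ∀ i j, (LinearMap.toMatrix b b X) i j ∈ maximalIdeal R := fun i j => by
      rw [LinearMap.toMatrix_apply, ← residue_eq_zero_iff]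
      exact hall j i
    set d := LinearMap.det (D'.eigenAction ι θ τ₀) with hd
    set T := LinearMap.toMatrix b b (D'.eigenAction ι θ τ₀) with hT
    have e : LinearMap.toMatrix b b X = T - d • 1 := by
      show LinearMap.toMatrix b b (D'.eigenAction ι θ τ₀ - d • 1) = _
      exact toMatrix_sub_smul b _ d
    have hdd : d = T.det := by rw [hd, hT, LinearMap.det_toMatrix]
    have hres0 : residue R d = residue R d * residue R d := by
      conv_lhs => rw [hdd, Matrix.det_fin_two]
      have r : ∀ i j, residue R (T i j) = residue R d * (if i = j then 1 else 0) := fun i j => by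
        have h := (residue_eq_zero_iff _).mpr (h0 i j)
        rw [e, Matrix.sub_apply, Matrix.smul_apply, map_sub, sub_eq_zero] at h
        rw [h, Matrix.one_apply, smul_eq_mul, map_mul]
        split_ifs <;> simp
      rw [map_sub, map_mul, map_mul, r, r, r, r]
      simp
    have hdu : IsUnit d := ((Group.isUnit τ₀).map (D'.eigenAction ι θ)).map LinearMap.det
    have h1 : residue R d = 1 :=
      mul_left_cancel₀ ((residue_ne_zero_iff_isUnit d).mpr hdu) (by rw [mul_one]; exact hres0.symm)
    exact (residue_ne_zero_iff_isUnit _).mpr hu (by rw [map_sub, h1, map_one, sub_self])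
  let : CharP (ResidueField R) p := by
    refine (CharP.charP_iff_prime_eq_zero Fact.out).mpr ?_
    rw [← map_natCast (residue R), residue_eq_zero_iff]
    exact hpR
  let : Algebra (ZMod p) (ResidueField R) := ZMod.algebra _ p
  set z := residue R (b.repr (X (b j)) i)
  obtain ⟨μ, hμ⟩ : ∃ μ : ResidueField R →ₗ[ZMod p] ZMod p, μ z ≠ 0 := by
    let B := Module.Free.chooseBasis (ZMod p) (ResidueField R)
    obtain ⟨m, hm⟩ : ∃ m, B.repr z m ≠ 0 := by
      by_contra hall
      push Not at hall
      exact hji (B.repr.injective (Finsupp.ext fun m => by rw [hall m]; simp))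
    exact ⟨B.coord m, hm⟩
  refine ⟨AddMonoidHom.mk' (fun v => μ (residue R (b.repr (X v) i))) (fun v w => by
    rw [map_add X, map_add, Finsupp.add_apply, map_add, map_add]), fun h => hμ ?_, ?_, ?_⟩
  · exact DFunLike.congr_fun h (b j)
  · intro r hr v
    show μ _ = 0
    rw [map_smul X, map_smul, Finsupp.smul_apply, smul_eq_mul, map_mul,
      (residue_eq_zero_iff r).mpr hr, zero_mul, map_zero]
  · intro τ hτ v
    show μ _ = μ _
    refine congrArg μ (sub_eq_zero.mp ?_)
    rw [← map_sub, ← Finsupp.sub_apply, ← map_sub, ← map_sub X, residue_eq_zero_iff]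
    have hmem := residual_eq_of_ordinary hpR hp2 D D' habs hres hA hτ₀ hτ v
    simp only [Module.End.mul_apply, LinearMap.sub_apply (D'.eigenAction ι θ τ) 1,
      Module.End.one_apply] at hmem
    refine Submodule.smul_induction_on (p := fun y => b.repr y i ∈ maximalIdeal R) hmem ?_ ?_
    · intro a ha y _
      rw [map_smul, Finsupp.smul_apply, smul_eq_mul]
      exact Ideal.mul_mem_right _ _ ha
    · intro y y' hy hy'
      rw [map_add, Finsupp.add_apply]
      exact add_mem hy hy'

/-! ## A prime where the system is not Eisenstein -/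

theorem powerTrace_add_one {S : Type*} [CommRing S] (l : S) :
    ∀ i : ℕ, powerTrace (l + 1) l i = 1 + l ^ i
  | 0 => by simp [powerTrace, one_add_one_eq_two]
  | 1 => by simp [powerTrace, add_comm]
  | i + 2 => by
    simp only [powerTrace, powerTrace_add_one l (i + 1), powerTrace_add_one l i]
    ring

omit [Fact (Nat.Prime p)] in
/-- An involution of a plane which is not a scalar has determinant `-1`. -/
private theorem det_eq_neg_one_of_mul_self {S V : Type*} [CommRing S] [IsDomain S] [AddCommGroup V]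
    [Module S V] (b : Module.Basis (Fin 2) S V) {f : Module.End S V} (hff : f * f = 1)
    (hns : ∀ a : S, f ≠ a • 1) : LinearMap.det f = -1 := by
  set T := LinearMap.toMatrix b b f with hT
  have hTT : T * T = 1 := by
    rw [hT, ← LinearMap.toMatrix_mul, hff, LinearMap.toMatrix_one]
  have e : ∀ i j, (T * T) i j = (1 : Matrix (Fin 2) (Fin 2) S) i j := fun i j => by rw [hTT]
  have e00 := e 0 0
  have e01 := e 0 1
  have e10 := e 1 0
  have e11 := e 1 1
  simp [Matrix.mul_apply, Fin.sum_univ_two] at e00 e01 e10 e11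
  rw [← LinearMap.det_toMatrix b, ← hT, Matrix.det_fin_two]
  by_cases ht : T 0 0 + T 1 1 = 0
  · linear_combination (T 0 0) * ht - e00
  · -- with nonzero trace it would be a scalar
    exfalso
    have h01 : T 0 1 = 0 :=
      (mul_eq_zero.mp (by linear_combination e01 : T 0 1 * (T 0 0 + T 1 1) = 0)).resolve_right ht
    have h10 : T 1 0 = 0 :=
      (mul_eq_zero.mp (by linear_combination e10 : T 1 0 * (T 0 0 + T 1 1) = 0)).resolve_right ht
    have hd : T 1 1 = T 0 0 := by
      refine sub_eq_zero.mp ((mul_eq_zero.mp ?_).resolve_right ht)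
      linear_combination e11 - e00
    refine hns (T 0 0) ((LinearMap.toMatrix b b).injective ?_)
    rw [map_smul, LinearMap.toMatrix_one, ← hT]
    ext i j
    fin_cases i <;> fin_cases j <;> simp [h01, h10, hd]

include hpR in
/-- A prime at which the system is not Eisenstein residually. -/
theorem exists_isUnit_sub_succ (hp2 : p ≠ 2) (D : HeckeGaloisModel N p)
    (habs : (D.rep ι θ hpR).residual.IsAbsolutelyIrreducible) :
    ∃ (l : ℕ) (hl : l.Prime), ¬ l ∣ N * p ∧
      IsUnit (θ (HeckeDuality.heckeOp N 2 l hl) - ((l : R) + 1)) := by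
  set ρ := D.rep ι θ hpR with hρ
  set k := ResidueField R
  set K := AlgebraicClosure k
  obtain ⟨c, hc2, hc⟩ := D.exists_conj
  have hns := D.not_isScalarLike_conj ι θ hc
  have hdetc : LinearMap.det (D.eigenAction ι θ c) = -1 :=
    det_eq_neg_one_of_mul_self (D.eigenBasis θ) (by rw [← map_mul, hc2, map_one])
      fun a h => hns ⟨1, a, one_ne_zero, fun v => by rw [one_smul, h]; simp⟩
  set ρK := ρ.residual.baseChange K
  have htr : ∀ σ, LinearMap.trace K ρK.V (ρK.ρ σ) =
      algebraMap k K (residue R (LinearMap.trace R _ (D.eigenAction ι θ σ))) := fun σ => by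
    show LinearMap.trace _ _ (((ρ.ρ σ).baseChange k).baseChange K) = _
    rw [LinearMap.trace_baseChange, LinearMap.trace_baseChange, ResidueField.algebraMap_eq]
    rfl
  have hdet : ∀ σ, LinearMap.det (ρK.ρ σ) =
      algebraMap k K (residue R (LinearMap.det (D.eigenAction ι θ σ))) := fun σ => by
    show LinearMap.det (((ρ.ρ σ).baseChange k).baseChange K) = _
    rw [LinearMap.det_baseChange, LinearMap.det_baseChange, ResidueField.algebraMap_eq]
    rfl
  -- irreducible and odd, so some `σ` has residual trace other than `1 + det`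
  obtain ⟨σ, hσ⟩ := EC.Rep.exists_trace_ne_one_add_det (ρ := ρK) (c := c) (by
      have h := ((isUnit_two_of_ne_two hpR hp2).map (residue R)).map (algebraMap k K)
      rw [map_ofNat, map_ofNat] at h
      exact h.ne_zero) hc2 (by rw [hdet, hdetc, map_neg, map_one, map_neg, map_one]) habs
  by_contra hall
  push Not at hall
  refine hσ ?_
  rw [htr, hdet, ← map_one (algebraMap k K), ← map_add, ← map_one (residue R), ← map_add]
  congr 1
  -- residually `σ` is a power `s ^ i` of a Frobenius element at some `l`; if `a_l ≡ l + 1` then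
  -- the trace of `s ^ i` is `1 + l ^ i` and its determinant `l ^ i`
  obtain ⟨L, hL, h₁⟩ := D.gal_continuous 1
  obtain ⟨l, hl, hlS, B, hB, s, hs, i, hi⟩ :=
    frobeniusDensity L inferInstance σ (N * p).primeFactors
  have hlN : ¬ l ∣ N * p := fun hdvd => hlS (Nat.mem_primeFactors.mpr
    ⟨hl, hdvd, mul_ne_zero (NeZero.ne N) (Fact.out : p.Prime).ne_zero⟩)
  have hfix := inv_mul_fixes (g := s ^ i) (h := σ) (fun x hx => (hi x hx).symm)
  have hres : ∀ x : R, (p : R) ^ 1 ∣ x → residue R x = 0 := fun x ⟨y, hy⟩ => by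
    rw [residue_eq_zero_iff, hy, pow_one]
    exact Ideal.mul_mem_right _ _ hpR
  have hgal := h₁ _ hfix
  have e1 : residue R (LinearMap.trace R _ (D.eigenAction ι θ σ)) =
      residue R (powerTrace (θ (HeckeDuality.heckeOp N 2 l hl)) (l : R) i) := by
    rw [← sub_eq_zero, ← map_sub,
      ← trace_pow_of_charpoly (D.finrank_eigenspace_domain θ) _ _ l
        (D.charpoly_eigenAction_frobenius ι θ hpR hl hlN hB hs) i, ← map_pow,
      LinearMap.trace_eq_matrix_trace R (D.eigenBasis θ),
      LinearMap.trace_eq_matrix_trace R (D.eigenBasis θ), Matrix.trace_fin_two,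
      Matrix.trace_fin_two, add_sub_add_comm]
    exact hres _ (dvd_add (D.eigenMatrix_congr ι θ hgal 0 0) (D.eigenMatrix_congr ι θ hgal 1 1))
  have hdets : LinearMap.det (D.eigenAction ι θ s) = (l : R) := by
    rw [LinearMap.det_eq_sign_charpoly_coeff,
      D.charpoly_eigenAction_frobenius ι θ hpR hl hlN hB hs,
      D.finrank_eigenspace_domain θ]
    simp
  have e2 : residue R (LinearMap.det (D.eigenAction ι θ σ)) = (l : k) ^ i := by
    have h := hres _ (D.det_congr ι θ hgal)
    rw [map_sub, sub_eq_zero, map_pow (D.eigenAction ι θ), map_pow LinearMap.det,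
      hdets, map_pow, map_natCast] at h
    exact h
  rw [e1, map_add, map_one, e2, map_powerTrace, map_natCast,
    show residue R (θ (HeckeDuality.heckeOp N 2 l hl)) = (l : k) + 1 by
      have h := hall l hl hlN
      have h0 := (residue_eq_zero_iff _).mpr h
      rwa [map_sub, sub_eq_zero, map_add, map_natCast, map_one] at h0]
  exact powerTrace_add_one _ i

end Fermat.Agent.RT.AtP

end
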