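import Fermat.Agent.RT.AtP.Line
import Fermat.Agent.RT.AtP.Residual
import Fermat.Agent.RT.LowerB.Strict
import Fermat.Agent.Deform.Burnside
import Fermat.Agent.GaloisReps.Models

/-!
# The equations in every model

The equations on the eigen lattice of the Jacobian pass to every residually absolutely irreducible
model at the same level, the traces and determinants being the same.
-/

set_option autoImplicit false

noncomputable section

open IsLocalRing Module
open Fermat.Agent.GaloisReps
open Fermat.Agent.Arith (GQ)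

namespace Fermat.Agent.RT.AtP

variable {N p : ℕ} [NeZero N] [Fact p.Prime] {R : Type} [CommRing R] [IsDomain R]
  [IsDiscreteValuationRing R] [CharZero R] (ι : ℤ_[p] →+* R) (θ : FullHecke N →+* R)
  (hpR : (p : R) ∈ maximalIdeal R)

include hpR in
/-- The matrices of a residually absolutely irreducible model span. -/
theorem span_eigenMatrix_eq_top (D : HeckeGaloisModel N p)
    (habs : (D.rep ι θ hpR).residual.IsAbsolutelyIrreducible) :
    Submodule.span R (Set.range (D.eigenMatrix ι θ)) = ⊤ := by
  refine Glue.span_range_eq_top _ ?_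
  let B : Basis (Fin 2) (ResidueField R) (D.rep ι θ hpR).residual.V :=
    (D.eigenBasis θ).baseChange (ResidueField R)
  rw [← Deform.span_matrix_eq_top (D.rep ι θ hpR).residual habs B]
  refine congrArg (Submodule.span (ResidueField R)) (congrArg Set.range (funext fun σ => ?_))
  ext i j
  rw [Matrix.map_apply, LinearMap.toMatrixAlgEquiv_apply]
  show residue R _ = ((D.eigenBasis θ).baseChange (ResidueField R)).repr
    ((D.eigenAction ι θ σ).baseChange (ResidueField R)
      ((D.eigenBasis θ).baseChange (ResidueField R) j)) i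
  rw [Basis.baseChange_apply, LinearMap.baseChange_tmul, Basis.baseChange_repr_tmul,
    Algebra.smul_def, mul_one, ResidueField.algebraMap_eq, HeckeGaloisModel.eigenMatrix,
    LinearMap.toMatrix_apply]

include hpR in
/-- The equation passes from any model to a residually absolutely irreducible one, both having the
same traces. -/
theorem eq_zero_of_model (hp2 : p ≠ 2) (D D' : HeckeGaloisModel N p)
    (habs : (D.rep ι θ hpR).residual.IsAbsolutelyIrreducible) (τ₀ σ : AbsGal) (a : R)
    (h : (D'.eigenMatrix ι θ τ₀ - (D'.eigenMatrix ι θ τ₀).det • 1) *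
      (D'.eigenMatrix ι θ σ - a • 1) = 0) :
    (D.eigenMatrix ι θ τ₀ - (D.eigenMatrix ι θ τ₀).det • 1) *
      (D.eigenMatrix ι θ σ - a • 1) = 0 := by
  refine LowerB.eq_zero_of_trace_mul (span_eigenMatrix_eq_top ι θ hpR D habs) fun k => ?_
  have hdet : (D.eigenMatrix ι θ τ₀).det = (D'.eigenMatrix ι θ τ₀).det := by
    simp only [HeckeGaloisModel.eigenMatrix, LinearMap.det_toMatrix]
    exact det_eigenAction_eq ι θ hpR hp2 D D' τ₀
  have hmul : ∀ (E : HeckeGaloisModel N p) (g₁ g₂ : AbsGal),
      E.eigenMatrix ι θ g₁ * E.eigenMatrix ι θ g₂ = E.eigenMatrix ι θ (g₁ * g₂) := fun E g₁ g₂ => by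
    simp only [HeckeGaloisModel.eigenMatrix, map_mul, LinearMap.toMatrix_mul]
  have htr : ∀ g, (D.eigenMatrix ι θ g).trace = (D'.eigenMatrix ι θ g).trace := fun g => by
    simp only [HeckeGaloisModel.eigenMatrix, ← LinearMap.trace_eq_matrix_trace]
    exact trace_eigenAction_eq ι θ hpR D D' g
  have expand : ∀ (E : HeckeGaloisModel N p) (d : R),
      ((E.eigenMatrix ι θ τ₀ - d • 1) * (E.eigenMatrix ι θ σ - a • 1) *
          E.eigenMatrix ι θ k).trace =
        (E.eigenMatrix ι θ (τ₀ * σ * k)).trace - a * (E.eigenMatrix ι θ (τ₀ * k)).trace -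
          d * (E.eigenMatrix ι θ (σ * k)).trace + d * a * (E.eigenMatrix ι θ k).trace := by
    intro E d
    simp only [← hmul, sub_mul, mul_sub, smul_mul_assoc, one_mul, mul_smul_comm, mul_one, smul_sub,
      smul_smul, Matrix.trace_sub, Matrix.trace_smul, smul_eq_mul]
    ring
  rw [expand, hdet, htr, htr, htr, htr, ← expand, h, zero_mul, Matrix.trace_zero]

/-- The identifications of the torsion used for the series. -/
abbrev stdIso (N p : ℕ) [NeZero N] [Fact p.Prime] : TorsionIso N p :=
  torsionIso N p (conjProperty N)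

include hpR in
/-- **The equations in every residually absolutely irreducible model**, from nonvanishing. -/
theorem exists_equations (hp2 : p ≠ 2) (D : HeckeGaloisModel N p)
    (habs : (D.rep ι θ hpR).residual.IsAbsolutelyIrreducible)
    {A : ValuationSubring (AlgebraicClosure ℚ)} (hA : A.LiesOverPrime p) {α β : R}
    (hα : IsUnit α) (hsum : α + β = θ (HeckeDuality.heckeOp N 2 p Fact.out))
    (hprod : α * β = if p ∣ N then 0 else (p : R))
    (hnv : ∃ v ∈ eigenspace (latticeMat N) θ, Phi hA (stdIso N p) 1 1 v ≠ 0)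
    {τ₀ : GQ} (hτ₀ : τ₀ ∈ A.inertiaSubgroupIn ℚ)
    (hd : LinearMap.det (D.eigenAction ι θ τ₀) ≠ 1) :
    (∀ τ ∈ A.inertiaSubgroupIn ℚ,
      (D.eigenMatrix ι θ τ₀ - (D.eigenMatrix ι θ τ₀).det • 1) * (D.eigenMatrix ι θ τ - 1) = 0) ∧
    ∀ F : GQ, A.IsFrobeniusAt F p →
      (D.eigenMatrix ι θ τ₀ - (D.eigenMatrix ι θ τ₀).det • 1) *
        (D.eigenMatrix ι θ F - α • 1) = 0 := by
  have G := torsionGalois N p (eichlerShimuraCongruence N p)
  obtain ⟨hI, hF⟩ := equations_of_ne_zero hA (stdIso N p) θ ι G hpR hα hsum hprod hnv hτ₀ (by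
    rw [HeckeGaloisModel.eigenMatrix, LinearMap.det_toMatrix,
      ← det_eigenAction_eq ι θ hpR hp2 D ((stdIso N p).toModel G)]
    exact hd)
  refine ⟨fun τ hτ => ?_, fun F hF' => eq_zero_of_model ι θ hpR hp2 D _ habs τ₀ F α (hF F hF')⟩
  have := eq_zero_of_model ι θ hpR hp2 D ((stdIso N p).toModel G) habs τ₀ τ 1
    (by rw [one_smul]; exact hI τ hτ)
  rwa [one_smul] at this

end Fermat.Agent.RT.AtP

end
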