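import Fermat.Agent.RT.LowerB.Ordinary
import Fermat.Agent.RT.Modules.GaloisSide
import Fermat.Agent.RT.Lifting.Inputs

/-!
# The unit root at `p` on a level prime to `p`

From the unit root of each newform the unit root of the Hecke algebra is read on one unit entry,
and the symmetrised operator at `p` is recognised by its values at the newforms.
-/

set_option autoImplicit false

noncomputable section

namespace Fermat.Agent.RT.AtP

open IsLocalRing CongruenceSubgroup
open Fermat.Agent.RT.Glue Fermat.Agent.RT.Modules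
open Fermat.Agent.GaloisReps (HeckeGaloisModel powerTrace)
open Fermat.Agent.LevelRaising (RaiseData)
open Fermat.Agent.Deform (M2 Gal)

variable (p : ℕ) [Fact p.Prime] (O : Type) [CommRing O] [IsDomain O] [IsDiscreteValuationRing O]
  [IsAdicComplete (maximalIdeal O) O] [Finite (ResidueField O)] [CharZero O]

/-- On the unramified quotient at `p` of a residually ordinary newform of level prime to `p` a
Frobenius element is the unit root of `X ^ 2 - a_p X + p`. -/
def UnitRootAtGood : Prop :=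
  p ≠ 2 → ∀ (M : ℕ) [NeZero M] (g : CuspForm (Gamma0 M) 2) (hg : g.IsNewform), ¬ p ∣ M →
    ∀ (e : KBar O ≃+* ℂ) (r : Realisation O p hg e) (D : HeckeGaloisModel M p),
      (D.rep r.ι r.θ' r.p_mem).residual.IsAbsolutelyIrreducible →
        (GaloisRepAdic.ofResidualGaloisRep (D.rep r.ι r.θ' r.p_mem).residual).IsOrdinaryAt p →
          ∀ τ₀ F : Gal, τ₀ ∈ (padicPlace p).inertiaSubgroupIn ℚ →
            IsUnit (LinearMap.det ((D.rep r.ι r.θ' r.p_mem).ρ τ₀) - 1) →
              (padicPlace p).IsFrobeniusAt F p →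
              ∃ a : r.R, IsUnit a ∧
                a * a + p = r.θ' (HeckeDuality.heckeOp M 2 p Fact.out) * a ∧
                (∀ τ ∈ (padicPlace p).inertiaSubgroupIn ℚ,
                  ((D.rep r.ι r.θ' r.p_mem).ρ τ₀ -
                      LinearMap.det ((D.rep r.ι r.θ' r.p_mem).ρ τ₀) • 1) *
                    ((D.rep r.ι r.θ' r.p_mem).ρ τ - 1) = 0) ∧
                ((D.rep r.ι r.θ' r.p_mem).ρ τ₀ -
                    LinearMap.det ((D.rep r.ι r.θ' r.p_mem).ρ τ₀) • 1) *
                  ((D.rep r.ι r.θ' r.p_mem).ρ F - a • 1) = 0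

variable {p O}

omit [Fact (Nat.Prime p)] in
/-- An integral number with integral inverse has no power divisible by `p`. -/
theorem not_pow_eq_mul (hp : (p : O) ∈ maximalIdeal O) {z w a : KBar O} {k : ℕ}
    (hzw : z * w = 1) (hw : IsIntegral O w) (ha : IsIntegral O a)
    (hk : z ^ k = (p : KBar O) * a) : False := by
  refine one_ne_zero (α := KBar O) (eq_zero_of_forall_integral hp fun N =>
    ⟨(a * w ^ k) ^ N, (ha.mul (hw.pow k)).pow N, ?_⟩)
  rw [← mul_pow, ← mul_assoc, ← hk, ← mul_pow, hzw, one_pow, one_pow]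

section Glued

variable [CharP (ResidueField O) p] {W : WeierstrassCurve ℤ} {M : ℕ} [NeZero M]
  {Δ : Type} [CommGroup Δ] [Finite Δ] {ψ : (ZMod M)ˣ →* Δ} {S : Finset ℕ}
  {H : HeckeModule M ψ S (Core.abar W (ResidueField O))} [IsLocalRing H.algebra]
  {hS : ∀ q : ℕ, q.Prime → q ∣ M → q ∈ S}
  {D : ∀ (N : ℕ) [NeZero N], HeckeGaloisModel N p}
  {pt : ∀ θ : H.algebra →ₐ[O] KBar O, Point (p := p) H hS θ.toRingHom} (G : Glued D pt)
  (hp : (p : O) ∈ maximalIdeal O) (hΔp : IsPGroup p Δ)
  {L : ℕ} [NeZero L] {g : CuspForm (Gamma0 L) 2} {hg : g.IsNewform} {e : KBar O ≃+* ℂ}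
  {r : Realisation O p hg e} {θ : H.algebra →ₐ[O] KBar O}

include hp in
omit [CharP (ResidueField O) p] [NeZero M] in
/-- Corresponding values are in the maximal ideals together. -/
theorem mem_maximal_iff_of_value {x : H.algebra} {y : r.R} (hxy : θ x = r.j y) :
    x ∈ maximalIdeal H.algebra ↔ y ∈ maximalIdeal r.R := by
  constructor
  · intro hx
    by_contra hy
    obtain ⟨s, hs⟩ := (not_not.1 hy : IsUnit y).exists_right_inv
    obtain ⟨k, hk⟩ := exists_pow_le (H := H) (p := p)
    obtain ⟨a, ha⟩ := Ideal.mem_span_singleton'.1 (hk (Ideal.pow_mem_pow hx k))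
    refine not_pow_eq_mul hp (z := θ x) (w := r.j s) (a := θ a) (k := k)
      (by rw [hxy, ← map_mul, hs, map_one]) (isIntegral_of_algHom r.j r.j_algebraMap s)
      (isIntegral_point θ a) ?_
    rw [← map_pow, ← ha, map_mul, map_natCast, mul_comm]
  · intro hy
    by_contra hx
    obtain ⟨s, hs⟩ := (not_not.1 hx : IsUnit x).exists_right_inv
    obtain ⟨k, hk⟩ : ∃ k, y ^ k ∈ Ideal.span {(p : r.R)} := by
      refine Ideal.mem_radical_iff.1 ?_
      have hp0 : (p : r.R) ≠ 0 := Nat.cast_ne_zero.2 (Fact.out : p.Prime).ne_zero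
      rw [Ideal.radical_eq_sInf]
      refine Ideal.mem_sInf.2 fun {P} hP => ?_
      have := hP.2
      rw [eq_maximalIdeal (this.isMaximal fun h0 => hp0 ?_)]
      · exact hy
      · simpa [h0] using hP.1 (Ideal.mem_span_singleton_self _)
    obtain ⟨a, ha⟩ := Ideal.mem_span_singleton'.1 hk
    refine not_pow_eq_mul hp (z := θ x) (w := θ s) (a := r.j a) (k := k)
      (by rw [← map_mul, hs, map_one]) (isIntegral_point θ s)
      (isIntegral_of_algHom r.j r.j_algebraMap a) ?_
    rw [hxy, ← map_pow, ← ha, map_mul, map_natCast, mul_comm]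

omit [IsAdicComplete (maximalIdeal O) O] [Finite (ResidueField O)] [CharZero O]
  [CharP (ResidueField O) p] [NeZero M] in
/-- The trace of the glued representation lifts the trace of `W[p]`. -/
theorem residue_trace_curve [Algebra (ZMod p) (ResidueField O)]
    [IsLocalHom (algebraMap O H.algebra)] (hΔ : W.Δ ≠ 0)
    (hp : (p : O) ∈ maximalIdeal O) (hΔp : IsPGroup p Δ) (hpS : p ∈ S) (σ : Gal) (a : ℕ)
    (ha : LinearMap.trace (ZMod p) _ ((EC.Rep.residualRep W p hΔ).ρ σ) = a) :
    (G.R σ).trace - a ∈ maximalIdeal H.algebra := by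
  set ρ := Core.rhoBar W p hΔ (ResidueField O)
  obtain ⟨F₁, hF₁, hcont⟩ := G.cont 1
  obtain ⟨F₂, hF₂, hbar⟩ := ρ.factorsThroughFiniteLevel
  -- Chebotarev: `σ` agrees with a power of a good Frobenius on both fields
  obtain ⟨ℓ, hℓ, hℓT, A, hA, s, hs, i, hi⟩ :=
    GaloisReps.frobeniusDensity (F₁ ⊔ F₂) inferInstance σ (S ∪ W.Δ.natAbs.primeFactors)
  rw [Finset.notMem_union] at hℓT
  have hfix := GaloisReps.inv_mul_fixes (g := s ^ i) (h := σ) (fun x hx => (hi x hx).symm)
  set u := (s ^ i)⁻¹ * σ with hu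
  have hσ : σ = s ^ i * u := by rw [hu, mul_inv_cancel_left]
  -- so modulo `𝔪` both traces depend only on that power
  have hR : residue H.algebra (G.R σ).trace = residue H.algebra (G.R (s ^ i)).trace := by
    have h1 : (G.R u).map (residue H.algebra) = 1 := Matrix.ext fun k l => by
      have h2 := hcont u (fun x hx => hfix x (le_sup_left (b := F₂) hx)) k l
      rw [pow_one, ← residue_eq_zero_iff, map_sub, sub_eq_zero] at h2
      rw [Matrix.map_apply, h2]
      rcases eq_or_ne k l with rfl | hkl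
      · rw [Matrix.one_apply_eq, Matrix.one_apply_eq, map_one]
      · rw [Matrix.one_apply_ne hkl, Matrix.one_apply_ne hkl, map_zero]
    rw [AddMonoidHom.map_trace (residue H.algebra), AddMonoidHom.map_trace (residue H.algebra)]
    refine congrArg Matrix.trace ?_
    show (G.R σ).map (residue H.algebra) = (G.R (s ^ i)).map (residue H.algebra)
    rw [hσ, map_mul, Matrix.map_mul, h1, mul_one]
  have hρ : ρ.ρ σ = ρ.ρ (s ^ i) := by
    rw [hσ, map_mul, hbar _ fun x hx => hfix x (le_sup_right (a := F₁) hx), mul_one]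
  have hgood : W.IsGoodPrimeFor ℓ := fun hd => hℓT.2 (Nat.mem_primeFactors.2
    ⟨hℓ, Int.natCast_dvd.1 hd, Int.natAbs_ne_zero.2 hΔ⟩)
  have hne : ℓ ≠ p := fun h => hℓT.1 (h ▸ hpS)
  have h1 : LinearMap.trace (ResidueField O) ρ.V (ρ.ρ σ) = (a : ResidueField O) := by
    show LinearMap.trace _ _ (((EC.Rep.residualRep W p hΔ).ρ σ).baseChange (ResidueField O)) = _
    rw [LinearMap.trace_baseChange, ha, map_natCast]
  -- there both are power sums for the same characteristic polynomial
  rw [hρ, map_pow, GaloisReps.trace_pow_of_charpoly ρ.finrank_eq _ _ ℓ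
    (Core.charpoly_rhoBar_frobenius hℓ hgood hne hA hs) i] at h1
  have h2 := GaloisReps.trace_pow_of_charpoly (Module.finrank_fin_fun H.algebra (n := 2))
    (G.rep.ρ s) _ ℓ (G.charpoly_frobenius hpS hℓ hℓT.1 hA hs) i
  have h3 : (G.R (s ^ i)).trace =
      powerTrace (sA H hS hℓ hℓT.1) (ℓ : H.algebra) i := by
    rw [← G.trace_rep, map_pow]
    exact h2
  rw [← residue_eq_zero_iff, map_sub, hR, h3, GaloisReps.map_powerTrace,
    residue_sA hp hΔp hℓ hℓT.1, map_natCast, map_natCast, sub_eq_zero,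
    ← map_natCast (ResidueField.map (algebraMap O H.algebra)) a, ← h1,
    GaloisReps.map_powerTrace, map_natCast]

include G hp hΔp in
omit [NeZero M] in
/-- **The equations at one newform with the system of a point.** -/
theorem exists_root_at (hUR : UnitRootAtGood p O) (hΔ : W.Δ ≠ 0) (hp2 : p ≠ 2)
    (hdvd : (p : ℤ) ∣ W.Δ) (hc₄ : ¬ (p : ℤ) ∣ W.c₄) (hpS : p ∈ S) (hpL : ¬ p ∣ L)
    (htr : ∀ σ, θ (G.R σ).trace = r.trace (D L) σ) {τ₀ F : Gal}
    (hτ₀ : τ₀ ∈ (padicPlace p).inertiaSubgroupIn ℚ) (hu : IsUnit ((G.R τ₀).det - 1))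
    (hF : (padicPlace p).IsFrobeniusAt F p) :
    ∃ a : r.R, IsUnit a ∧
      a * a + p = r.θ' (HeckeDuality.heckeOp L 2 p Fact.out) * a ∧
      (∀ τ ∈ (padicPlace p).inertiaSubgroupIn ℚ, ∀ k l : Fin 2,
        θ (((G.R τ₀ - (G.R τ₀).det • 1) * G.R τ) k l) =
          θ ((G.R τ₀ - (G.R τ₀).det • 1) k l)) ∧
      ∀ k l : Fin 2, θ (((G.R τ₀ - (G.R τ₀).det • 1) * G.R F) k l) =
        r.j a * θ ((G.R τ₀ - (G.R τ₀).det • 1) k l) := by
  classical
  let : Algebra (ZMod p) (ResidueField O) := ZMod.algebra _ p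
  have := isLocalHom_algebraMap H
  set ρ := (D L).rep r.ι r.θ' r.p_mem
  have htr' : ∀ σ, θ (G.R σ).trace = r.j (LinearMap.trace r.R ρ.V (ρ.ρ σ)) := htr
  have hcyc : ρ.DetIsCyclotomic p := by
    refine ⟨r.p_mem, fun n s a ha => ?_⟩
    rw [Nat.cast_pow, Ideal.mem_span_singleton]
    exact (D L).det_eigenAction_congr r.ι r.θ' r.p_mem ha
  have habs : ρ.residual.IsAbsolutelyIrreducible := by
    obtain ⟨k, g', h, hu⟩ := G.exists_trace_commutator
    refine isAbsolutelyIrreducible_of_trace_commutator _ ⟨k, g', h, by_contra fun hd => ?_⟩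
    refine ((mem_maximal_iff_of_value hp (θ := θ) (r := r) ?_).2 hd) hu
    rw [map_sub, map_sub, G.trace_rep, G.trace_rep, htr', htr']
  have hord : (GaloisRepAdic.ofResidualGaloisRep ρ.residual).IsOrdinaryAt p :=
    LowerB.isOrdinaryAt_residual_of_trace hΔ hp2 hdvd hc₄ habs hcyc fun σ a ha =>
      (mem_maximal_iff_of_value hp (θ := θ) (r := r)
        (by rw [map_sub, map_sub, htr', map_natCast, map_natCast])).1
        (residue_trace_curve G hΔ hp hΔp hpS σ a ha)
  -- the determinant at `τ₀`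
  have hd : θ (G.R τ₀).det = r.j (LinearMap.det (ρ.ρ τ₀)) := by
    refine sub_eq_zero.1 (eq_zero_of_forall_integral hp fun n => ?_)
    obtain ⟨b, hb⟩ := exists_exponent (p := p) τ₀ n
    obtain ⟨c, hc, hc'⟩ := small_of_mem (G.det_congr n τ₀ b hb) θ
    obtain ⟨c', hc''⟩ := (D L).det_eigenAction_congr r.ι r.θ' r.p_mem hb
    refine ⟨c - r.j c', hc.sub (isIntegral_of_algHom r.j r.j_algebraMap c'), ?_⟩
    have h2 := congrArg r.j hc''
    rw [map_sub, map_mul, map_pow, map_natCast, map_natCast] at h2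
    rw [map_sub, map_natCast] at hc'
    show θ (G.R τ₀).det - r.j (LinearMap.det ((D L).eigenAction r.ι r.θ' τ₀)) = _
    linear_combination hc' - h2
  have hu' : IsUnit (LinearMap.det (ρ.ρ τ₀) - 1) := by
    by_contra hn
    exact ((mem_maximal_iff_of_value hp (θ := θ) (r := r)
      (by rw [map_sub, map_sub, hd, map_one, map_one])).2 hn) hu
  -- the newform is ordinary with `det τ₀ ≠ 1`, so it has a unit root `a`
  obtain ⟨a, hau, haeq, hI, hFe⟩ := hUR hp2 L g hg hpL e r (D L) habs hord τ₀ F hτ₀ hu' hF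
  -- transport the equations by traces against `G.R g'`, and these span the matrices
  set Q := G.R τ₀ - (G.R τ₀).det • 1
  have hQ : ∀ σ g', θ (Q * G.R σ * G.R g').trace = r.j (LinearMap.trace r.R ρ.V
      ((ρ.ρ τ₀ - LinearMap.det (ρ.ρ τ₀) • 1) * ρ.ρ σ * ρ.ρ g')) := fun σ g' => by
    have e1 : (Q * G.R σ * G.R g').trace = (G.R (τ₀ * σ * g')).trace -
        (G.R τ₀).det * (G.R (σ * g')).trace := by
      simp only [Q, map_mul, sub_mul, smul_mul_assoc, one_mul, Matrix.trace_sub,
        Matrix.trace_smul, smul_eq_mul]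
    have e2 : LinearMap.trace r.R ρ.V
        ((ρ.ρ τ₀ - LinearMap.det (ρ.ρ τ₀) • 1) * ρ.ρ σ * ρ.ρ g') =
        LinearMap.trace r.R ρ.V (ρ.ρ (τ₀ * σ * g')) -
          LinearMap.det (ρ.ρ τ₀) * LinearMap.trace r.R ρ.V (ρ.ρ (σ * g')) := by
      simp only [map_mul, sub_mul, smul_mul_assoc, one_mul, map_sub, map_smul, smul_eq_mul]
    rw [e1, e2, map_sub, map_sub, map_mul θ, map_mul r.j, htr', htr', hd]
  have hext : ∀ (X : M2 H.algebra) (c : KBar O),
      (∀ g', θ (X * G.R g').trace = c * θ (Q * G.R g').trace) →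
        ∀ k l, θ (X k l) = c * θ (Q k l) := by
    intro X c hX k l
    suffices h : ∀ Y, θ (X * Y).trace = c * θ (Q * Y).trace by
      simpa [Matrix.trace_mul_single] using h (Matrix.single l k 1)
    intro Y
    have hY : Y ∈ Submodule.span H.algebra (Set.range G.R) := by rw [G.span_eq_top]; trivial
    induction hY using Submodule.span_induction with
    | mem Y hY => obtain ⟨g', rfl⟩ := hY; exact hX g'
    | zero => rw [mul_zero, mul_zero, Matrix.trace_zero, map_zero, mul_zero]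
    | add Y Z _ _ hY hZ =>
      rw [mul_add, mul_add, Matrix.trace_add, Matrix.trace_add, map_add, map_add, hY, hZ, mul_add]
    | smul b Y _ hY =>
      rw [mul_smul_comm, mul_smul_comm, Matrix.trace_smul, Matrix.trace_smul, smul_eq_mul,
        smul_eq_mul, map_mul, map_mul, hY, mul_left_comm]
  have hQ1 : ∀ g', θ (Q * G.R g').trace = r.j (LinearMap.trace r.R ρ.V
      ((ρ.ρ τ₀ - LinearMap.det (ρ.ρ τ₀) • 1) * ρ.ρ g')) := fun g' => by
    simpa using hQ 1 g'
  refine ⟨a, hau, haeq, fun τ hτ k l => ?_, hext _ _ fun g' => ?_⟩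
  · rw [← one_mul (θ (Q k l))]
    refine hext _ _ (fun g' => ?_) k l
    have h1 := hI τ hτ
    rw [mul_sub, mul_one, sub_eq_zero] at h1
    rw [hQ, hQ1, one_mul]
    exact congrArg r.j (congrArg (LinearMap.trace r.R ρ.V) (congrArg (· * ρ.ρ g') h1))
  · have h1 := hFe
    rw [mul_sub, sub_eq_zero, mul_smul_comm, mul_one] at h1
    rw [hQ, hQ1, ← map_mul]
    refine congrArg r.j ?_
    rw [h1, smul_mul_assoc, map_smul, smul_eq_mul]

end Glued

/-- **The old case**: `Lifting.OrdinaryAtOld` from the unit roots of the newforms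
(`UnitRootAtGood`). -/
theorem ordinaryAtOld_of [CharP (ResidueField O) p] (hUR : UnitRootAtGood p O)
    (W : WeierstrassCurve ℤ) (hΔ : W.Δ ≠ 0) : Lifting.OrdinaryAtOld W p O := by
  intro hdvd hc₄ M _ Δ _ _ ψ S hpS h hq D _ pt G τ₀ F hτ₀ hu hF
  classical
  have hp : (p : O) ∈ maximalIdeal O := by
    rw [← residue_eq_zero_iff, map_natCast, CharP.cast_eq_zero]
  set Q := G.R τ₀ - (G.R τ₀).det • 1
  obtain ⟨i, j, hij⟩ := Lifting.exists_isUnit_entry (ru := G.R) hu
  obtain ⟨v, hv⟩ := hij.exists_right_inv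
  set α : (heckeModule h).algebra := (Q * G.R F) i j * v with hα
  clear_value α
  have hpM : ∀ L, L ∣ M ^ 2 → ¬ p ∣ L := fun L hL hpL =>
    hq.not_dvd (hq.prime.dvd_of_dvd_pow (hpL.trans hL))
  -- the root at a point
  have hαval : ∀ (θ : (heckeModule h).algebra →ₐ[O] KBar O) (c : KBar O),
      (∀ k l, θ ((Q * G.R F) k l) = c * θ (Q k l)) → θ α = c := fun θ c hc => by
    rw [hα, map_mul, hc, mul_assoc, ← map_mul, hv, map_one, mul_one]
  let rp : ∀ θ : (heckeModule h).algebra →ₐ[O] KBar O,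
      Realisation O p (pt θ).isNewform (pt θ).emb := fun θ =>
    ⟨(pt θ).R, (pt θ).j, (pt θ).j_injective, (pt θ).j_algebraMap, (pt θ).p_mem, (pt θ).ι,
      (pt θ).θ', (pt θ).emb_θ'⟩
  have hpt : ∀ θ : (heckeModule h).algebra →ₐ[O] KBar O, ∃ a : (pt θ).R, IsUnit a ∧
      θ α = (pt θ).j a ∧
      (∀ τ ∈ (padicPlace p).inertiaSubgroupIn ℚ, ∀ k l,
        θ ((Q * G.R τ) k l) = θ (Q k l)) ∧
      ∀ k l, θ ((Q * G.R F) k l) = θ α * θ (Q k l) := fun θ => by
    obtain ⟨a, hau, -, hI, hFe⟩ := exists_root_at G hp h.isPGroup (r := rp θ) (θ := θ) hUR hΔ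
      h.ne_two hdvd hc₄ hpS (hpM _ (pt θ).dvd)
      (fun σ => (G.trace_eq θ σ).trans ((pt θ).trace_rep D σ)) hτ₀ hu hF
    have hval := hαval θ _ hFe
    exact ⟨a, hau, hval, hI, fun k l => by rw [hval]; exact hFe k l⟩
  have hαu : IsUnit α := by
    obtain ⟨θ, -⟩ : ∃ θ : (heckeModule h).algebra →ₐ[O] KBar O, θ 1 ≠ 0 := by
      by_contra! hall
      exact one_ne_zero (eq_zero_of_forall_point hall)
    obtain ⟨a, hau, hval, -, -⟩ := hpt θ
    by_contra hn
    exact (mem_maximal_iff_of_value hp (θ := θ)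
      (r := rp θ) hval).1 hn hau
  refine ⟨α, hαu, fun τ hτ => ?_, ?_, ?_⟩
  · refine Matrix.ext fun k l => eq_zero_of_forall_point fun θ => ?_
    obtain ⟨a, -, -, hI, -⟩ := hpt θ
    rw [mul_sub, mul_one, Matrix.sub_apply, map_sub, hI τ hτ, sub_self]
  · refine Matrix.ext fun k l => eq_zero_of_forall_point fun θ => ?_
    obtain ⟨a, -, -, -, hFe⟩ := hpt θ
    rw [mul_sub, mul_smul_comm, mul_one, Matrix.sub_apply, Matrix.smul_apply, smul_eq_mul,
      map_sub, map_mul, hFe, sub_self]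
  · obtain ⟨β, hβ⟩ := hαu.exists_right_inv
    obtain ⟨e, he⟩ := exists_complexEquiv (O := O) hp
    have key := h.eq_symEnd hq he (α + (p : (heckeModule h).algebra) * β)
      fun θ L g hθ hg hdiv hcoef => by
      have : NeZero L :=
        ⟨fun h0 => pow_ne_zero 2 (NeZero.ne M) (Nat.eq_zero_of_zero_dvd (h0 ▸ hdiv))⟩
      obtain ⟨r⟩ := nonempty_realisation hp hg e
      obtain ⟨a, hau, haeq, -, hFe⟩ := exists_root_at G hp h.isPGroup (r := r)
        (θ := pointOf e θ hθ) hUR hΔ h.ne_two hdvd hc₄ hpS (hpM _ hdiv)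
        (fun σ => G.trace_realisation hp hpS r hdiv (pointOf e θ hθ) (fun ℓ hℓ hℓS => by
          rw [apply_pointOf]
          exact hcoef ℓ hℓ hℓS _ (ZMod.coe_unitOfCoprime _ _)) σ) hτ₀ hu hF
      have hTp : e (r.j (r.θ' (HeckeDuality.heckeOp L 2 p Fact.out))) =
          ModularFormClass.qCoeff g p := by
        rw [r.emb_θ', HeckeDuality.heckeOp, dif_neg (hpM _ hdiv),
          ConductorLevel.eigenChar_T hg.1 hq.prime (hpM _ hdiv)]
      have hα' : θ α = e (r.j a) := by
        rw [← apply_pointOf e θ hθ, hαval _ _ hFe]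
      have h1 : θ α * θ α + (p : ℂ) = ModularFormClass.qCoeff g p * θ α := by
        rw [hα', ← hTp]
        simpa using congrArg (fun x => e (r.j x)) haeq
      have h2 : θ α * θ β = 1 := by rw [← map_mul, hβ, map_one]
      rw [map_add, map_mul, map_natCast]
      linear_combination θ β * h1 + (ModularFormClass.qCoeff g p - θ α) * h2
    have e1 : α * α + (p : (heckeModule h).algebra) =
        α * (α + (p : (heckeModule h).algebra) * β) := by
      linear_combination (-(p : (heckeModule h).algebra)) * hβ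
    exact (congrArg Subtype.val e1).trans
      (congrArg ((α : Module.End O (heckeModule h).M) * ·) key)

end Fermat.Agent.RT.AtP
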