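import Fermat.Agent.RT.AtP.Nonvanishing
import Fermat.Agent.RT.AtP.Equations
import Fermat.Agent.RT.AtP.Old
import Mathlib.RingTheory.Henselian

/-!
# The unit root of a newform of level prime to `p`

`unitRootAtGood`: for an odd `p` and such a newform with ordinary, absolutely irreducible residual
representation the coefficient at `p` is a unit, so `X ^ 2 - a_p X + p` has a unit root over the
coefficient ring and the equations hold with it. `ordinaryAtOld` deduces `Lifting.OrdinaryAtOld` for
every model with nonzero discriminant.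
It is used in `RT/Frey/Lifting`.
-/

set_option autoImplicit false

noncomputable section

namespace Fermat.Agent.RT.AtP

open IsLocalRing Polynomial
open Fermat.Agent.Deform (Gal)

/-- The unit root of `X ^ 2 - a X + b` for a unit `a` and `b` in the maximal ideal. -/
theorem exists_unit_root {R : Type} [CommRing R] [IsLocalRing R]
    [IsAdicComplete (maximalIdeal R) R] {a b : R} (ha : IsUnit a) (hb : b ∈ maximalIdeal R) :
    ∃ x : R, IsUnit x ∧ x * x + b = a * x := by
  have hf : (X ^ 2 - C a * X + C b).Monic := by monicity!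
  obtain ⟨x, hx, hxa⟩ := HenselianRing.is_henselian (I := maximalIdeal R) _ hf a (by
    simp only [eval_add, eval_sub, eval_mul, eval_pow, eval_X, eval_C]
    rwa [sq, sub_self, zero_add]) (by
    have h : (derivative (X ^ 2 - C a * X + C b)).eval a = a := by
      simp [derivative_pow]; ring
    rw [h]
    exact ha.map _)
  refine ⟨x, ?_, ?_⟩
  · by_contra hn
    exact (by simpa using sub_mem (show x ∈ maximalIdeal R from hn) hxa :
      a ∈ maximalIdeal R) ha
  · simp only [IsRoot.def, eval_add, eval_sub, eval_mul, eval_pow, eval_X, eval_C] at hx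
    linear_combination hx

/-- An equation of matrices is one of endomorphisms. -/
theorem equation_of_matrix {R V : Type} [CommRing R] [AddCommGroup V] [Module R V]
    (b : Module.Basis (Fin 2) R V) (f g : Module.End R V) (a : R)
    (h : (LinearMap.toMatrix b b f - (LinearMap.toMatrix b b f).det • 1) *
      (LinearMap.toMatrix b b g - a • 1) = 0) :
    (f - LinearMap.det f • 1) * (g - a • 1) = 0 := by
  refine (LinearMap.toMatrix b b).injective ?_
  rw [LinearMap.toMatrix_mul, map_sub, map_sub, map_smul, map_smul, LinearMap.toMatrix_one,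
    map_zero, ← LinearMap.det_toMatrix b]
  exact h

/-- **`UnitRootAtGood` holds**: a residually ordinary newform of level prime to `p` has a unit root
of `X ^ 2 - a_p X + p` which is Frobenius on the unramified quotient. -/
theorem unitRootAtGood (p : ℕ) [Fact p.Prime] (O : Type) [CommRing O] [IsDomain O]
    [IsDiscreteValuationRing O] [IsAdicComplete (maximalIdeal O) O] [Finite (ResidueField O)]
    : UnitRootAtGood p O := by
  intro hp2 M _ g hg hpM e r D habs hres τ₀ F hτ₀ hu hF
  have hA := CFT.Local.padicPlace_liesOverPrime p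
  obtain ⟨hap, hnv⟩ := coeff_one_ne_zero_and_isUnit hp2 hA r.ι r.θ' r.p_mem
    (fun h => hpM ((dvd_pow_self p two_ne_zero).trans h)) (fun h => absurd h hpM) D habs hres
  obtain ⟨α, hαu, hα⟩ := exists_unit_root hap r.p_mem
  have hd : LinearMap.det (D.eigenAction r.ι r.θ' τ₀) ≠ 1 := fun h => by
    change IsUnit (LinearMap.det (D.eigenAction r.ι r.θ' τ₀) - 1) at hu
    rw [h, sub_self] at hu
    exact not_isUnit_zero hu
  obtain ⟨hI, hFr⟩ := exists_equations r.ι r.θ' r.p_mem hp2 D habs hA hαu
    (β := r.θ' (HeckeDuality.heckeOp M 2 p Fact.out) - α) (add_sub_cancel α _)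
    (by rw [if_neg hpM]; linear_combination -hα) hnv hτ₀ hd
  refine ⟨α, hαu, hα, fun τ hτ => ?_, equation_of_matrix (D.eigenBasis r.θ') _ _ α (hFr F hF)⟩
  have h := equation_of_matrix (D.eigenBasis r.θ') (D.eigenAction r.ι r.θ' τ₀)
    (D.eigenAction r.ι r.θ' τ) 1 (by rw [one_smul]; exact hI τ hτ)
  rwa [one_smul] at h

/-- **The old case**: `Lifting.OrdinaryAtOld` holds for every model with nonzero discriminant. -/
theorem ordinaryAtOld (W : WeierstrassCurve ℤ) (p : ℕ) [Fact p.Prime] (hΔ : W.Δ ≠ 0) (O : Type)
    [CommRing O] [IsDomain O] [IsDiscreteValuationRing O] [IsAdicComplete (maximalIdeal O) O]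
    [Finite (ResidueField O)] [CharZero O] [CharP (ResidueField O) p] :
    Lifting.OrdinaryAtOld W p O :=
  ordinaryAtOld_of (unitRootAtGood p O) W hΔ

end Fermat.Agent.RT.AtP
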