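import Fermat.Agent.Semistable.WEquiv
import Fermat.Agent.RT.MazurP.HeckeSeries

/-!
# The Fricke involution and the norms of the Hecke correspondences

`W` exchanges `j (d τ)` and `j ((N / d) τ)`. For every prime `l` the expansion `X` of `W f` and
`Y` of `W (Norm_α (β f))` satisfy `Y(q ^ l) = ∏ᵢ X(ζⁱ q)` if `l ∣ N`, with the further factor
`X(q ^ (l ^ 2))` otherwise: after `W` every Hecke operator acts by its usual formula.
-/

set_option autoImplicit false

noncomputable section

open UpperHalfPlane hiding I

namespace Fermat.Agent.RT.AtP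

open AlgebraicCurve ModularCurve Fermat.Agent.ModFun Fermat.Agent.Semistable
open Fermat.Agent.RT.MazurP (heckeNorm)
open Arith (QBar GQ)

variable (N : ℕ) [NeZero N]

/-- `d ↦ N / d`. -/
def divSwap (d : Dvs N) : Dvs N := ⟨N / d.1, Nat.div_dvd_of_dvd d.2⟩

theorem divSwap_divSwap (d : Dvs N) : divSwap N (divSwap N d) = d :=
  Subtype.ext (Nat.div_div_self d.2 (NeZero.ne N))

/-- The point `-1 / (N τ)`. -/
theorem exists_fricke_point (τ : ℍ) :
    ∃ τ' : ℍ, ∀ d : Dvs N, jH (scaleH d.1 τ') = jH (scaleH (divSwap N d).1 τ) := by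
  refine ⟨ModularGroup.S • scaleH N τ, fun d => ?_⟩
  have hd : d.1 * (divSwap N d).1 = N := Nat.mul_div_cancel' d.2
  have key : ModularGroup.S • scaleH d.1 (ModularGroup.S • scaleH N τ) =
      scaleH (divSwap N d).1 τ := by
    apply UpperHalfPlane.ext
    rw [coe_SL_smul, coe_scaleH, coe_SL_smul, coe_scaleH, coe_scaleH]
    have hd0 : (d.1 : ℂ) ≠ 0 := Nat.cast_ne_zero.mpr (NeZero.ne d.1)
    have hτ : (τ : ℂ) ≠ 0 := UpperHalfPlane.ne_zero τ
    have hN : (N : ℂ) = (d.1 : ℂ) * ((divSwap N d).1 : ℂ) := by exact_mod_cast hd.symm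
    simp only [ModularGroup.S, Int.reduceNeg, Matrix.of_apply, Matrix.cons_val',
      Matrix.cons_val_zero, Matrix.cons_val_fin_one, Int.cast_zero, zero_mul, Matrix.cons_val_one,
      Int.cast_neg, Int.cast_one, zero_add, one_mul, add_zero]
    rw [hN]
    field_simp
  rw [← key, jH_smul]

/-- Exchanging the generators preserves relations over `ℂ`. -/
theorem aeval_divSwap_complex (P : MvPolynomial (Dvs N) ℂ)
    (hP : MvPolynomial.aeval (gen ℂ) P = 0) :
    MvPolynomial.aeval (fun d => gen ℂ (divSwap N d)) P = 0 := by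
  have hgen : (fun d => qExp N (genH N d)) = (gen ℂ : Dvs N → _) := funext (qExp_genH _)
  have h0 : MvPolynomial.aeval (genH N) P = 0 := by
    refine qExp_injective N ?_
    rw [map_zero, MvPolynomial.comp_aeval_apply, hgen, hP]
  have h1 : MvPolynomial.aeval (fun d => genH N (divSwap N d)) P = 0 := by
    refine Subtype.ext (funext fun τ => ?_)
    obtain ⟨τ', hτ'⟩ := exists_fricke_point N τ
    show evalHol N τ _ = 0
    have h2 := congrArg (evalHol N τ') h0
    rw [MvPolynomial.comp_aeval_apply, map_zero] at h2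
    rw [MvPolynomial.comp_aeval_apply]
    refine Eq.trans (DFunLike.congr_fun (MvPolynomial.algHom_ext fun d => ?_) P) h2
    rw [MvPolynomial.aeval_X, MvPolynomial.aeval_X]
    simp only [evalHol, AlgHom.comp_apply, Pi.evalAlgHom_apply, Subalgebra.coe_val, genH,
      jd_apply]
    exact (hτ' d).symm
  have h3 := congrArg (qExp N) h1
  rw [MvPolynomial.comp_aeval_apply, map_zero] at h3
  refine Eq.trans (DFunLike.congr_fun (MvPolynomial.algHom_ext fun d => ?_) P) h3
  rw [MvPolynomial.aeval_X, MvPolynomial.aeval_X, qExp_genH]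

/-- Exchanging the generators preserves relations over the algebraic numbers. -/
theorem aeval_divSwap (P : MvPolynomial (Dvs N) QBar)
    (hP : MvPolynomial.aeval (gen QBar) P = 0) :
    MvPolynomial.aeval (fun d => gen QBar (divSwap N d)) P = 0 := by
  refine Semistable.coeffMap_injective (toCx : QBar →+* ℂ) ?_
  rw [map_zero, coeffMap_aeval]
  simp only [coeffMap_gen]
  refine aeval_divSwap_complex N _ ?_
  have := congrArg (coeffMap (toCx : QBar →+* ℂ)) hP
  rw [map_zero, coeffMap_aeval] at this
  simpa only [coeffMap_gen] using this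

theorem exists_frickeHom : ∃ w : FB N →ₐ[QBar] FB N, ∀ d, w (genF N d) = genF N (divSwap N d) :=
  exists_algHom_of_relations_of_eq (gen QBar : Dvs N → LSer) (divSwap N) (divSwap_divSwap N)
    (aeval_divSwap N) (fb_eq_adjoin N) (genF N) fun _ => rfl

/-- The Fricke involution as an algebra map. -/
def frickeHom : FB N →ₐ[QBar] FB N := (exists_frickeHom N).choose

theorem frickeHom_gen (d : Dvs N) : frickeHom N (genF N d) = genF N (divSwap N d) :=
  (exists_frickeHom N).choose_spec d

theorem frickeHom_frickeHom (x : FB N) : frickeHom N (frickeHom N x) = x := by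
  have h : (frickeHom N).toRingHom.comp (frickeHom N).toRingHom = RingHom.id _ :=
    fb_ringHom_ext (fun a => by simp) fun d => by
      show frickeHom N (frickeHom N _) = _
      rw [frickeHom_gen, frickeHom_gen, divSwap_divSwap]
      rfl
  exact DFunLike.congr_fun h x

/-- The Fricke involution. -/
def fricke : FB N ≃ₐ[QBar] FB N :=
  AlgEquiv.ofAlgHom (frickeHom N) (frickeHom N)
    (AlgHom.ext (frickeHom_frickeHom N)) (AlgHom.ext (frickeHom_frickeHom N))

theorem fricke_gen (d : Dvs N) : fricke N (genF N d) = genF N (divSwap N d) := frickeHom_gen N d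

theorem fricke_fricke (x : FB N) : fricke N (fricke N x) = x := frickeHom_frickeHom N x

/-- `W` commutes with Galois. -/
theorem fricke_galF (σ : GQ) (x : FB N) : fricke N (galF N σ x) = galF N σ (fricke N x) := by
  have hfix : ∀ d : Dvs N, galF N σ (genF N d) = genF N d :=
    fun d => Subtype.ext (coeffMap_gen _ d)
  have h : (fricke N).toRingEquiv.toRingHom.comp (galF N σ).toRingHom =
      (galF N σ).toRingHom.comp (fricke N).toRingEquiv.toRingHom := by
    refine fb_ringHom_ext (fun a => ?_) fun d => ?_
    · show fricke N (galF N σ (algebraMap QBar _ a)) = galF N σ (fricke N (algebraMap QBar _ a))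
      rw [arithmeticRingAut_algebraMap, AlgEquiv.commutes, AlgEquiv.commutes,
        arithmeticRingAut_algebraMap]
    · show fricke N (galF N σ (genF _ d)) = galF N σ (fricke N (genF _ d))
      rw [hfix, fricke_gen, hfix]
  exact DFunLike.congr_fun h x

/-! ### At level `N l` -/

variable (l : ℕ) [NeZero l]

theorem fricke_alpha (x : FB N) :
    fricke (N * l) (heckeAlphaBar QBar N l x) = heckeBetaBar QBar N l (fricke N x) := by
  have h : ((fricke (N * l)).toAlgHom.comp (heckeAlphaBar QBar N l)).toRingHom =
      ((heckeBetaBar QBar N l).comp (fricke N).toAlgHom).toRingHom := by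
    refine fb_ringHom_ext (fun a => by simp) fun d => ?_
    show fricke (N * l) (heckeAlphaBar QBar N l (genF N d)) =
      heckeBetaBar QBar N l (fricke N (genF N d))
    have e : heckeAlphaBar QBar N l (genF N d) = genF (N * l) ⟨d.1, d.2.mul_right l⟩ :=
      Subtype.ext (coe_heckeAlphaBar _ _ _)
    rw [e, fricke_gen, fricke_gen]
    refine Subtype.ext ?_
    rw [coe_heckeBetaBar, coe_genF, coe_genF, gen, gen, qExpand_qExpand]
    apply qExpand_congr
    show N * l / d.1 = l * (N / d.1)
    rw [mul_comm N, Nat.mul_div_assoc l d.2]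
  exact DFunLike.congr_fun h x

theorem fricke_beta (x : FB N) :
    fricke (N * l) (heckeBetaBar QBar N l x) = heckeAlphaBar QBar N l (fricke N x) := by
  have h := fricke_alpha N l (fricke N x)
  rw [fricke_fricke] at h
  rw [← h, fricke_fricke]

/-- The expansion of `W` of the norm at a prime dividing the level. -/
theorem qExpand_fricke_heckeNorm_of_dvd (hl : l.Prime) (hN : l ∣ N) {ζ : QBarˣ}
    (hζ : IsPrimitiveRoot ζ l) (f : FB N) :
    qExpand QBar l (fricke N (heckeNorm N l f) : LSer) =
      ∏ i : Fin l, ModFun.twist (ζ ^ (i : ℕ)) (fricke N f : LSer) := by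
  classical
  let := algebraAlong (heckeAlphaBar QBar N l)
  have : Module.Finite (FB N) (FB (N * l)) := FF.finiteAlong (heckeAlphaBar QBar N l)
  let ι : LSer →+* AlgebraicClosure LSer := algebraMap _ _
  let e : FB N →+* LSer :=
    ((qExpand QBar l).comp (FB N).val.toRingHom).comp (fricke N).toAlgHom.toRingHom
  let : Algebra (FB N) (AlgebraicClosure LSer) := (ι.comp e).toAlgebra
  let base : Fin l → (FB (N * l) →+* LSer) := fun i =>
    ((ModFun.twist (ζ ^ (i : ℕ))).comp (FB (N * l)).val.toRingHom).comp
      (fricke (N * l)).toAlgHom.toRingHom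
  have hroot : ∀ i : ℕ, (ζ ^ i) ^ l = 1 := fun i => by
    rw [← pow_mul, mul_comm, pow_mul, hζ.pow_eq_one, one_pow]
  have hbase : ∀ i z, base i (heckeAlphaBar QBar N l z) = e z := fun i z => by
    show ModFun.twist _ (fricke (N * l) (heckeAlphaBar QBar N l z) : LSer) = _
    rw [fricke_alpha, coe_heckeBetaBar, ModFun.twist_qExpand_of_pow_eq_one _ l (hroot i)]
    rfl
  let σ : Fin l → (FB (N * l) →ₐ[FB N] AlgebraicClosure LSer) := fun i =>
    { ι.comp (base i) with commutes' := fun z => congrArg ι (hbase i z) }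
  have hbeta : ∀ i, base i (heckeBetaBar QBar N l f) =
      ModFun.twist (ζ ^ (i : ℕ)) (fricke N f : LSer) := fun i => by
    show ModFun.twist _ (fricke (N * l) (heckeBetaBar QBar N l f) : LSer) = _
    rw [fricke_beta, coe_heckeAlphaBar]
  -- the embeddings are separated by the polar coefficient of `j`
  set y : FB (N * l) := fricke (N * l) (genF (N * l) ⟨1, one_dvd _⟩) with hy
  have hy' : ∀ i : Fin l, (base i y).coeff (-1) =
      ((((ζ ^ (i : ℕ)) ^ (-1 : ℤ) : QBarˣ)) : QBar) := by
    intro i
    show (ModFun.twist _ (fricke (N * l) y : LSer)).coeff (-1) = _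
    rw [hy, fricke_fricke, coe_genF, gen, qExpand_one_apply, ModFun.coeff_twist,
      coeff_jqModC_neg_one, mul_one]
  have hσinj : Function.Injective σ := fun i j h => by
    have h1 : base i y = base j y := ι.injective (DFunLike.congr_fun h y)
    have h2 := (hy' i).symm.trans ((congrArg (fun z => HahnSeries.coeff z (-1)) h1).trans (hy' j))
    rw [Units.val_inj, zpow_neg_one, zpow_neg_one, inv_inj] at h2
    exact Fin.ext (hζ.pow_inj i.2 j.2 h2)
  have hcard : Fintype.card (FB (N * l) →ₐ[FB N] AlgebraicClosure LSer) =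
      Fintype.card (Fin l) := by
    rw [AlgHom.card, Fintype.card_fin]
    have h := GaloisReps.finrankAlong_alpha (N := N) l
    have h2 : dedekindPsi (N * l) = dedekindPsi N * l := by
      rw [mul_comm N l, Gamma0.dedekindPsi_mul_of_dvd hl hN, mul_comm]
    rw [h2] at h
    exact mul_left_cancel₀ (Nat.pos_iff_ne_zero.mp (dedekindPsi_pos N)) h
  have hσbij : Function.Bijective σ :=
    (Fintype.bijective_iff_injective_and_card σ).mpr ⟨hσinj, hcard.symm⟩
  apply ι.injective
  refine Eq.trans (Algebra.norm_eq_prod_embeddings (FB N) (AlgebraicClosure LSer)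
    (heckeBetaBar QBar N l f)) ?_
  rw [← Equiv.prod_comp (Equiv.ofBijective σ hσbij), map_prod]
  exact Finset.prod_congr rfl fun i _ => congrArg ι (hbeta i)

/-- `W` commutes with the norm at a prime not dividing the level. -/
theorem fricke_heckeNorm (hl : l.Prime) (hN : ¬ l ∣ N) (f : FB N) :
    fricke N (heckeNorm N l f) = heckeNorm N l (fricke N f) := by
  obtain ⟨w, hwa, hwb, -⟩ := ModFun.exists_alEquiv N l hl hN
  let := algebraAlong (heckeAlphaBar QBar N l)
  have h := Algebra.norm_eq_of_equiv_equiv (fricke N).toRingEquiv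
    ((fricke (N * l)).trans w).toRingEquiv
    (RingHom.ext fun x => by
      show heckeAlphaBar QBar N l (fricke N x) = w (fricke (N * l) (heckeAlphaBar QBar N l x))
      rw [fricke_alpha, hwb])
    (heckeBetaBar QBar N l f)
  show fricke N (Algebra.norm (FB N) (heckeBetaBar QBar N l f)) =
    Algebra.norm (FB N) (heckeBetaBar QBar N l (fricke N f))
  rw [h, show heckeBetaBar QBar N l (fricke N f) =
    ((fricke (N * l)).trans w).toRingEquiv (heckeBetaBar QBar N l f) by
      show _ = w (fricke (N * l) (heckeBetaBar QBar N l f))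
      rw [fricke_beta, hwa]]
  exact (fricke N).toRingEquiv.apply_symm_apply _

/-- The expansion of `W` of the norm at a prime not dividing the level. -/
theorem qExpand_fricke_heckeNorm_of_not_dvd (hl : l.Prime) (hN : ¬ l ∣ N) {ζ : QBarˣ}
    (hζ : IsPrimitiveRoot ζ l) (f : FB N) :
    qExpand QBar l (fricke N (heckeNorm N l f) : LSer) =
      qExpand QBar l (qExpand QBar l (fricke N f : LSer)) *
        ∏ i : Fin l, ModFun.twist (ζ ^ (i : ℕ)) (fricke N f : LSer) := by
  rw [fricke_heckeNorm N l hl hN]
  exact EichlerShimura.norm_series hl hN hζ _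

end Fermat.Agent.RT.AtP

end
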