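import Fermat.Agent.RT.AtP.Dwork
import Fermat.Agent.RT.AtP.Fricke
import Fermat.Agent.GaloisReps.Constructor

/-!
# The series of a torsion class

`serT n x` is the logarithmic derivative modulo `p ^ n` of `W f`, `f` a Kummer function of the
class `x` killed by `p ^ n`. It is additive, commutes with Galois and, at every prime `l`, the
Hecke operator `T_l` acts on its coefficients by `c_m ↦ c_{l m} + [l ∤ N] l c_{m / l}`.

Short names of `RT/AtP`: `QA` is `A / p ^ n`, `im` and `imL` the series over it (`Quot`); `dl`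
and `dser` the logarithmic derivative, `tw u` the substitution `q ↦ u q` (`Series`, `Dwork`);
`cof` the residual coefficient of a class killed by `p`, `cls` the class with given coordinates
(`ResClasses`); `crd` the coordinate classes (`Pairing`); `Phi n k` the coefficient `k` read on
vectors (`Eigen`).
-/

set_option autoImplicit false

noncomputable section

open ModularCurve AlgebraicCurve
open Fermat.Agent.Semistable
open Fermat.Agent.JacTorsion (toTorsion divGrp divQuot smul_divQuot eq_of_smul_eq)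
open Fermat.Agent.GaloisReps (JTors galTors)
open Fermat.Agent.Arith (QBar GQ)
open Fermat.Agent.RT.MazurP (heckeNorm)

namespace Fermat.Agent.RT.AtP

variable {A : ValuationSubring QBar} {p : ℕ} (hA : A.LiesOverPrime p) (hp : p.Prime)

/-- The twist of a series of `locS`. -/
theorem exists_imL_twist (n : ℕ) {l : ℕ} [NeZero l] {u : QBarˣ} (hu : u ^ l = 1) {x : LSer}
    (hx : x ∈ locS A) :
    ∃ (h : ModFun.twist u x ∈ locS A) (z : (QA A p n)ˣ), z ^ l = 1 ∧
      (∀ i : ℕ, ∀ (hi : ModFun.twist (u ^ i) x ∈ locS A),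
        imL hA hp n ⟨_, hi⟩ = tw (z ^ i) (imL hA hp n ⟨x, hx⟩)) ∧
      (redL A ⟨x, hx⟩ ≠ 0 → redL A ⟨_, h⟩ ≠ 0) := by
  -- a root of unity is a unit of `A`
  let uA : Aˣ := ⟨⟨u, MazurP.mem_of_root hu⟩,
    ⟨((u⁻¹ : QBarˣ) : QBar), MazurP.mem_of_root (by rw [inv_pow, hu, inv_one])⟩,
    Subtype.ext u.mul_inv, Subtype.ext u.inv_mul⟩
  have hA' : ∀ i : ℕ, ∀ k : ℤ, (((uA ^ i) ^ k : Aˣ) : QBar) = (((u ^ i) ^ k : QBarˣ) : QBar) := by
    intro i k
    have : Units.map A.subtype.toMonoidHom uA = u := Units.ext rfl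
    rw [← this, ← map_pow, ← map_zpow]
    rfl
  refine ⟨(MazurP.twist_mem_locS hu hx).1, Units.map (mkQA A p n).toMonoidHom uA, ?_, ?_, ?_⟩
  · rw [← map_pow, show uA ^ l = 1 from Units.ext (Subtype.ext (by
      rw [Units.val_pow_eq_pow_val, SubmonoidClass.coe_pow]
      exact (Units.val_pow_eq_pow_val u l).symm.trans (by rw [hu]; rfl))), map_one]
  · intro i hi
    have hui : (u ^ i) ^ l = 1 := by rw [← pow_mul, mul_comm, pow_mul, hu, one_pow]
    -- write `x` as a quotient of integral series with denominator of nonzero reduction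
    obtain ⟨a, b, hb, hab⟩ := (mem_locS A).mp hx
    obtain ⟨ha', -⟩ := MazurP.twist_mem_intS (A := A) hui a.2
    obtain ⟨hb', eb⟩ := MazurP.twist_mem_intS (A := A) hui b.2
    have hb0 : red A ⟨_, hb'⟩ ≠ 0 := by rw [eb]; exact (map_ne_zero _).mpr hb
    have e : ModFun.twist (u ^ i) x * ModFun.twist (u ^ i) b.1 = ModFun.twist (u ^ i) a.1 := by
      rw [← map_mul, hab]
    -- twisting commutes with reduction modulo `p ^ n`
    have himt : ∀ (y : intS A) (hy : ModFun.twist (u ^ i) y.1 ∈ intS A),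
        im (p := p) n ⟨_, hy⟩ =
          tw (Units.map (mkQA A p n).toMonoidHom uA ^ i) (im n y) := by
      intro y hy
      ext k
      rw [coeff_im, coeff_tw, coeff_im, ← map_pow, ← map_zpow]
      show _ = mkQA A p n _ * mkQA A p n _
      rw [← map_mul]
      refine congrArg _ (Subtype.ext ?_)
      show (ModFun.twist (u ^ i) y.1).coeff k = _
      rw [ModFun.coeff_twist, ← hA']
      rfl
    have h1 := imL_mul_im (p := p) hA hp n ⟨_, hi⟩ (a := ⟨_, ha'⟩) (b := ⟨_, hb'⟩) e
    have h2 := imL_mul_im (p := p) hA hp n ⟨x, hx⟩ hab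
    -- cancel the image of the denominator, a unit
    refine ((isUnit_im (p := p) hA hp n _ hb0).mul_left_inj).mp ?_
    rw [h1, himt a ha', himt b hb', ← map_mul, h2]
  · intro h0
    rw [(MazurP.twist_mem_locS hu hx).2]
    exact (map_ne_zero _).mpr h0

/-- `T_l` on the coefficients, from the expansion of a product of twists. -/
theorem coeff_dser_of_prod (n : ℕ) {l : ℕ} [NeZero l] {ζ : QBarˣ} (hζ : IsPrimitiveRoot ζ l)
    {X Y : LSer} (hX : X ∈ fracS A) (hX0 : X ≠ 0) (hY : Y ∈ fracS A) (hY0 : Y ≠ 0) (δ : Bool)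
    (h : qExpand QBar l Y = (if δ then qExpand QBar l (qExpand QBar l X) else 1) *
      ∏ i : Fin l, ModFun.twist (ζ ^ (i : ℕ)) X) (k : ℤ) :
    (l : QA A p n) * (dser hA hp n Y).coeff k =
      (l : QA A p n) * ((dser hA hp n X).coeff ((l : ℤ) * k) +
        if δ ∧ (l : ℤ) ∣ k then (l : QA A p n) * (dser hA hp n X).coeff (k / l) else 0) := by
  obtain ⟨c, -, hc, hc0⟩ := exists_scale hA hp hX hX0
  obtain ⟨-, z, hz, htw, -⟩ := exists_imL_twist hA hp n hζ.pow_eq_one hc
  have hfr : ∀ i : ℕ, ModFun.twist (ζ ^ i) (algebraMap QBar LSer c * X) ∈ locS A ∧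
      ∀ hm : ModFun.twist (ζ ^ i) (algebraMap QBar LSer c * X) ∈ locS A, redL A ⟨_, hm⟩ ≠ 0 :=
    fun i => by
      have hui : (ζ ^ i) ^ l = 1 := by rw [← pow_mul, mul_comm, pow_mul, hζ.pow_eq_one, one_pow]
      obtain ⟨hm, e⟩ := MazurP.twist_mem_locS (A := A) hui hc
      exact ⟨hm, fun _ => by rw [e]; exact (map_ne_zero _).mpr hc0⟩
  -- the product of the twists
  let P : locS A := ∏ i : Fin l, ⟨_, (hfr i).1⟩
  have hP : (P : LSer) = algebraMap QBar LSer (c ^ l) * ∏ i :
      Fin l, ModFun.twist (ζ ^ (i : ℕ)) X := by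
    rw [SubmonoidClass.coe_finsetProd]
    simp only [map_mul]
    rw [Finset.prod_mul_distrib]
    congr 1
    rw [Finset.prod_congr rfl fun (i : Fin l) _ => show ModFun.twist (ζ ^ (i : ℕ))
      (algebraMap QBar LSer c) = algebraMap QBar LSer c by
        ext k
        rw [ModFun.coeff_twist, MazurP.algebraMap_eq_C]
        rcases eq_or_ne k 0 with rfl | hk
        · simp
        · simp [hk], Finset.prod_const, Finset.card_univ, Fintype.card_fin, map_pow]
  have hPm : algebraMap QBar LSer (c ^ l) * ∏ i : Fin l, ModFun.twist (ζ ^ (i : ℕ)) X ∈ locS A :=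
    hP ▸ P.2
  have hPne : redL A ⟨_, hPm⟩ ≠ 0 := by
    rw [show (⟨_, hPm⟩ : locS A) = P from Subtype.ext hP.symm, map_prod]
    exact Finset.prod_ne_zero_iff.mpr fun i _ => (hfr i).2 _
  have hdP : (dser hA hp n (∏ i : Fin l, ModFun.twist (ζ ^ (i : ℕ)) X)).coeff ((l : ℤ) * k) =
      (l : QA A p n) * (dser hA hp n X).coeff ((l : ℤ) * k) := by
    rw [dser_eq hA hp n hPm hPne, show (⟨_, hPm⟩ : locS A) = P from Subtype.ext hP.symm, map_prod,
      Finset.prod_congr rfl fun (i : Fin l) _ => htw i (hfr i).1,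
      coeff_dl_prod_tw l hz (isUnit_imL hA hp n _ hc0), ← dser_eq hA hp n hc hc0]
  have hprod0 : ∏ i : Fin l, ModFun.twist (ζ ^ (i : ℕ)) X ≠ 0 :=
    Finset.prod_ne_zero_iff.mpr fun i _ => (map_ne_zero _).mpr hX0
  have hprodF : ∏ i : Fin l, ModFun.twist (ζ ^ (i : ℕ)) X ∈ fracS A := by
    have hcl : (c ^ l) ≠ 0 := fun h0 => hPne (by
      rw [redL_congr hPm (zero_mem _) (by rw [h0, map_zero, zero_mul])]; exact map_zero _)
    have := mul_mem (algebraMap_mem_fracS (A := A) (c ^ l)⁻¹) (locS_le_fracS hPm)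
    rwa [← mul_assoc, ← map_mul, inv_mul_cancel₀ hcl, map_one, one_mul] at this
  have hlhs : (dser hA hp n (qExpand QBar l Y)).coeff ((l : ℤ) * k) =
      (l : QA A p n) * (dser hA hp n Y).coeff k := by
    rw [dser_qExpand hA hp n l hY hY0, MazurP.coeff_C_mul, qExpand_coeff_mul]
  have hqfrac : ∀ {x : LSer}, x ∈ fracS A → qExpand QBar l x ∈ fracS A := fun {x} hx => by
    obtain ⟨a, ha, b, hb, hb0, hab⟩ := mem_fracS.mp hx
    exact mem_fracS.mpr ⟨_, qExpand_mem_intS l ha, _, qExpand_mem_intS l hb,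
      (map_ne_zero _).mpr hb0, by rw [← map_mul, hab]⟩
  rw [← hlhs, h]
  cases δ with
  | false => rw [if_neg (by simp), one_mul, hdP, if_neg (by simp), add_zero]
  | true =>
    rw [if_pos rfl, dser_mul hA hp n (hqfrac (hqfrac hX))
      ((map_ne_zero _).mpr ((map_ne_zero _).mpr hX0)) hprodF hprod0, HahnSeries.coeff_add, hdP,
      dser_qExpand hA hp n l (hqfrac hX) ((map_ne_zero _).mpr hX0), MazurP.coeff_C_mul,
      qExpand_coeff_mul, dser_qExpand hA hp n l hX hX0, MazurP.coeff_C_mul]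
    by_cases hk : (l : ℤ) ∣ k
    · obtain ⟨m, rfl⟩ := hk
      rw [qExpand_coeff_mul, if_pos ⟨rfl, dvd_mul_right _ _⟩,
        Int.mul_ediv_cancel_left _ (Int.natCast_ne_zero.mpr (NeZero.ne l))]
      ring
    · rw [qExpand_coeff_of_not_dvd l _ hk, if_neg (fun h' => hk h'.2)]
      ring

variable {N : ℕ} [NeZero N]

/-- The series of a function: `θ log` of `W f`. -/
def serF (n : ℕ) (f : FB N) : LaurentSeries (QA A p n) :=
  dser hA hp n (fricke N f : LSer)

/-- The Fricke image of a nonzero function has nonzero series. -/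
theorem coe_fricke_ne_zero {f : FB N} (hf : f ≠ 0) : (fricke N f : LSer) ≠ 0 := fun h =>
  hf ((map_eq_zero (fricke N)).mp (Subtype.ext h))

theorem serF_mul (n : ℕ) {f g : FB N} (hf : f ≠ 0) (hg : g ≠ 0) :
    serF hA hp n (f * g) = serF hA hp n f + serF hA hp n g := by
  rw [serF, map_mul, IntermediateField.coe_mul]
  exact dser_mul hA hp n (mem_fracS_of_mem _) (coe_fricke_ne_zero hf) (mem_fracS_of_mem _)
    (coe_fricke_ne_zero hg)

theorem serF_pow (n : ℕ) {f : FB N} (hf : f ≠ 0) (k : ℕ) :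
    serF hA hp n (f ^ k) = k • serF hA hp n f := by
  rw [serF, map_pow, SubmonoidClass.coe_pow]
  exact dser_pow hA hp n (mem_fracS_of_mem _) (coe_fricke_ne_zero hf) k

theorem natCast_pow_smul_series (n : ℕ) (z : LaurentSeries (QA A p n)) : (p ^ n) • z = 0 := by
  ext k
  rw [HahnSeries.coeff_smul, nsmul_eq_mul, Nat.cast_pow, natCast_QA_eq_zero, zero_mul]
  rfl

theorem coeffMap_redQA_serF (n : ℕ) {f : FB N} (hf : f ≠ 0) :
    coeffMap (redQA A p n) (serF hA hp (n + 1) f) = serF hA hp n f :=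
  coeffMap_redQA_dser hA hp n (mem_fracS_of_mem _) (coe_fricke_ne_zero hf)

theorem serF_galF {σ : GQ} {φ : Res A →+* Res A} (hσ : ResLift A σ φ) (n : ℕ) {f : FB N}
    (hf : f ≠ 0) : serF hA hp n (galF N σ f) = coeffMap (sigQA hσ n) (serF hA hp n f) := by
  rw [serF, fricke_galF, coe_arithmeticRingAut]
  exact dser_coeffMap hA hp hσ n (mem_fracS_of_mem _) (coe_fricke_ne_zero hf)

/-- The Hecke relation on functions. -/
theorem coeff_serF_heckeNorm (n l : ℕ) [NeZero l] (hl : l.Prime) {f : FB N} (hf : f ≠ 0) (k : ℤ) :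
    (serF hA hp n (heckeNorm N l f)).coeff k = (serF hA hp n f).coeff ((l : ℤ) * k) +
      if ¬ l ∣ N ∧ (l : ℤ) ∣ k then (l : QA A p n) * (serF hA hp n f).coeff (k / l) else 0 := by
  obtain ⟨ζ₀, hζ₀⟩ := HasEnoughRootsOfUnity.exists_primitiveRoot QBar l
  have hζ : IsPrimitiveRoot (hζ₀.isUnit (NeZero.ne l)).unit l :=
    IsPrimitiveRoot.coe_units_iff.mp (by simpa using hζ₀)
  have hN0 : heckeNorm N l f ≠ 0 := MazurP.heckeNorm_ne_zero hf
  have key := coeff_dser_of_prod hA hp (n + 1) hζ (X := (fricke N f : LSer))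
    (Y := (fricke N (heckeNorm N l f) : LSer)) (mem_fracS_of_mem _) (coe_fricke_ne_zero hf)
    (mem_fracS_of_mem _) (coe_fricke_ne_zero hN0) (decide (¬ l ∣ N)) (by
      by_cases hN : l ∣ N
      · rw [if_neg (by simpa using hN), one_mul]
        exact qExpand_fricke_heckeNorm_of_dvd N l hl hN hζ f
      · rw [if_pos (by simpa using hN)]
        exact qExpand_fricke_heckeNorm_of_not_dvd N l hl hN hζ f) k
  simp only [decide_eq_true_eq] at key
  have hcancel : ∀ a b : QA A p (n + 1),
      (l : QA A p (n + 1)) * a = (l : QA A p (n + 1)) * b → redQA A p n a = redQA A p n b := by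
    intro a b hab
    rcases eq_or_ne l p with rfl | hlp
    · rw [← sub_eq_zero, ← map_sub]
      exact redQA_eq_zero_of_mul hp (by rw [mul_sub, hab, sub_self])
    · have hu : IsUnit ((l : ℕ) : QA A p (n + 1)) := by
        have h := (isUnit_natCast_A hA hp fun hd =>
          hlp ((Nat.prime_dvd_prime_iff_eq hp hl).mp hd).symm).map (mkQA A p (n + 1))
        rwa [map_natCast] at h
      rw [hu.mul_left_cancel hab]
  have h2 := hcancel _ _ key
  rw [map_add, apply_ite (redQA A p n), map_mul, map_natCast, map_zero] at h2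
  simp only [← coeffMap_coeff] at h2
  show (serF hA hp n (heckeNorm N l f)).coeff k = _
  rw [← coeffMap_redQA_serF hA hp n hN0, ← coeffMap_redQA_serF hA hp n hf]
  exact h2

/-! ### On classes -/

variable [Fact p.Prime]

/-- The Kummer function chosen for a class. -/
def repF (n : ℕ) (x : JTors N p n) : divGrp QBar (FB N) (p ^ n) :=
  (JacTorsion.toTorsion_surjective (K := QBar) (F := FB N) (m := p ^ n) x).choose.toMul

theorem toTorsion_repF (n : ℕ) (x : JTors N p n) :
    toTorsion (Additive.ofMul (repF n x)) = x :=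
  (JacTorsion.toTorsion_surjective (K := QBar) (F := FB N) (m := p ^ n) x).choose_spec

/-- The series of a class. -/
def serTFun (n : ℕ) (x : JTors N p n) : LaurentSeries (QA A p n) :=
  serF hA hp n ((repF n x : (FB N)ˣ) : FB N)

theorem serTFun_toTorsion (n : ℕ) (f : divGrp QBar (FB N) (p ^ n)) :
    serTFun hA hp n (toTorsion (Additive.ofMul f)) = serF hA hp n ((f : (FB N)ˣ) : FB N) := by
  set x : JTors N p n := toTorsion (Additive.ofMul f)
  have h0 : toTorsion (Additive.ofMul (repF n x * f⁻¹)) = 0 := by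
    rw [ofMul_mul, map_add, toTorsion_repF, ofMul_inv, map_neg, add_neg_cancel]
  obtain ⟨g, hg⟩ := (JacTorsion.toTorsion_eq_zero_iff _).mp h0
  have e : ((repF n x : (FB N)ˣ) : FB N) = ((g : (FB N)ˣ) : FB N) ^ (p ^ n) *
      ((f : (FB N)ˣ) : FB N) := by
    rw [← Units.val_pow_eq_pow_val, ← Units.val_mul]
    refine congrArg Units.val ?_
    rw [show g ^ p ^ n = ((repF n x * f⁻¹ : divGrp QBar (FB N) (p ^ n)) : (FB N)ˣ) from hg,
      Subgroup.coe_mul, Subgroup.coe_inv, inv_mul_cancel_right]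
  rw [serTFun, e, serF_mul hA hp n (pow_ne_zero _ (Units.ne_zero _)) (Units.ne_zero _),
    serF_pow hA hp n (Units.ne_zero _), natCast_pow_smul_series, zero_add]

/-- The series of classes killed by `p ^ n`, additively. -/
def serT (n : ℕ) : JTors N p n →+ LaurentSeries (QA A p n) :=
  AddMonoidHom.mk' (serTFun hA hp n) fun x y => by
    obtain ⟨f, rfl⟩ := JacTorsion.toTorsion_surjective x
    obtain ⟨g, rfl⟩ := JacTorsion.toTorsion_surjective y
    rw [← map_add]
    have h1 := serTFun_toTorsion (N := N) hA hp n f.toMul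
    have h2 := serTFun_toTorsion (N := N) hA hp n g.toMul
    have h3 := serTFun_toTorsion (N := N) hA hp n (f.toMul * g.toMul)
    rw [ofMul_toMul] at h1 h2
    rw [ofMul_mul, ofMul_toMul, ofMul_toMul] at h3
    rw [h1, h2, h3, Subgroup.coe_mul, Units.val_mul,
      serF_mul hA hp n (Units.ne_zero _) (Units.ne_zero _)]

theorem serT_toTorsion (n : ℕ) (f : divGrp QBar (FB N) (p ^ n)) :
    serT hA hp n (toTorsion (Additive.ofMul f)) = serF hA hp n ((f : (FB N)ˣ) : FB N) :=
  serTFun_toTorsion hA hp n f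

/-- Galois equivariance. -/
theorem serT_galTors {σ : GQ} {φ : Res A →+* Res A} (hσ : ResLift A σ φ) (n : ℕ)
    (x : JTors N p n) :
    serT hA hp n (galTors n σ x) = coeffMap (sigQA hσ n) (serT hA hp n x) := by
  obtain ⟨f, rfl⟩ := JacTorsion.toTorsion_surjective x
  set g := arithmeticGalois (L := QBar) (modularFunctionFieldFull N) σ
  have hne : galF N σ ((f.toMul : (FB N)ˣ) : FB N) ≠ 0 :=
    (_root_.map_ne_zero _).mpr (Units.ne_zero _)
  have hord : ∀ v : Place QBar (FB N), v.ord (galF N σ ((f.toMul : (FB N)ˣ) : FB N)) =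
      ((p ^ n : ℕ) : ℤ) * (g • divQuot f.toMul) v := fun v => by
    have h1 := SemilinearAut.ord_smul g (g⁻¹ • v) ((f.toMul : (FB N)ˣ) : FB N)
    rw [smul_inv_smul] at h1
    refine h1.trans ?_
    rw [SemilinearAut.divisor_smul_apply, ← FF.div_apply, ← smul_divQuot,
      Finsupp.smul_apply, smul_eq_mul]
  let u : divGrp QBar (FB N) (p ^ n) := ⟨Units.mk0 _ hne, fun v => by
    rw [Units.val_mk0, hord v]; exact dvd_mul_right _ _⟩
  have hu : galTors n σ (toTorsion f) = toTorsion (Additive.ofMul u) := by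
    refine Subtype.ext (congrArg Pic0.mk (Subtype.ext (eq_of_smul_eq (m := p ^ n) ?_))).symm
    show ((p ^ n : ℕ) : ℤ) • divQuot u = ((p ^ n : ℕ) : ℤ) • (g • divQuot f.toMul)
    rw [smul_divQuot]
    ext v
    rw [FF.div_apply, Finsupp.smul_apply, smul_eq_mul, ← hord v]
    rfl
  rw [hu, serT_toTorsion, show toTorsion f = toTorsion (Additive.ofMul f.toMul) from rfl,
    serT_toTorsion]
  exact serF_galF hA hp hσ n (Units.ne_zero _)

/-- Compatibility of the levels. -/
theorem serT_nsmul (n : ℕ) (x : JTors N p (n + 1)) (y : JTors N p n)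
    (hy : (y : JZero N) = p • (x : JZero N)) :
    serT hA hp n y = coeffMap (redQA A p n) (serT hA hp (n + 1) x) := by
  obtain ⟨f, rfl⟩ := JacTorsion.toTorsion_surjective x
  let u : divGrp QBar (FB N) (p ^ n) := ⟨(f.toMul : (FB N)ˣ), fun v =>
    dvd_trans (by exact_mod_cast pow_dvd_pow p n.le_succ) (f.toMul.2 v)⟩
  have hu : y = toTorsion (Additive.ofMul u) := by
    refine Subtype.ext (hy.trans ?_)
    show Pic0.mk (p • (⟨divQuot f.toMul, JacTorsion.divQuot_mem_degZero _⟩ :
        Divisor.degZero (K := QBar) (F := FB N))) = _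
    refine congrArg Pic0.mk (Subtype.ext (eq_of_smul_eq (m := p ^ n) ?_))
    show ((p ^ n : ℕ) : ℤ) • (p • divQuot f.toMul) = ((p ^ n : ℕ) : ℤ) • divQuot u
    rw [smul_divQuot, ← natCast_zsmul (divQuot f.toMul) p, smul_smul, ← Nat.cast_mul, ← pow_succ,
      smul_divQuot]
  rw [hu, serT_toTorsion, show toTorsion f = toTorsion (Additive.ofMul f.toMul) from rfl,
    serT_toTorsion, coeffMap_redQA_serF hA hp n (Units.ne_zero _)]

/-- The Hecke relation on classes. -/
theorem coeff_serT_hecke (n l : ℕ) (hl : l.Prime) (x y : JTors N p n)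
    (hy : (y : JZero N) = heckeOperatorBar N ⟨l, hl⟩ (x : JZero N)) (k : ℤ) :
    (serT hA hp n y).coeff k = (serT hA hp n x).coeff ((l : ℤ) * k) +
      if ¬ l ∣ N ∧ (l : ℤ) ∣ k then (l : QA A p n) * (serT hA hp n x).coeff (k / l) else 0 := by
  have : NeZero l := ⟨hl.ne_zero⟩
  obtain ⟨f, rfl⟩ := JacTorsion.toTorsion_surjective x
  have hin := FF.heckeInputsAlong QBar N l
  change (y : JZero N) = heckeOperatorAlong QBar N l _ at hy
  rw [heckeOperatorAlong, dif_pos hin] at hy
  obtain ⟨f', hf', htor⟩ := GaloisReps.correspondence_toTorsion (heckeBetaBar QBar N l)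
    (heckeAlphaBar QBar N l) hin.snd.fst hin.fst hin.snd.snd.snd.snd.1
    hin.snd.snd.snd.fst hin.snd.snd.snd.snd.2 f.toMul
  obtain rfl : y = toTorsion (Additive.ofMul f') := Subtype.ext (hy.trans htor.symm)
  rw [serT_toTorsion, show toTorsion f = toTorsion (Additive.ofMul f.toMul) from rfl,
    serT_toTorsion,
    show ((f' : (FB N)ˣ) : FB N) = heckeNorm N l ((f.toMul : (FB N)ˣ) : FB N) from hf']
  exact coeff_serF_heckeNorm hA hp n l hl (Units.ne_zero _) k

end Fermat.Agent.RT.AtP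

end
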