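import Fermat.Agent.OrdinaryAtP.Kummer
import Fermat.Agent.RT.MazurP.Basic

/-!
# Kummer functions whose reductions are `p`-th powers

A divisor with a Kummer function whose reductions on both components are, up to constants, `p`-th
powers of residual functions has a class with a Kummer function congruent to one: any pair of
residual functions is, after a chosen scaling on each side, the reduction of one function of level
`p M`.
-/

set_option autoImplicit false

noncomputable section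

namespace Fermat.Agent.RT.AtP

open AlgebraicCurve
open Fermat.Agent.Semistable Fermat.Agent.OrdinaryAtP
open Arith (QBar)
open Fermat.Agent.RT.MazurP (IsRed)

variable {A : ValuationSubring QBar} {p M : ℕ} [NeZero M] [hp : Fact p.Prime] [CharP (Res A) p]
  [FF.IsFunctionField (Res A) (KM A M)]

theorem mem_locS_congr {x y : LSer} (e : x = y) (hy : y ∈ locS A) : x ∈ locS A := e.symm ▸ hy

theorem redL_mul_powA {x y : LSer} (hx : x ∈ locS A) (hy : y ∈ locS A) (n : ℕ) :
    redL A ⟨x * y ^ n, mul_mem hx (pow_mem hy n)⟩ = redL A ⟨x, hx⟩ * redL A ⟨y, hy⟩ ^ n :=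
  (map_mul (redL A) (⟨x, hx⟩ : locS A) ((⟨y, hy⟩ : locS A) ^ n)).trans
    (congrArg (redL A ⟨x, hx⟩ * ·) (map_pow (redL A) (⟨y, hy⟩ : locS A) n))

theorem redL_sumA {ι : Type*} (s : Finset ι) (x : ι → LSer) (hx : ∀ i, x i ∈ locS A) :
    ∃ hm : ∑ i ∈ s, x i ∈ locS A, redL A ⟨_, hm⟩ = ∑ i ∈ s, redL A ⟨x i, hx i⟩ := by
  classical
  induction s using Finset.induction_on with
  | empty =>
    have e : ∑ i ∈ (∅ : Finset ι), x i = 0 := Finset.sum_empty
    refine ⟨mem_locS_congr e (zero_mem _), ?_⟩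
    rw [redL_congr _ (zero_mem _) e, Finset.sum_empty]
    exact map_zero _
  | insert a s ha ih =>
    obtain ⟨hm, er⟩ := ih
    have e := Finset.sum_insert (f := x) ha
    refine ⟨mem_locS_congr e (add_mem (hx a) hm), ?_⟩
    rw [redL_congr _ (add_mem (hx a) hm) e, Finset.sum_insert ha, ← er]
    exact map_add (redL A) (⟨x a, hx a⟩ : locS A) ⟨_, hm⟩

omit [NeZero M] [CharP (Res A) p] [FF.IsFunctionField (Res A) (KM A M)] in
/-- High powers of a series with zero reduction swallow any multiplier. -/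
theorem exists_pow_mul_redL_eq_zero (hA : A.LiesOverPrime p) {e y : LSer} (he : e ∈ locS A)
    (he0 : redL A ⟨e, he⟩ = 0) (hy : y ∈ fracS A) :
    ∃ n : ℕ, ∀ N, n ≤ N → ∃ hm : e ^ N * y ∈ locS A, redL A ⟨_, hm⟩ = 0 := by
  rcases eq_or_ne y 0 with rfl | hy0
  · refine ⟨0, fun N _ => ⟨by rw [mul_zero]; exact zero_mem _, ?_⟩⟩
    rw [redL_congr _ (zero_mem _) (mul_zero _)]
    exact map_zero _
  rcases eq_or_ne e 0 with rfl | hene
  · refine ⟨1, fun N hN => ⟨by rw [zero_pow (by omega), zero_mul]; exact zero_mem _, ?_⟩⟩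
    rw [redL_congr _ (zero_mem _) (by rw [zero_pow (by omega), zero_mul])]
    exact map_zero _
  obtain ⟨a, ha, haE, haEne⟩ := exists_scale hA hp.out (locS_le_fracS he) hene
  obtain ⟨b, hb, hbY, -⟩ := exists_scale hA hp.out hy hy0
  have haA : a ∉ A := fun h => haEne (by
    obtain ⟨h', e'⟩ := redL_const_mul h he
    rw [e', he0, mul_zero])
  have hainv : a⁻¹ ∈ A.nonunits := by
    by_contra hcon
    rcases A.mem_or_inv_mem a with h | h
    · exact haA h
    · refine haA ((A.valuation_le_one_iff a).mp ?_)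
      have hv : A.valuation a⁻¹ = 1 := valuation_eq_one h hcon
      rw [map_inv₀, inv_eq_one] at hv
      rw [hv]
  obtain ⟨n, hn⟩ := exists_pow_valuation_lt hA hp.out hainv (s := b) hb
  refine ⟨n, fun N hN => ?_⟩
  have hlt : A.valuation (a⁻¹ ^ N / b) < 1 := by
    obtain ⟨i, rfl⟩ := Nat.exists_eq_add_of_le hN
    rw [pow_add, mul_div_right_comm, map_mul, map_div₀]
    refine mul_lt_one_of_lt_of_le ((div_lt_one₀ (zero_lt_iff.mpr
      ((Valuation.ne_zero_iff _).mpr hb))).mpr hn) ?_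
    exact (A.valuation_le_one_iff _).mpr (pow_mem (Arith.mem_of_mem_nonunits hainv) i)
  have hab : a⁻¹ ^ N / b ∈ A := (A.valuation_le_one_iff _).mp hlt.le
  obtain ⟨h', e'⟩ := redL_const_mul hab (mul_mem (pow_mem haE N) hbY)
  have heq : e ^ N * y = algebraMap QBar LSer (a⁻¹ ^ N / b) *
      ((algebraMap QBar LSer a * e) ^ N * (algebraMap QBar LSer b * y)) := by
    have hαa : algebraMap QBar LSer a ≠ 0 := (map_ne_zero _).mpr ha
    have hαb : algebraMap QBar LSer b ≠ 0 := (map_ne_zero _).mpr hb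
    rw [map_div₀, map_pow, map_inv₀, mul_pow, inv_pow]
    field_simp [hαb, hαa]
  have hres : IsLocalRing.residue A ⟨a⁻¹ ^ N / b, hab⟩ = 0 :=
    (residue_eq_zero_iff hab).mpr ((ValuationSubring.mem_nonunits_iff A).mpr hlt)
  refine ⟨mem_locS_congr heq h', ?_⟩
  rw [redL_congr _ h' heq, e', hres, map_zero, zero_mul]

variable (h : Setup A M p)
include h

omit [FF.IsFunctionField (Res A) (KM A M)] in
/-- One function with chosen scalings and chosen reductions on the two sides. -/
theorem exists_scaled_lift {γ : Fin 2 → QBar} (hγ : ∀ s, γ s ≠ 0)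
    {w : Fin 2 → LaurentSeries (Res A)} (hw : ∀ s, w s ∈ KM A M) :
    ∃ g : FB (p * M), ∀ s, ∃ hm : algebraMap QBar LSer (γ s)⁻¹ * iota2 M p h.hqM s g ∈ locS A,
      redL A ⟨_, hm⟩ = w s := by
  -- Idempotents of the two reductions, and lifts `χ s` of `w s`.
  obtain ⟨ea, eb, hea, heb⟩ := exists_idem (A := A) M p h.hqM
  set ev : Fin 2 → loc2 A (iota2 M p h.hqM) := ![ea, eb] with hev
  have hevs : ∀ s t, red2 A (iota2 M p h.hqM) (ev s) t = if t = s then 1 else 0 := by
    intro s t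
    fin_cases s <;> fin_cases t <;> simp [hev, hea, heb]
  have hlift : ∀ s, ∃ χ : FB (p * M), ∃ hm : iota2 M p h.hqM s χ ∈ locS A,
      redL A ⟨_, hm⟩ = w s := by
    intro s
    obtain ⟨x, hx⟩ := red1_surjective M h.hM (hw s)
    rw [red1_eq] at hx
    fin_cases s
    · have e : iota2 M p h.hqM 0 (upF M p x.1) = (x.1 : LSer) := by rw [iota2_zero, coe_upF]
      exact ⟨upF M p x.1, mem_locS_congr e ((mem_loc1 M).mp x.2), (redL_congr _ _ e).trans hx⟩
    · have e : iota2 M p h.hqM 1 (downF M p h.hqM x.1) = (x.1 : LSer) := by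
        rw [iota2_one, wEquiv_downF, coe_upF]
      exact ⟨downF M p h.hqM x.1, mem_locS_congr e ((mem_loc1 M).mp x.2),
        (redL_congr _ _ e).trans hx⟩
  choose χ hχ hχr using hlift
  -- A high power of an idempotent kills the other reduction, whatever the scalings.
  have hsmall : ∀ s t, ∃ n, ∀ N, n ≤ N → t ≠ s →
      ∃ hm : iota2 M p h.hqM t (ev s : FB (p * M)) ^ N *
        (algebraMap QBar LSer (γ s / γ t) * iota2 M p h.hqM t (χ s)) ∈ locS A,
        redL A ⟨_, hm⟩ = 0 := fun s t => by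
    by_cases hts : t = s
    · exact ⟨0, fun N _ hne => absurd hts hne⟩
    obtain ⟨n, hn⟩ := exists_pow_mul_redL_eq_zero (p := p) h.hA ((mem_loc2 _).mp (ev s).2 t)
      (by rw [← red2_apply, hevs, if_neg hts])
      (mul_mem (algebraMap_mem_fracS (γ s / γ t)) (iota2_fracS M p h.hqM t (χ s)))
    exact ⟨n, fun N hN _ => hn N hN⟩
  choose n hn using hsmall
  set N := n 0 1 + n 1 0
  have hN : ∀ s t : Fin 2, t ≠ s → n s t ≤ N := by
    intro s t hts
    fin_cases s <;> fin_cases t
    · exact absurd rfl hts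
    · exact Nat.le_add_right _ _
    · exact Nat.le_add_left _ _
    · exact absurd rfl hts
  -- Take the sum of the `γ s * χ s * ev s ^ N`.
  refine ⟨∑ s, algebraMap QBar (FB (p * M)) (γ s) * (χ s * (ev s : FB (p * M)) ^ N), fun t => ?_⟩
  have hsplit : algebraMap QBar LSer (γ t)⁻¹ * iota2 M p h.hqM t
      (∑ s, algebraMap QBar (FB (p * M)) (γ s) * (χ s * (ev s : FB (p * M)) ^ N)) =
      ∑ s, iota2 M p h.hqM t (ev s : FB (p * M)) ^ N *
        (algebraMap QBar LSer (γ s / γ t) * iota2 M p h.hqM t (χ s)) := by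
    rw [map_sum, Finset.mul_sum]
    refine Finset.sum_congr rfl fun s _ => ?_
    rw [map_mul, map_mul, map_pow, AlgHom.commutes, div_eq_mul_inv, map_mul]
    ring
  have key : ∀ s, ∃ hm : iota2 M p h.hqM t (ev s : FB (p * M)) ^ N *
      (algebraMap QBar LSer (γ s / γ t) * iota2 M p h.hqM t (χ s)) ∈ locS A,
      redL A ⟨_, hm⟩ = if t = s then w s else 0 := by
    intro s
    by_cases hts : t = s
    · subst hts
      have e : iota2 M p h.hqM t (ev t : FB (p * M)) ^ N *
          (algebraMap QBar LSer (γ t / γ t) * iota2 M p h.hqM t (χ t)) =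
          iota2 M p h.hqM t (ev t : FB (p * M)) ^ N * iota2 M p h.hqM t (χ t) := by
        rw [div_self (hγ t), map_one, one_mul]
      have hm := mul_mem (pow_mem ((mem_loc2 _).mp (ev t).2 t) N) (hχ t)
      refine ⟨mem_locS_congr e hm, ?_⟩
      rw [redL_congr _ hm e, if_pos rfl]
      rw [redL_congr hm (mul_mem (hχ t) (pow_mem ((mem_loc2 _).mp (ev t).2 t) N)) (mul_comm _ _),
        redL_mul_powA (hχ t) ((mem_loc2 _).mp (ev t).2 t) N, ← red2_apply, hevs, if_pos rfl,
        one_pow, mul_one, hχr]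
    · obtain ⟨hm, e⟩ := hn s t N (hN s t hts) hts
      exact ⟨hm, by rw [e, if_neg hts]⟩
  choose hk hkr using key
  obtain ⟨hsum, er⟩ := redL_sumA Finset.univ _ hk
  refine ⟨mem_locS_congr hsplit hsum, ?_⟩
  rw [redL_congr _ hsum hsplit, er, Finset.sum_congr rfl fun s _ => hkr s,
    Finset.sum_ite_eq Finset.univ t w, if_pos (Finset.mem_univ t)]

omit [FF.IsFunctionField (Res A) ↥(KM A M)] in
/-- **`p`-th power reductions give a class with a Kummer function congruent to one.** -/
theorem connClass_of_isRed_pow {D : Divisor.degZero (K := QBar) (F := FB (p * M))}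
    {f : FB (p * M)} (hf : f ≠ 0) (hord : ∀ v,
      v.ord f = (p : ℤ) * (D : Divisor QBar (FB (p * M))) v)
    (hred : ∀ s, ∃ k ∈ KM A M, IsRed A (iota2 M p h.hqM s f) (k ^ p)) :
    ConnClass h (Pic0.mk D) := by
  have : FF.IsFunctionField QBar (FB (p * M)) := ModFun.isFunctionField_bar (p * M)
  choose k hk hz using hred
  choose hne c hc hcx hcr using hz
  choose γ hγ using fun s => IsAlgClosed.exists_pow_nat_eq (c s) hp.out.pos
  have hγ0 : ∀ s, γ s ≠ 0 := fun s h0 => hc s (by rw [← hγ s, h0, zero_pow hp.out.ne_zero])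
  obtain ⟨g, hg⟩ := exists_scaled_lift h hγ0 (w := fun s => (k s)⁻¹)
    fun s => (KM A M).inv_mem (hk s)
  choose hgm hgr using hg
  have e : ∀ s, iota2 M p h.hqM s (f * g ^ p) = algebraMap QBar LSer (c s) *
      iota2 M p h.hqM s f * (algebraMap QBar LSer (γ s)⁻¹ * iota2 M p h.hqM s g) ^ p := by
    intro s
    have hc' : algebraMap QBar LSer (c s) ≠ 0 := (map_ne_zero _).mpr (hc s)
    rw [map_mul, map_pow, mul_pow, ← map_pow (algebraMap QBar LSer), inv_pow, hγ, map_inv₀]
    field_simp [hc']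
  have hk0 : ∀ s, k s ^ p ≠ 0 := hne
  have hone : IsOne h (f * g ^ p) := by
    have hm : ∀ s, iota2 M p h.hqM s (f * g ^ p) ∈ locS A := fun s =>
      mem_locS_congr (e s) (mul_mem (hcx s) (pow_mem (hgm s) p))
    refine ⟨(mem_loc2 _).mpr hm, funext fun s => ?_⟩
    rw [red2_apply, Pi.one_apply, redL_congr _ (mul_mem (hcx s) (pow_mem (hgm s) p)) (e s)]
    rw [redL_mul_powA (hcx s) (hgm s) p, hcr, hgr, inv_pow, mul_inv_cancel₀ (hk0 s)]
  have hg0 : g ≠ 0 := fun h0 => hone.ne_zero h (by rw [h0, zero_pow hp.out.ne_zero, mul_zero])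
  have hdeg : FF.div QBar g ∈ Divisor.degZero (K := QBar) (F := FB (p * M)) := FF.degree_div _
  refine ⟨D + ⟨_, hdeg⟩, ?_, f * g ^ p, hone, fun v => ?_⟩
  · rw [Pic0.mk_add, add_eq_left, mk_eq_zero_iff]
    exact ⟨g, hg0, fun v => (FF.div_apply _ v).symm⟩
  · rw [v.ord_mul hf (pow_ne_zero _ hg0), FF.ord_pow, hord, AddSubgroup.coe_add, Finsupp.add_apply,
      FF.div_apply]
    ring

end Fermat.Agent.RT.AtP

end
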