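import Fermat.Agent.RT.AtP.Eigen
import Fermat.Agent.RT.MazurP.Basic
import Fermat.Agent.NewformLocal.Toric.NormRed

/-!
# The reduced series of the classes killed by `p`

`cof x k` is the coefficient `k` in the residue field of the series of a class `x` killed by `p`:
the logarithmic derivative of a reduction `z` of `W f`. So it vanishes for `k < 0`, and the Hecke
operator at `p` raises it to the power `p`. `cls lam v` is the class with coordinates `lam (v i)`.
-/

set_option autoImplicit false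

noncomputable section

open ModularCurve
open Fermat.Agent.Semistable
open Fermat.Agent.GaloisReps
open Fermat.Agent.JacTorsion (toTorsion divGrp)
open Fermat.Agent.RT.MazurP (IsRed dlog theta heckeNorm)
open Fermat.Agent.Arith (QBar GQ)

namespace Fermat.Agent.RT.AtP

/-! ### Reductions up to constants -/

section IsRedLemmas

variable {A : ValuationSubring QBar}

theorem isRed_qExpand {x : LSer} {z : LaurentSeries (Res A)} (h : IsRed A x z) (d : ℕ) [NeZero d] :
    IsRed A (qExpand QBar d x) (qExpand (Res A) d z) := by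
  obtain ⟨hz, c, hc, hcx, rfl⟩ := h
  have e : algebraMap QBar LSer c * qExpand QBar d x =
      qExpand QBar d (algebraMap QBar LSer c * x) := by
    rw [map_mul, qExpand_const]
  refine ⟨(map_ne_zero _).mpr hz, c, hc, e ▸ qExpand_mem_locS d hcx, ?_⟩
  rw [redL_congr _ (qExpand_mem_locS d hcx) e, redL_qExpand d hcx]

theorem isRed_prod {ι : Type*} (s : Finset ι) {x : ι → LSer} {z : ι → LaurentSeries (Res A)}
    (h : ∀ i ∈ s, IsRed A (x i) (z i)) : IsRed A (∏ i ∈ s, x i) (∏ i ∈ s, z i) := by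
  classical
  induction s using Finset.induction_on with
  | empty =>
    rw [Finset.prod_empty, Finset.prod_empty, ← map_one (algebraMap QBar LSer)]
    exact IsRed.const one_ne_zero
  | insert a s ha ih =>
    rw [Finset.prod_insert ha, Finset.prod_insert ha]
    exact (h a (Finset.mem_insert_self a s)).mul (ih fun i hi => h i (Finset.mem_insert_of_mem hi))

/-- A twist by a `d`-th root of unity, `d` prime and zero in the residue field, keeps a
reduction. -/
private theorem isRed_twist {d : ℕ} [Fact d.Prime] [CharP (Res A) d] {u : QBarˣ} (hu : u ^ d = 1)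
    {x : LSer} {z : LaurentSeries (Res A)} (h : IsRed A x z) : IsRed A (ModFun.twist u x) z := by
  obtain ⟨hz0, c, hc, hcx, e⟩ := h
  obtain ⟨hm, er⟩ := NewformLocal.Toric.twist_mem_locS (q := d) u hu hcx
  have e2 : algebraMap QBar LSer c * ModFun.twist u x =
      ModFun.twist u (algebraMap QBar LSer c * x) := by
    rw [map_mul]
    congr 1
    ext j
    rw [ModFun.coeff_twist, MazurP.algebraMap_eq_C]
    rcases eq_or_ne j 0 with rfl | hj
    · simp
    · simp [hj]
  exact ⟨hz0, c, hc, e2 ▸ hm, ((redL_congr _ hm e2).trans er).trans e⟩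

theorem dlog_coeffMap {K L : Type*} [Field K] [Field L] (φ : K →+* L) (x : LaurentSeries K) :
    dlog (coeffMap φ x) = coeffMap φ (dlog x) := by
  rw [dlog, dlog, map_div₀, MazurP.theta_coeffMap]

theorem coeff_dlog_of_neg {K : Type*} [Field K] (z : LaurentSeries K) {k : ℤ} (hk : k < 0) :
    (dlog z).coeff k = 0 := by
  by_contra hne
  have hz : z ≠ 0 := fun h => hne (by rw [h, MazurP.dlog_zero]; rfl)
  have hd : dlog z ≠ 0 := fun h => hne (by rw [h]; rfl)
  have hθ : theta K z ≠ 0 := fun h => hd (by rw [dlog, h, zero_div])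
  have hmul : dlog z * z = theta K z := div_mul_cancel₀ _ hz
  have h1 := congrArg HahnSeries.order hmul
  rw [HahnSeries.order_mul hd hz] at h1
  have h2 : z.order ≤ (theta K z).order := HahnSeries.order_le_of_coeff_ne_zero fun h => by
    have h3 : (theta K z).coeff (theta K z).order ≠ 0 := fun h0 =>
      hθ (HahnSeries.coeff_order_eq_zero.mp h0)
    rw [MazurP.coeff_theta, h, mul_zero] at h3
    exact h3 rfl
  have h4 : (dlog z).order ≤ k := HahnSeries.order_le_of_coeff_ne_zero hne
  omega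

theorem theta_eq_zero_of_dlog {K : Type*} [Field K] {z : LaurentSeries K} (hz : z ≠ 0)
    (h : ∀ k, (dlog z).coeff k = 0) : theta K z = 0 := by
  rw [← div_mul_cancel₀ (theta K z) hz]
  show dlog z * z = 0
  rw [show dlog z = 0 from HahnSeries.ext (funext h), zero_mul]

end IsRedLemmas

/-! ### The residual coefficients -/

variable {N p : ℕ} [NeZero N] [Fact p.Prime] {A : ValuationSubring QBar} (hA : A.LiesOverPrime p)

/-- The coefficient in the residue field. -/
def cof (k : ℤ) : JTors N p 1 →+ Res A :=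
  ((resQA hA 0).toAddMonoidHom.comp (HahnSeries.coeff.addMonoidHom k)).comp (serT hA Fact.out 1)

theorem cof_toTorsion (f : divGrp QBar (FB N) (p ^ 1)) {z : LaurentSeries (Res A)}
    (hz : IsRed A (fricke N ((f : (FB N)ˣ) : FB N) : LSer) z) (k : ℤ) :
    cof hA k (toTorsion (Additive.ofMul f)) = (dlog z).coeff k := by
  show resQA hA 0 ((serT hA Fact.out 1 (toTorsion (Additive.ofMul f))).coeff k) = _
  rw [serT_toTorsion, ← coeffMap_coeff]
  exact congrArg (fun w => HahnSeries.coeff w k) (coeffMap_resQA_dser hA Fact.out 0 hz)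

include hA in
/-- Every class has a reduction. -/
theorem exists_isRed (f : divGrp QBar (FB N) (p ^ 1)) :
    ∃ z, IsRed A (fricke N ((f : (FB N)ˣ) : FB N) : LSer) z :=
  IsRed.exists_of_ne_zero hA Fact.out (Semistable.mem_fracS_of_mem _)
    (coe_fricke_ne_zero (Units.ne_zero _))

theorem cof_of_neg {k : ℤ} (hk : k < 0) (x : JTors N p 1) : cof hA k x = 0 := by
  obtain ⟨f, rfl⟩ := JacTorsion.toTorsion_surjective x
  obtain ⟨z, hz⟩ := exists_isRed hA f.toMul
  rw [show toTorsion f = toTorsion (Additive.ofMul f.toMul) from rfl, cof_toTorsion hA _ hz]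
  exact coeff_dlog_of_neg z hk

/-- The Hecke relation. -/
theorem cof_hecke {l : ℕ} (hl : l.Prime) (x : JTors N p 1) (k : ℤ) :
    cof hA k (heckeTors 1 ⟨l, hl⟩ x) = cof hA ((l : ℤ) * k) x +
      if ¬ l ∣ N ∧ (l : ℤ) ∣ k then (l : Res A) * cof hA (k / l) x else 0 := by
  show resQA hA 0 ((serT hA Fact.out 1 (heckeTors 1 ⟨l, hl⟩ x)).coeff k) = _
  rw [coeff_serT_hecke hA Fact.out 1 l hl x _ rfl k, map_add, apply_ite (resQA hA 0), map_mul,
    map_natCast, map_zero]
  rfl

/-- The operator at `p` is Frobenius on the coefficients. -/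
theorem cof_hecke_self [CharP (Res A) p] (x : JTors N p 1) (k : ℤ) :
    cof hA k (heckeTors 1 ⟨p, Fact.out⟩ x) = cof hA k x ^ p := by
  have hp : p.Prime := Fact.out
  obtain ⟨f, rfl⟩ := JacTorsion.toTorsion_surjective x
  rw [show toTorsion f = toTorsion (Additive.ofMul f.toMul) from rfl]
  have hin := FF.heckeInputsAlong QBar N p
  obtain ⟨f', hf', htor⟩ := GaloisReps.correspondence_toTorsion (heckeBetaBar QBar N p)
    (heckeAlphaBar QBar N p) hin.snd.fst hin.fst hin.snd.snd.snd.snd.1
    hin.snd.snd.snd.fst hin.snd.snd.snd.snd.2 f.toMul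
  have hy : heckeTors 1 ⟨p, hp⟩ (toTorsion (Additive.ofMul f.toMul)) =
      toTorsion (Additive.ofMul f') := by
    refine Subtype.ext ?_
    show heckeOperatorAlong QBar N p _ = _
    rw [heckeOperatorAlong, dif_pos hin]
    exact htor.symm
  have hN' : ((f' : (FB N)ˣ) : FB N) = heckeNorm N p ((f.toMul : (FB N)ˣ) : FB N) := hf'
  obtain ⟨z, hz⟩ := exists_isRed hA f.toMul
  obtain ⟨w, hw⟩ := exists_isRed hA f'
  obtain ⟨ζ₀, hζ₀⟩ := HasEnoughRootsOfUnity.exists_primitiveRoot QBar p
  have hζ : IsPrimitiveRoot (hζ₀.isUnit hp.ne_zero).unit p :=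
    IsPrimitiveRoot.coe_units_iff.mp (by simpa using hζ₀)
  set ζ := (hζ₀.isUnit hp.ne_zero).unit
  set X := (fricke N ((f.toMul : (FB N)ˣ) : FB N) : LSer)
  -- the twists of `X` by `p`-th roots of unity all reduce to `z`, so their product to `z ^ p`
  have htw : ∀ i : Fin p, IsRed A (ModFun.twist (ζ ^ (i : ℕ)) X) z := fun i =>
    isRed_twist (d := p) (by rw [← pow_mul, mul_comm, pow_mul, hζ.pow_eq_one, one_pow]) hz
  have hP := isRed_prod Finset.univ (fun i _ => htw i)
  rw [Finset.prod_const, Finset.card_univ, Fintype.card_fin, pow_char_eq_qExpand p z] at hP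
  -- the norm in the Hecke operator is that product, times a series in `q ^ (p ^ 2)` if `p ∤ N`
  have hkey : ∃ v : LaurentSeries (Res A), v ≠ 0 ∧
      dlog v = coeffMap (frobenius (Res A) p) (dlog z) ∧
      IsRed A (qExpand QBar p (fricke N ((f' : (FB N)ˣ) : FB N) : LSer)) (qExpand (Res A) p v) := by
    rw [hN']
    have hfz : coeffMap (frobenius (Res A) p) z ≠ 0 := (map_ne_zero _).mpr hz.1
    by_cases hN : p ∣ N
    · refine ⟨_, hfz, dlog_coeffMap _ _, ?_⟩
      rw [qExpand_fricke_heckeNorm_of_dvd N p hp hN hζ]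
      exact hP
    · refine ⟨qExpand (Res A) p z * coeffMap (frobenius (Res A) p) z,
        mul_ne_zero ((map_ne_zero _).mpr hz.1) hfz, ?_, ?_⟩
      · rw [MazurP.dlog_mul ((map_ne_zero _).mpr hz.1) hfz, MazurP.dlog_qExpand,
          CharP.cast_eq_zero (Res A) p, map_zero, zero_mul, zero_add, dlog_coeffMap]
      · rw [qExpand_fricke_heckeNorm_of_not_dvd N p hp hN hζ, map_mul]
        exact (isRed_qExpand (isRed_qExpand hz p) p).mul hP
  obtain ⟨v, hv0, hv, hvr⟩ := hkey
  obtain ⟨u, hu, hwv⟩ := hvr.unique (isRed_qExpand hw p)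
  -- so `w` is `v` up to a constant, and the logarithmic derivatives agree
  have hwv' : w = algebraMap (Res A) (LaurentSeries (Res A)) u * v :=
    qExpand_injective p (by rw [hwv, map_mul, qExpand_const])
  have hdw : dlog w = dlog v := by
    rw [hwv', MazurP.dlog_mul ((map_ne_zero _).mpr hu) hv0, MazurP.algebraMap_eq_C,
      MazurP.dlog_C, zero_add]
  rw [hy, cof_toTorsion hA _ hw, cof_toTorsion hA _ hz, hdw, hv, coeffMap_coeff, frobenius_def]

/-! ### Classes with coordinates -/

variable (E : TorsionIso N p) {R : Type} [CommRing R]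

/-- The class with coordinates `lam (v i)`. -/
def cls (lam : R →+ ZMod (p ^ 1)) : (Fin (2 * Gamma0.genus N) → R) →+ JTors N p 1 :=
  (E.psi 1).symm.toAddMonoidHom.comp (AddMonoidHom.mk' (fun v i => lam (v i))
    fun _ _ => funext fun _ => map_add lam _ _)

omit [Fact (Nat.Prime p)] in
/-- The coordinates of `cls E lam v` are the values `lam (v i)`. -/
theorem psi_cls (lam : R →+ ZMod (p ^ 1)) (v : Fin (2 * Gamma0.genus N) → R) :
    E.psi 1 (cls E lam v) = fun i => lam (v i) :=
  (E.psi 1).apply_symm_apply _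

omit [Fact (Nat.Prime p)] in
theorem cls_natCast_smul (lam : R →+ ZMod (p ^ 1)) (n : ℕ) (v : Fin (2 * Gamma0.genus N) → R) :
    cls E lam ((n : R) • v) = n • cls E lam v := by
  rw [Nat.cast_smul_eq_nsmul R, map_nsmul]

omit [Fact (Nat.Prime p)] in
theorem lam_natCast_mul (lam : R →+ ZMod (p ^ 1)) (r : R) : lam ((p : R) * r) = 0 := by
  rw [← nsmul_eq_mul, map_nsmul, nsmul_eq_mul,
    (CharP.cast_eq_zero_iff (ZMod (p ^ 1)) (p ^ 1) p).mpr (by rw [pow_one]), zero_mul]

theorem lam_padic_mul (lam : R →+ ZMod (p ^ 1)) (ι : ℤ_[p] →+* R) (a : ℤ_[p]) (r : R) :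
    lam (ι a * r) = PadicInt.toZModPow 1 a * lam r := by
  obtain ⟨b, hb⟩ := ZMod.intCast_surjective (PadicInt.toZModPow 1 a)
  have hker : a - (b : ℤ_[p]) ∈ RingHom.ker (PadicInt.toZModPow (p := p) 1) := by
    rw [RingHom.mem_ker, map_sub, map_intCast, hb, sub_self]
  rw [PadicInt.ker_toZModPow, Ideal.mem_span_singleton] at hker
  obtain ⟨c, hc⟩ := hker
  conv_rhs at hc => rw [pow_one]
  rw [← hb, sub_eq_iff_eq_add.mp hc, map_add ι, map_mul ι, map_natCast,
    map_intCast ι, add_mul, map_add lam, mul_assoc, lam_natCast_mul, zero_add, ← zsmul_eq_mul,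
    map_zsmul,
    zsmul_eq_mul]

theorem cls_mulVec (lam : R →+ ZMod (p ^ 1)) (ι : ℤ_[p] →+* R) (T : JTors N p 1 →+ JTors N p 1)
    (M : Matrix (Fin (2 * Gamma0.genus N)) (Fin (2 * Gamma0.genus N)) ℤ_[p])
    (hT : ∀ x, E.psi 1 (T x) = (M.map (PadicInt.toZModPow 1)).mulVec (E.psi 1 x))
    (v : Fin (2 * Gamma0.genus N) → R) :
    cls E lam ((M.map ι).mulVec v) = T (cls E lam v) := by
  refine (E.psi 1).injective ?_
  rw [psi_cls, hT, psi_cls]
  funext i
  show lam (∑ j, ι (M i j) * v j) = ∑ j, PadicInt.toZModPow 1 (M i j) * lam (v j)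
  rw [map_sum]
  exact Finset.sum_congr rfl fun j _ => lam_padic_mul lam ι _ _

variable (ι : ℤ_[p] →+* R) {θ : FullHecke N →+* R}

include ι in
theorem cls_hecke (lam : R →+ ZMod (p ^ 1)) {l : ℕ} (hl : l.Prime)
    {v : Fin (2 * Gamma0.genus N) → R} (hv : v ∈ eigenspace (latticeMat N) θ) :
    cls E lam (θ (HeckeDuality.heckeOp N 2 l hl) • v) = heckeTors 1 ⟨l, hl⟩ (cls E lam v) := by
  have hι : (matIn (latticeMat N) ℤ_[p] (HeckeDuality.heckeOp N 2 l hl)).map ι =
      matIn (latticeMat N) R (HeckeDuality.heckeOp N 2 l hl) := by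
    ext i j
    simp
  rw [← (mem_eigenspace (latticeMat N) θ v).mp hv, ← hι]
  refine cls_mulVec E lam ι _ _ (fun x => ?_) v
  rw [matIn_apply, latticeMat_heckeOp, map_intCast_toZModPow, ← E.mat_heckeTors, E.mat_mulVec]

theorem cls_gal (lam : R →+ ZMod (p ^ 1)) (σ : GQ) (v : Fin (2 * Gamma0.genus N) → R) :
    cls E lam (((E.gal σ).map ι).mulVec v) = galTors 1 σ (cls E lam v) :=
  cls_mulVec E lam ι _ _ (fun x => by rw [E.map_gal, E.galLvl_mulVec]) v

end Fermat.Agent.RT.AtP

end
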