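import Fermat.Agent.RT.MazurP.Theta
import Fermat.Agent.Semistable.GoodM

/-!
# Functions with zero derivative

In a function field separable over `k(x)`, `k` algebraically closed of characteristic `p`, the
functions killed by a derivation not killing `x` are the `p`-th powers. So the functions of level
`M` over the residue field with zero `θ` are `p`-th powers.
-/

set_option autoImplicit false

noncomputable section

open scoped IntermediateField
open Polynomial
open Fermat.Agent.Arith (QBar)
open Fermat.Agent.RT.MazurP (theta)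

namespace Fermat.Agent.RT.AtP

theorem deriv_pow_eq {L : Type*} [CommRing L] (d : L →+ L)
    (hd : ∀ a b, d (a * b) = a * d b + b * d a) (x : L) (n : ℕ) :
    d (x ^ n) = n * x ^ (n - 1) * d x := by
  induction n with
  | zero =>
    have h1 := hd 1 1
    rw [one_mul, one_mul, left_eq_add] at h1
    rw [pow_zero, h1, Nat.cast_zero, zero_mul, zero_mul]
  | succ n ih =>
    rcases n with _ | n
    · simp
    · rw [pow_succ, hd, ih, Nat.add_sub_cancel, Nat.add_sub_cancel]
      push_cast
      ring

/-- **The kernel of a derivation `d` with `d x ≠ 0` is the `p`-th powers**, if `F` is separable over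
`k(x)`. -/
theorem exists_pow_eq_of_deriv_eq_zero {k F L : Type*} [Field k] [IsAlgClosed k] [Field F]
    [Algebra k F] [Field L] {p : ℕ} [hp : Fact p.Prime] [CharP k p] (x : F)
    [Algebra.IsSeparable k⟮x⟯ F] (σ : F →+* L) (d : L →+ L) 
    (hleib : ∀ a b, d (a * b) = a * d b + b * d a) (hx : d (σ x) ≠ 0)
    {z : F} (hz : d (σ z) = 0) : ∃ h : F, h ^ p = z := by
  have : CharP F p := charP_of_injective_algebraMap (algebraMap k F).injective p
  have : CharP L p := charP_of_injective_ringHom σ.injective p
  have : CharP k⟮x⟯ p := charP_of_injective_algebraMap (algebraMap k k⟮x⟯).injective p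
  have : ExpChar k⟮x⟯ p := ExpChar.prime hp.out
  -- `d` kills the subfield `P` of `p`-th powers, and `F = P(x)` by separability
  set P : Subfield F := (frobenius F p).fieldRange with hP
  have hd : ∀ a ∈ P, d (σ a) = 0 := by
    rintro _ ⟨b, rfl⟩
    rw [frobenius_def, map_pow, deriv_pow_eq d hleib, CharP.cast_eq_zero, zero_mul, zero_mul]
  have halg : IsIntegral P x := IsIntegral.of_pow hp.out.pos (by
    rw [show x ^ p = algebraMap P F ⟨x ^ p, x, frobenius_def p x⟩ from rfl]
    exact isIntegral_algebraMap)
  have htop : ∀ y : F, y ∈ IntermediateField.adjoin P {x} := by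
    have hconst : ∀ a : k, algebraMap k F a ∈ IntermediateField.adjoin P {x} := fun a => by
      obtain ⟨b, rfl⟩ := IsAlgClosed.exists_pow_nat_eq a hp.out.pos
      rw [map_pow]
      exact IntermediateField.algebraMap_mem (IntermediateField.adjoin P {x})
        (⟨algebraMap k F b ^ p, algebraMap k F b, frobenius_def p _⟩ : P)
    have hline : ∀ w ∈ k⟮x⟯, w ∈ IntermediateField.adjoin P {x} := fun w hw => by
      induction hw using IntermediateField.adjoin_induction with
      | mem v hv => exact IntermediateField.subset_adjoin P _ hv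
      | algebraMap a => exact hconst a
      | add u v _ _ hu hv => exact add_mem hu hv
      | inv u _ hu => exact inv_mem hu
      | mul u v _ _ hu hv => exact mul_mem hu hv
    intro y
    have hy : y ∈ IntermediateField.adjoin k⟮x⟯ ((· ^ p ^ 1) '' (Set.univ : Set F)) := by
      rw [← IntermediateField.adjoin_eq_adjoin_pow_expChar_pow_of_isSeparable' k⟮x⟯ F Set.univ p 1]
      exact IntermediateField.subset_adjoin _ _ (Set.mem_univ y)
    induction hy using IntermediateField.adjoin_induction with
    | mem v hv =>
      obtain ⟨b, -, rfl⟩ := hv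
      exact IntermediateField.algebraMap_mem _ (⟨b ^ p ^ 1, b, by rw [pow_one, frobenius_def]⟩ : P)
    | algebraMap a => exact hline _ a.2
    | add u v _ _ hu hv => exact add_mem hu hv
    | inv u _ hu => exact inv_mem hu
    | mul u v _ _ hu hv => exact mul_mem hu hv
  have hzA : z ∈ Algebra.adjoin P {x} := by
    rw [← IntermediateField.adjoin_simple_toSubalgebra_of_isAlgebraic halg.isAlgebraic]
    exact htop z
  -- `z = Q x` with `deg Q < deg μ ≤ p`; then `Q' x = 0`, so `Q' = 0` and `Q` is constant
  obtain ⟨Q₀, hQ₀⟩ := Algebra.adjoin_singleton_eq_range_aeval P x ▸ hzA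
  set μ := minpoly P x with hμ
  set Q := Q₀ %ₘ μ with hQdef
  have hQ : aeval x Q = z := by
    rw [hQdef, aeval_modByMonic_eq_self_of_root (minpoly.aeval P x)]
    exact hQ₀
  have hderiv : ∀ S : P[X], d (σ (aeval x S)) = σ (aeval x (derivative S)) * d (σ x) := by
    intro S
    induction S using Polynomial.induction_on' with
    | add S T hS hT => simp only [map_add, hS, hT, add_mul]
    | monomial m a =>
      rw [derivative_monomial, aeval_monomial, aeval_monomial, map_mul σ, map_mul σ, map_pow σ,
        map_pow σ, hleib, hd (algebraMap P F a) a.2, mul_zero, add_zero, deriv_pow_eq d hleib,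
        map_mul (algebraMap P F), map_natCast, map_mul σ, map_natCast]
      ring
  have hxn : aeval x (derivative Q) = 0 := by
    refine (map_eq_zero σ).mp ((mul_eq_zero.mp ?_).resolve_right hx)
    rw [← hderiv, hQ, hz]
  have hμd : μ.natDegree ≤ p := by
    have h1 := natDegree_le_natDegree
      (minpoly.min P x (p := (X : P[X]) ^ p - C ⟨x ^ p, x, frobenius_def p x⟩)
      (monic_X_pow_sub_C _ hp.out.ne_zero)
      (by rw [map_sub, map_pow, aeval_X, aeval_C, sub_eq_zero]; rfl))
    rwa [natDegree_X_pow_sub_C] at h1
  have hQd : Q.natDegree < μ.natDegree :=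
    natDegree_modByMonic_lt _ (minpoly.monic halg) (fun h => absurd (congrArg natDegree h)
      (by rw [natDegree_one]; exact (minpoly.natDegree_pos halg).ne'))
  have hQ' : derivative Q = 0 := by
    by_contra h0
    have h1 := minpoly.degree_le_of_ne_zero P x h0 hxn
    have h2 := degree_derivative_lt (p := Q) (fun h => h0 (by rw [h, derivative_zero]))
    have h3 : Q.degree ≤ μ.degree := (degree_modByMonic_lt Q₀ (minpoly.monic halg)).le
    exact (h2.trans_le h3).not_ge h1
  have : CharP P p := Subfield.charP P p
  have hQC : Q = C (Q.coeff 0) := by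
    refine Polynomial.ext fun m => ?_
    rcases m with _ | m
    · rw [coeff_C_zero]
    rw [coeff_C_of_ne_zero m.succ_ne_zero]
    rcases lt_or_ge Q.natDegree (m + 1) with h | h
    · exact coeff_eq_zero_of_natDegree_lt h
    have hm := coeff_derivative Q m
    rw [hQ', coeff_zero, eq_comm, mul_eq_zero, ← Nat.cast_succ, CharP.cast_eq_zero_iff P p] at hm
    exact hm.resolve_right fun hd => absurd (Nat.le_of_dvd m.succ_pos hd) (by omega)
  rw [hQC, aeval_C] at hQ
  obtain ⟨b, hb⟩ := (Q.coeff 0).2
  exact ⟨b, by rw [← hQ, ← frobenius_def]; exact hb⟩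

open Fermat.Agent.Semistable

variable {A : ValuationSubring QBar} {p M : ℕ} [Fact p.Prime] [CharP (Res A) p] [NeZero M]

/-- A function of level `M` over the residue field with zero `θ` is a `p`-th power. -/
theorem exists_pow_eq_of_theta_eq_zero (hM : (M : Res A) ≠ 0) {z : LaurentSeries (Res A)}
    (hz : z ∈ KM A M) (h0 : theta (Res A) z = 0) : ∃ h ∈ KM A M, h ^ p = z := by
  have := Arith.residueField_isAlgClosed A
  have := RedTorsion.isSeparable_jF (K := Res A) (N := M) (F := KM A M) rfl hM
  obtain ⟨h, e⟩ := exists_pow_eq_of_deriv_eq_zero (k := Res A) (p := p)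
    (RedTorsion.jF (K := Res A) (N := M) (F := KM A M) rfl) (KM A M).val.toRingHom
    (AddMonoidHom.mk' (theta (Res A)) (map_add (theta (Res A))))
    (MazurP.theta_mul (R := Res A))
    MazurP.red_theta_jqModC_ne_zero (z := ⟨z, hz⟩) h0
  exact ⟨h, h.2, by rw [← SubmonoidClass.coe_pow, e]⟩

end Fermat.Agent.RT.AtP

end
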