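import Fermat.Agent.GaloisReps.KummerHecke
import Fermat.Agent.GaloisReps.Constructor
import Fermat.Agent.Semistable.GaloisAction

/-!
# Transport of torsion classes by a map of function fields

A map of function fields of degree prime to `m` sends the classes killed by `m` injectively to
classes killed by `m`, on Kummer functions.
-/

set_option autoImplicit false

noncomputable section

open AlgebraicCurve ModularCurve
open Fermat.Agent.JacTorsion

namespace Fermat.Agent.RT.AtP

section Generic

variable {K F F' : Type*} [Field K] [IsAlgClosed K] [Field F] [Field F'] [Algebra K F]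
  [Algebra K F'] [FF.IsFunctionField K F] [FF.IsFunctionField K F'] {m : ℕ} [NeZero m]
  (φ : F →ₐ[K] F')

omit [IsAlgClosed K] [NeZero m] in
theorem dvd_ord_map (f : divGrp K F m) (w : Place K F') :
    (m : ℤ) ∣ w.ord (φ ((f : Fˣ) : F)) := by
  let := algebraAlong φ
  have := isScalarTower_along φ
  have hint := FF.isIntegralAlong φ
  have := isIntegral_along φ hint
  have h : Divisor.pullbackAlong φ hint (FF.div K ((f : Fˣ) : F)) w = w.ord (φ ((f : Fˣ) : F)) :=
    Divisor.pullback_apply_eq_ord (fun v => FF.div_apply _ v) w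
  rw [← h, ← smul_divQuot, map_zsmul, Finsupp.smul_apply, smul_eq_mul]
  exact dvd_mul_right _ _

/-- The map on functions. -/
def mapDivGrp : divGrp K F m →* divGrp K F' m where
  toFun f := ⟨Units.map φ.toRingHom.toMonoidHom (f : Fˣ), dvd_ord_map φ f⟩
  map_one' := Subtype.ext (map_one _)
  map_mul' f g := Subtype.ext (map_mul (Units.map φ.toRingHom.toMonoidHom) (f : Fˣ) (g : Fˣ))

theorem toTorsion_map_eq_zero {f : divGrp K F m}
    (hf : toTorsion (Additive.ofMul f) = 0) :
    toTorsion (Additive.ofMul (mapDivGrp φ f)) = 0 := by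
  obtain ⟨g, hg⟩ := (toTorsion_eq_zero_iff f).mp hf
  refine (toTorsion_eq_zero_iff _).mpr ⟨Units.map φ.toRingHom.toMonoidHom g, ?_⟩
  rw [powMonoidHom_apply] at hg ⊢
  rw [← map_pow, hg]
  rfl

/-- The map on classes. -/
def mapTors : Pic0.torsion K F m →+ Pic0.torsion K F' m :=
  AddMonoidHom.mk' (fun x => toTorsion (Additive.ofMul (mapDivGrp φ
      (toTorsion_surjective x).choose.toMul))) fun x y => by
    set a := (toTorsion_surjective (K := K) (F := F) (m := m) x).choose with ha
    set b := (toTorsion_surjective (K := K) (F := F) (m := m) y).choose with hb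
    set c := (toTorsion_surjective (K := K) (F := F) (m := m) (x + y)).choose with hc
    have hx : toTorsion a = x := (toTorsion_surjective x).choose_spec
    have hy : toTorsion b = y := (toTorsion_surjective y).choose_spec
    have hxy : toTorsion c = x + y := (toTorsion_surjective (x + y)).choose_spec
    have h0 := toTorsion_map_eq_zero φ (f := c.toMul * (a.toMul * b.toMul)⁻¹) (by
      rw [ofMul_mul, ofMul_inv, ofMul_mul, ofMul_toMul, ofMul_toMul, ofMul_toMul, map_add, map_neg,
        map_add, hx, hy, hxy, add_neg_cancel])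
    rw [map_mul, map_inv, ofMul_mul, ofMul_inv, map_add, map_neg, add_neg_eq_zero, map_mul,
      ofMul_mul, map_add] at h0
    exact h0

theorem mapTors_toTorsion (f : divGrp K F m) :
    mapTors φ (toTorsion (Additive.ofMul f)) =
      toTorsion (Additive.ofMul (mapDivGrp φ f)) := by
  set x : Pic0.torsion K F m := toTorsion (Additive.ofMul f)
  set a := (toTorsion_surjective (K := K) (F := F) (m := m) x).choose with ha
  have hx : toTorsion a = x := (toTorsion_surjective x).choose_spec
  have h0 := toTorsion_map_eq_zero φ (f := a.toMul * f⁻¹) (by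
    rw [ofMul_mul, ofMul_inv, ofMul_toMul, map_add, map_neg, hx, add_neg_cancel])
  rw [map_mul, map_inv, ofMul_mul, ofMul_inv, map_add, map_neg, add_neg_eq_zero] at h0
  exact h0

/-- A map of degree prime to `m` is injective on classes. -/
theorem mapTors_injective {d : ℕ} (hd : finrankAlong K φ = d) (hco : Nat.Coprime m d) :
    Function.Injective (mapTors (m := m) φ) := by
  refine (injective_iff_map_eq_zero _).mpr fun x hx => ?_
  obtain ⟨f, rfl⟩ := toTorsion_surjective x
  rw [show toTorsion f = toTorsion (Additive.ofMul f.toMul) from rfl, mapTors_toTorsion] at hx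
  obtain ⟨g, hg⟩ := (toTorsion_eq_zero_iff _).mp hx
  rw [powMonoidHom_apply] at hg
  let := algebraAlong φ
  have := isScalarTower_along φ
  have : Module.Finite F F' := FF.finiteAlong φ
  have h1 : Algebra.norm F ((g : F'ˣ) : F') ^ m = ((f.toMul : Fˣ) : F) ^ d := by
    rw [← map_pow, ← Units.val_pow_eq_pow_val, hg]
    refine (Algebra.norm_algebraMap _).trans ?_
    rw [show Module.finrank F F' = d from hd]
  have h2 := (Nat.Coprime.cast (R := ℤ) hco)
  obtain ⟨a, b, hab⟩ := h2
  refine (toTorsion_eq_zero_iff f.toMul).mpr ⟨(f.toMul : Fˣ) ^ a *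
    Units.mk0 _ (Algebra.norm_ne_zero_iff.mpr (Units.ne_zero g)) ^ b, ?_⟩
  rw [powMonoidHom_apply, mul_pow, ← zpow_natCast, ← zpow_natCast, ← zpow_mul, ← zpow_mul,
    mul_comm b, zpow_mul _ (m : ℤ) b, zpow_natCast]
  have h3 : Units.mk0 _ (Algebra.norm_ne_zero_iff.mpr (Units.ne_zero g)) ^ m =
      (f.toMul : Fˣ) ^ d := Units.ext (by simpa using h1)
  rw [h3, ← zpow_natCast, ← zpow_mul, ← zpow_add, mul_comm (d : ℤ) b, hab, zpow_one]
  rfl

end Generic

section Galois

open Fermat.Agent.Semistable
open Arith (QBar GQ)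
open GaloisReps (galTors JTors)

variable {N : ℕ} [NeZero N] {p : ℕ} [Fact p.Prime] (n : ℕ)

/-- Galois on the Kummer function of a class. -/
theorem exists_galTors_toTorsion (σ : GQ) (f : divGrp QBar (FB N) (p ^ n)) :
    ∃ u : divGrp QBar (FB N) (p ^ n),
      ((u : (FB N)ˣ) : FB N) = galF N σ ((f : (FB N)ˣ) : FB N) ∧
        galTors n σ (toTorsion (Additive.ofMul f)) = toTorsion (Additive.ofMul u) := by
  set g := arithmeticGalois (L := AlgebraicClosure ℚ) (modularFunctionFieldFull N) σ
  have hne : galF N σ ((f : (FB N)ˣ) : FB N) ≠ 0 := (_root_.map_ne_zero _).mpr (Units.ne_zero _)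
  have hord : ∀ v : Place QBar (FB N), v.ord (galF N σ ((f : (FB N)ˣ) : FB N)) =
      ((p ^ n : ℕ) : ℤ) * (g • divQuot f) v := fun v => by
    have h1 := SemilinearAut.ord_smul g (g⁻¹ • v) ((f : (FB N)ˣ) : FB N)
    rw [smul_inv_smul] at h1
    refine h1.trans ?_
    rw [SemilinearAut.divisor_smul_apply, ← FF.div_apply, ← smul_divQuot,
      Finsupp.smul_apply, smul_eq_mul]
  let u : divGrp QBar (FB N) (p ^ n) := ⟨Units.mk0 _ hne, fun v => by
    rw [Units.val_mk0, hord v]; exact dvd_mul_right _ _⟩
  refine ⟨u, rfl, (Subtype.ext (congrArg Pic0.mk (Subtype.ext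
    (eq_of_smul_eq (m := p ^ n) ?_)))).symm⟩
  show ((p ^ n : ℕ) : ℤ) • divQuot u = ((p ^ n : ℕ) : ℤ) • (g • divQuot f)
  rw [smul_divQuot]
  ext v
  rw [FF.div_apply, Finsupp.smul_apply, smul_eq_mul, ← hord v]
  rfl

theorem mapTors_galTors {N' : ℕ} [NeZero N'] (φ : FB N →ₐ[QBar] FB N') (σ : GQ)
    (hφ : ∀ x, φ (galF N σ x) = galF N' σ (φ x))
    (x : JTors N p n) :
    mapTors φ (galTors n σ x) = galTors n σ (mapTors φ x) := by
  obtain ⟨f, rfl⟩ := toTorsion_surjective x
  obtain ⟨u, hu, e⟩ := exists_galTors_toTorsion n σ f.toMul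
  obtain ⟨u', hu', e'⟩ := exists_galTors_toTorsion n σ (mapDivGrp φ f.toMul)
  rw [show toTorsion f = toTorsion (Additive.ofMul f.toMul) from rfl, e, mapTors_toTorsion,
    mapTors_toTorsion, e']
  refine congrArg (fun z => toTorsion (Additive.ofMul z)) (Subtype.ext (Units.ext ?_))
  rw [hu']
  show φ ((u : (FB N)ˣ) : FB N) = _
  rw [hu, hφ]
  rfl

end Galois

end Fermat.Agent.RT.AtP

end
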