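import Fermat.Agent.RT.AtP.Conn
import Fermat.Agent.RT.AtP.Theta
import Fermat.Agent.RT.AtP.Transport
import Fermat.Agent.RT.AtP.ResClasses
import Fermat.Agent.NewformLocal.Toric.Model

/-!
# Classes with zero reduced series are congruent to one

At level `M` prime to `p` the image by `W` and the inclusion in level `p M`, at level `p M` the
image by `W` of a class of an eigenspace which is new at `p`, have trivial gluing as soon as all
residual coefficients vanish: on both components the reduction is a `p`-th power. On the second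
component this comes from the degeneracy map: the norm to level `M` of a Kummer function is a
`p`-th power.
-/

set_option autoImplicit false

noncomputable section

namespace Fermat.Agent.RT.AtP

attribute [local instance 10000] SubalgebraClass.toAlgebra HahnSeries.powerSeriesAlgebra

open ModularCurve AlgebraicCurve
open Fermat.Agent.Semistable Fermat.Agent.OrdinaryAtP
open Fermat.Agent.GaloisReps
open Fermat.Agent.JacTorsion (toTorsion divGrp divQuot divQuot_mem_degZero smul_divQuot)
open Fermat.Agent.RT.MazurP (IsRed dlog theta)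
open Fermat.Agent.NewformLocal (levelPrimes)
open Fermat.Agent.NewformLocal.Toric (normUp monodromy)
open Arith (QBar GQ)

variable {p M : ℕ} [Fact p.Prime] [NeZero M]

attribute [local irreducible] mapTors

/-! ### The transports -/

/-- The map by `W`. -/
def frickeTors (N : ℕ) [NeZero N] (m : ℕ) [NeZero m] :
    Pic0.torsion QBar (FB N) m →+ Pic0.torsion QBar (FB N) m :=
  mapTors (fricke N).toAlgHom

theorem frickeTors_frickeTors {N : ℕ} [NeZero N] {m : ℕ} [NeZero m]
    (x : Pic0.torsion QBar (FB N) m) : frickeTors N m (frickeTors N m x) = x := by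
  obtain ⟨f, rfl⟩ := JacTorsion.toTorsion_surjective x
  rw [show toTorsion f = toTorsion (Additive.ofMul f.toMul) from rfl, frickeTors, mapTors_toTorsion,
    mapTors_toTorsion]
  exact congrArg (fun z => toTorsion (Additive.ofMul z))
    (Subtype.ext (Units.ext (fricke_fricke N _)))

variable (p M) in
/-- The map from level `M` to level `p M`. -/
def upTors : JTors M p 1 →+ JTors (p * M) p 1 :=
  (mapTors (upF M p)).comp (frickeTors M (p ^ 1))

theorem upTors_injective (hpM : ¬ p ∣ M) : Function.Injective (upTors p M) := by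
  have h1 : Function.Injective (mapTors (m := p ^ 1) (upF M p)) :=
    mapTors_injective (upF M p) (NewformLocal.Toric.finrankAlong_upF p M hpM)
      (by rw [pow_one]; simp)
  have h2 : Function.Injective (frickeTors M (p ^ 1)) :=
    Function.LeftInverse.injective (frickeTors_frickeTors (N := M) (m := p ^ 1))
  rw [upTors, AddMonoidHom.coe_comp]
  exact h1.comp h2

theorem frickeTors_galTors {N : ℕ} [NeZero N] (σ : GQ) (x : JTors N p 1) :
    frickeTors N (p ^ 1) (galTors 1 σ x) = galTors 1 σ (frickeTors N (p ^ 1) x) :=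
  mapTors_galTors 1 _ σ (fun y => fricke_galF N σ y) x

theorem coe_mapDivGrp {F F' : Type*} [Field F] [Field F'] [Algebra QBar F] [Algebra QBar F']
    [FF.IsFunctionField QBar F] [FF.IsFunctionField QBar F'] {m : ℕ} [NeZero m]
    (φ : F →ₐ[QBar] F') (f : divGrp QBar F m) :
    ((mapDivGrp φ f : F'ˣ) : F') = φ ((f : Fˣ) : F) := rfl

theorem frickeTors_toTorsion {N : ℕ} [NeZero N] {m : ℕ} [NeZero m] (f : divGrp QBar (FB N) m) :
    ∃ g : divGrp QBar (FB N) m, ((g : (FB N)ˣ) : FB N) = fricke N ((f : (FB N)ˣ) : FB N) ∧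
      frickeTors N m (toTorsion (Additive.ofMul f)) = toTorsion (Additive.ofMul g) :=
  ⟨_, coe_mapDivGrp (fricke N).toAlgHom f,
    mapTors_toTorsion _ f⟩

theorem upTors_toTorsion (f : divGrp QBar (FB M) (p ^ 1)) :
    ∃ g : divGrp QBar (FB (p * M)) (p ^ 1),
      ((g : (FB (p * M))ˣ) : FB (p * M)) = upF M p (fricke M ((f : (FB M)ˣ) : FB M)) ∧
      upTors p M (toTorsion (Additive.ofMul f)) = toTorsion (Additive.ofMul g) := by
  obtain ⟨g, hg, e⟩ := frickeTors_toTorsion f
  refine ⟨mapDivGrp (upF M p) g, ?_, ?_⟩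
  · rw [coe_mapDivGrp, hg]
  · rw [upTors, AddMonoidHom.comp_apply, e, mapTors_toTorsion]

theorem upTors_galTors (σ : GQ) (x : JTors M p 1) :
    upTors p M (galTors 1 σ x) = galTors 1 σ (upTors p M x) := by
  show mapTors _ (frickeTors M (p ^ 1) (galTors 1 σ x)) = _
  rw [frickeTors_galTors]
  exact mapTors_galTors 1 _ σ (fun y => (galF_upF M p σ y).symm) _

/-! ### Congruent to one -/

variable {A : ValuationSubring QBar} [CharP (Res A) p] [FF.IsFunctionField (Res A) (KM A M)]

omit [FF.IsFunctionField (Res A) ↥(KM A M)] in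
theorem connClass_toTorsion (h : Setup A M p) (f : divGrp QBar (FB (p * M)) (p ^ 1))
    (hred : ∀ s, ∃ k ∈ KM A M, IsRed A (iota2 M p h.hqM s ((f : (FB (p * M))ˣ) : FB (p * M)))
      (k ^ p)) :
    ConnClass h ((toTorsion (Additive.ofMul f) : JTors (p * M) p 1) : JZero (p * M)) := by
  have : FF.IsFunctionField QBar (FB (p * M)) := ModFun.isFunctionField_bar (p * M)
  refine connClass_of_isRed_pow h (D := ⟨divQuot f, divQuot_mem_degZero f⟩) (Units.ne_zero _)
    (fun v => ?_) hred
  rw [← FF.div_apply, ← smul_divQuot f, Finsupp.smul_apply, smul_eq_mul]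
  exact congrArg (fun z : ℕ => (z : ℤ) * divQuot f v) (pow_one p)

omit [CharP (Res A) p] in
/-- The reduction of `W f` has zero `θ` when all coefficients of the class vanish. -/
theorem theta_red_eq_zero {N : ℕ} [NeZero N] (hA : A.LiesOverPrime p)
    {f : divGrp QBar (FB N) (p ^ 1)} (hall : ∀ k, cof hA k (toTorsion (Additive.ofMul f)) = 0)
    {z : LaurentSeries (Res A)} (hz : IsRed A (fricke N ((f : (FB N)ˣ) : FB N) : LSer) z) :
    theta (Res A) z = 0 :=
  theta_eq_zero_of_dlog hz.1 fun k => by rw [← cof_toTorsion hA f hz k, hall k]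

omit [FF.IsFunctionField (Res A) ↥(KM A M)] in
/-- At level `M`: if all the coefficients of `x` vanish, its pullback to level `p M` is a class with
a Kummer function congruent to one. -/
theorem connClass_upTors (h : Setup A M p) (x : JTors M p 1) (hall : ∀ k, cof h.hA k x = 0) :
    ConnClass h ((upTors p M x : JTors (p * M) p 1) : JZero (p * M)) := by
  obtain ⟨f, rfl⟩ := JacTorsion.toTorsion_surjective x
  obtain ⟨f, rfl⟩ : ∃ g, Additive.ofMul g = f := ⟨f.toMul, rfl⟩
  obtain ⟨g, hg, e⟩ := upTors_toTorsion (p := p) f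
  rw [e]
  refine connClass_toTorsion h g ?_
  rw [hg]
  obtain ⟨z, hz⟩ := exists_isRed h.hA f
  set y : FB M := fricke M ((f : (FB M)ˣ) : FB M) with hy
  have hup : IsRed A (upF M p y : LSer) z := by rw [coe_upF]; exact hz
  obtain ⟨k, hk, hkz⟩ := exists_pow_eq_of_theta_eq_zero h.hM
    (MazurP.isRed_mem_KM p M h.hqM h.hA h.hM (s := 0) (x := upF M p y) hup)
    (theta_red_eq_zero h.hA hall hz)
  intro s
  fin_cases s
  · refine ⟨k, hk, ?_⟩
    rw [hkz]
    exact hup
  · refine ⟨qExpand (Res A) p k, Semistable.qExpand_mem_KM hk, ?_⟩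
    show IsRed A (wEquiv p M h.hqM (upF M p y) : LSer) _
    rw [wEquiv_upF, coe_downF, ← map_pow, hkz]
    exact isRed_qExpand hz p

omit [FF.IsFunctionField (Res A) (KM A M)] [CharP (Res A) p] in
/-- `W` of level `M` is `w ∘ W` of level `p M` under the inclusion. -/
theorem wEquiv_fricke_upF (hpM : ¬ p ∣ M) (x : FB M) :
    wEquiv p M hpM (fricke (p * M) (upF M p x)) = upF M p (fricke M x) := by
  have h : ((wEquiv p M hpM).toAlgHom.comp ((fricke (p * M)).toAlgHom.comp (upF M p))).toRingHom =
      ((upF M p).comp (fricke M).toAlgHom).toRingHom := by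
    refine fb_ringHom_ext (fun a => by simp) fun d => ?_
    show wEquiv p M hpM (fricke (p * M) (upF M p (genF M d))) = upF M p (fricke M (genF M d))
    have e : ∀ d : Dvs M, upF M p (genF M d) = genF (p * M) ⟨d.1, dvd_mul_of_dvd_right d.2 p⟩ :=
      fun d => Subtype.ext (by rw [coe_upF]; rfl)
    rw [e, fricke_gen, fricke_gen, wEquiv_gen, e]
    refine congrArg (genF (p * M)) (Subtype.ext ?_)
    show swapFun p (p * M / d.1) = M / d.1
    rw [Nat.mul_div_assoc p d.2, swapFun_mul p (Fact.out : p.Prime).ne_zero]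
  exact DFunLike.congr_fun h x

omit [FF.IsFunctionField (Res A) (KM A M)] [CharP (Res A) p] in
/-- `W` and the norm. -/
theorem fricke_normUp (hpM : ¬ p ∣ M) (f : FB (p * M)) :
    fricke M (normUp p M f) = normUp p M (wEquiv p M hpM (fricke (p * M) f)) := by
  let := algebraAlong (upF M p)
  have h := Algebra.norm_eq_of_equiv_equiv (fricke M).toRingEquiv
    ((fricke (p * M)).trans (wEquiv p M hpM)).toRingEquiv
    (RingHom.ext fun x => by
      show upF M p (fricke M x) = wEquiv p M hpM (fricke (p * M) (upF M p x))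
      rw [wEquiv_fricke_upF]) f
  show fricke M (Algebra.norm (FB M) f) = Algebra.norm (FB M) (wEquiv p M hpM (fricke (p * M) f))
  rw [h]
  exact (fricke M).toRingEquiv.apply_symm_apply _

variable {R : Type} [CommRing R] [IsDomain R] {θ : FullHecke (p * M) →+* R}

omit [FF.IsFunctionField (Res A) (KM A M)] [CharP (Res A) p] in
/-- The degeneracy map kills the classes of an eigenspace new at `p`. -/
theorem exists_normUp_cls (hpM : ¬ p ∣ M) (hR : M ∣ p * M)
    (t : CuspForm.heckeAlgebra (p * M) 2 (levelPrimes (p * M)))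
    (ht : ∀ f : CuspForm (CongruenceSubgroup.Gamma0 M) 2, t.1 (Newforms.levelIncl hR f) = 0)
    (hθt : θ (toFull _ t) ≠ 0) {v : Fin (2 * Gamma0.genus (p * M)) → R}
    (hv : v ∈ eigenspace (latticeMat (p * M)) θ) (lam : R →+ ZMod (p ^ 1))
    (f : divGrp QBar (FB (p * M)) (p ^ 1))
    (hf : toTorsion (Additive.ofMul f) =
      cls (torsionIso (p * M) p (conjProperty (p * M))) lam v) :
    ∃ g : FB M, g ≠ 0 ∧ normUp p M ((f : (FB (p * M))ˣ) : FB (p * M)) = g ^ p := by
  set E := torsionIso (p * M) p (conjProperty (p * M))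
  have h := NewformLocal.Toric.raiseData (q := p) (M := M) hpM
  obtain ⟨C, S, W, hS⟩ := NewformLocal.Toric.exists_degeneracySystems h (mul_comm p M)
  obtain ⟨⟨ψ, hψ⟩, hψv⟩ := (coord_bijective (N := p * M) R).2 v
  change coord (p * M) R ψ = v at hψv
  have hc : coord (p * M) R ((AddMonoidHom.mulLeft (θ (toFull _ t))).comp ψ) =
      ((latticeMat _ (toFull _ t)).map (Int.castRingHom R)).mulVec v := by
    rw [← matIn_apply, (mem_eigenspace (latticeMat (p * M)) θ v).mp hv]
    funext i
    show θ (toFull _ t) * coord (p * M) R ψ i = θ (toFull _ t) * v i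
    rw [hψv]
  obtain ⟨h1, -⟩ := NewformLocal.Toric.degeneracy_eq_zero' h (mul_comm p M) hR t ht
    (comp_mem_ellParHoms _ hψ) v hc hS
  rw [atkinHom_comp, Periods.HeckeSystem.apply_comp] at h1
  have h2 : C.apply (atkinHom _ R ψ) = 0 := AddMonoidHom.ext fun x =>
    (mul_eq_zero.mp (DFunLike.congr_fun h1 x)).resolve_left hθt
  have hmon : monodromy f = atkinHom _ (ZMod (p ^ 1)) (lam.comp ψ) := by
    have he : (E.e 1 (toTorsion (Additive.ofMul f)) :
        Additive (CongruenceSubgroup.Gamma0 (p * M)) →+ ZMod (p ^ 1)) = lam.comp ψ := by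
      refine eq_of_coord (E.e 1 _).2 (comp_mem_ellParHoms _ hψ) ?_
      rw [← E.psi_apply, hf, psi_cls]
      funext i
      rw [← hψv]
      rfl
    rw [← he]
    show monodromy f =
      atkinHom _ _ (atkinHom _ _ (JacTorsion.torsionEquiv (p * M) (p ^ 1) (toTorsion _)).1)
    rw [atkinHom_atkinHom]
    rfl
  obtain ⟨g, hg, hN⟩ := NewformLocal.Toric.exists_normUp_eq_pow hpM C hS.cor_rep f (by
    rw [hmon, atkinHom_comp, Periods.HeckeSystem.apply_comp, h2, AddMonoidHom.comp_zero])
  exact ⟨g, hg, hN.trans (by rw [pow_one])⟩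

omit [FF.IsFunctionField (Res A) ↥(KM A M)] in
/-- At level `p M`: an eigen class new at `p` with all coefficients vanishing is moved by `W` to a
class with a Kummer function congruent to one. -/
theorem connClass_frickeTors (h : Setup A M p) (hR : M ∣ p * M)
    (t : CuspForm.heckeAlgebra (p * M) 2 (levelPrimes (p * M)))
    (ht : ∀ f : CuspForm (CongruenceSubgroup.Gamma0 M) 2, t.1 (Newforms.levelIncl hR f) = 0)
    (hθt : θ (toFull _ t) ≠ 0) {v : Fin (2 * Gamma0.genus (p * M)) → R}
    (hv : v ∈ eigenspace (latticeMat (p * M)) θ) (lam : R →+ ZMod (p ^ 1))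
    (hall : ∀ k, cof h.hA k (cls (torsionIso (p * M) p (conjProperty (p * M))) lam v) = 0) :
    ConnClass h ((frickeTors (p * M) (p ^ 1)
      (cls (torsionIso (p * M) p (conjProperty (p * M))) lam v) : JTors (p * M) p 1) :
        JZero (p * M)) := by
  have hp : p.Prime := Fact.out
  -- a Kummer function `f` of the class, whose norm down is a `p`-th power
  obtain ⟨f, hf⟩ := JacTorsion.toTorsion_surjective
    (cls (torsionIso (p * M) p (conjProperty (p * M))) lam v)
  obtain ⟨f, rfl⟩ : ∃ g, Additive.ofMul g = f := ⟨f.toMul, rfl⟩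
  obtain ⟨g, hg, hN⟩ := exists_normUp_cls h.hqM hR t ht hθt hv lam f hf
  rw [← hf] at hall ⊢
  obtain ⟨g', hg', e'⟩ := frickeTors_toTorsion f
  rw [e']
  refine connClass_toTorsion h g' ?_
  rw [hg']
  set y : FB (p * M) := fricke (p * M) ((f : (FB (p * M))ˣ) : FB (p * M)) with hy
  have hy0 : y ≠ 0 := (map_ne_zero _).mpr (Units.ne_zero _)
  -- the reductions at the two cusps
  obtain ⟨z₀, hz₀⟩ := exists_isRed h.hA f
  obtain ⟨z₁, hz₁⟩ := IsRed.exists_of_ne_zero h.hA hp
    (Semistable.mem_fracS_of_mem (wEquiv p M h.hqM y))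
    (fun e => hy0 ((map_eq_zero (wEquiv p M h.hqM)).mp (Subtype.ext e)))
  -- `θ` kills the first, the coefficients being zero
  have h0 : theta (Res A) z₀ = 0 := theta_red_eq_zero h.hA hall hz₀
  -- and the second, by comparing the norm down with the `p`-th power
  have h1 : theta (Res A) z₁ = 0 := by
    obtain ⟨zg, hzg⟩ := IsRed.exists_of_ne_zero h.hA hp (Semistable.mem_fracS_of_mem (fricke M g))
      (coe_fricke_ne_zero hg)
    have hnorm : (normUp p M (wEquiv p M h.hqM y) : LSer) = (fricke M g : LSer) ^ p := by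
      rw [hy, ← fricke_normUp h.hqM, hN, map_pow, SubmonoidClass.coe_pow]
    obtain ⟨hz₀0, c₀, hc₀, hm₀, e₀⟩ := hz₀
    obtain ⟨hz₁0, c₁, hc₁, hm₁, e₁⟩ := hz₁
    have ew : algebraMap QBar LSer c₀ * (wEquiv p M h.hqM (wEquiv p M h.hqM y) : LSer) =
        algebraMap QBar LSer c₀ * (y : LSer) := by rw [wEquiv_wEquiv]
    have ew' := (redL_congr (mem_locS_congr ew hm₀) hm₀ ew).trans e₀
    obtain ⟨hm, e⟩ := NewformLocal.Toric.redL_normUp h.hqM h.hA (x := wEquiv p M h.hqM y) hm₁
      (mem_locS_congr ew hm₀) (by rw [e₁]; exact hz₁0) (by rw [ew']; exact hz₀0)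
    rw [e₁, ew'] at e
    set F := coeffMap (frobenius (Res A) p) z₀ with hF
    have hF0 : F ≠ 0 := (map_ne_zero _).mpr hz₀0
    have hr : IsRed A ((fricke M g : LSer) ^ p) (z₁ * F) := by
      rw [← hnorm]
      exact ⟨mul_ne_zero hz₁0 hF0, _, mul_ne_zero hc₁ (pow_ne_zero _ hc₀), hm, e⟩
    obtain ⟨u, -, eu⟩ := (hzg.pow p).unique hr
    have hθF : theta (Res A) F = 0 := by rw [hF, MazurP.theta_coeffMap, h0, map_zero]
    have hθ : theta (Res A) (z₁ * F) = 0 := by
      have hpow := deriv_pow_eq (AddMonoidHom.mk' (theta (Res A)) (map_add (theta (Res A))))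
        (MazurP.theta_mul (R := Res A)) zg p
      change theta (Res A) (zg ^ p) = _ at hpow
      have : CharP (LaurentSeries (Res A)) p :=
        charP_of_injective_algebraMap (algebraMap (Res A) (LaurentSeries (Res A))).injective p
      rw [eu, MazurP.theta_mul, hpow, CharP.cast_eq_zero, zero_mul, zero_mul, mul_zero,
        MazurP.algebraMap_eq_C, MazurP.theta_C, mul_zero, add_zero]
    rw [MazurP.theta_mul, hθF, mul_zero, zero_add] at hθ
    exact (mul_eq_zero.mp hθ).resolve_left hF0
  -- reductions killed by `θ` are `p`-th powers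
  intro s
  fin_cases s
  · obtain ⟨k, hk, hkz⟩ := exists_pow_eq_of_theta_eq_zero h.hM
      (MazurP.isRed_mem_KM p M h.hqM h.hA h.hM (s := 0) (x := y) hz₀) h0
    exact ⟨k, hk, hkz ▸ hz₀⟩
  · obtain ⟨k, hk, hkz⟩ := exists_pow_eq_of_theta_eq_zero h.hM
      (MazurP.isRed_mem_KM p M h.hqM h.hA h.hM (s := 1) (x := y) hz₁) h1
    exact ⟨k, hk, hkz ▸ hz₁⟩

end Fermat.Agent.RT.AtP

end
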