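import Fermat.Agent.RT.AtP.Quot
import Fermat.Agent.RT.MazurP.Bounds

/-!
# The logarithmic derivative modulo `p ^ n` and its congruence

For a nonzero quotient of integral series `x`, scaled to have nonzero reduction, `dser n x` is
`θ x / x` over `A / p ^ n`. It is additive, commutes with Galois and with `q ↦ q ^ d`, and its
coefficients at `q ^ (p ^ j)` for large `j` are sent by a Frobenius element each to the next: this
is Dwork's congruence `f^σ(q ^ p) = f(q) ^ p (1 + ε)`.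
-/

set_option autoImplicit false

noncomputable section

open ModularCurve
open Fermat.Agent.Semistable
open Fermat.Agent.Arith (QBar GQ)

namespace Fermat.Agent.RT.AtP

variable {A : ValuationSubring QBar} {p : ℕ}

/-- The change of precision. -/
def redQA (A : ValuationSubring QBar) (p n : ℕ) : QA A p (n + 1) →+* QA A p n :=
  Ideal.Quotient.lift _ (mkQA A p n) fun _ hx =>
    mkQA_eq_zero_iff.mpr ((pow_dvd_pow _ n.le_succ).trans (Ideal.mem_span_singleton.mp hx))

theorem redQA_mk (n : ℕ) (x : A) : redQA A p n (mkQA A p (n + 1) x) = mkQA A p n x := rfl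

/-- An element of `A / p ^ (n + 1)` killed by `p` reduces to zero modulo `p ^ n`. -/
theorem redQA_eq_zero_of_mul (hp : p.Prime) {n : ℕ} {a : QA A p (n + 1)}
    (h : (p : QA A p (n + 1)) * a = 0) : redQA A p n a = 0 := by
  obtain ⟨x, rfl⟩ := mkQA_surjective (n + 1) a
  rw [← map_natCast (mkQA A p (n + 1)), ← map_mul, mkQA_eq_zero_iff] at h
  obtain ⟨y, hy⟩ := h
  rw [redQA_mk, mkQA_eq_zero_iff]
  have h0 : (p : A) ≠ 0 := Nat.cast_ne_zero.mpr hp.ne_zero
  exact ⟨y, mul_left_cancel₀ h0 (by rw [hy, pow_succ']; ring)⟩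

/-- The automorphism of `A` induced by a decomposition element. -/
def sigA {σ : GQ} {φ : Res A →+* Res A} (hσ : ResLift A σ φ) : A →+* A :=
  (σ : QBar →+* QBar).restrict A A hσ.mem

/-- Its action modulo `p ^ n`. -/
def sigQA {σ : GQ} {φ : Res A →+* Res A} (hσ : ResLift A σ φ) (n : ℕ) :
    QA A p n →+* QA A p n :=
  Ideal.Quotient.lift _ ((mkQA A p n).comp (sigA hσ)) fun x hx => by
    obtain ⟨y, rfl⟩ := Ideal.mem_span_singleton.mp hx
    rw [RingHom.comp_apply, map_mul, map_pow, map_natCast, mkQA_eq_zero_iff]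
    exact dvd_mul_right _ _

theorem sigQA_mk {σ : GQ} {φ : Res A →+* Res A} (hσ : ResLift A σ φ) (n : ℕ) (x : A) :
    sigQA (p := p) hσ n (mkQA A p n x) = mkQA A p n (sigA hσ x) := rfl

variable (hA : A.LiesOverPrime p) (hp : p.Prime)

/-- The reduction to the residue field. -/
def resQA (n : ℕ) : QA A p (n + 1) →+* Res A :=
  Ideal.Quotient.lift _ (IsLocalRing.residue A) fun x hx => by
    obtain ⟨y, rfl⟩ := Ideal.mem_span_singleton.mp hx
    have : IsLocalRing.residue A (p : A) = 0 := by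
      rw [IsLocalRing.residue_eq_zero_iff, ← ValuationSubring.coe_mem_nonunits_iff, coe_natCast_A]
      exact hA
    rw [map_mul, map_pow, this, zero_pow n.succ_ne_zero, zero_mul]

/-! ### Naturality of the reductions -/

theorem coeffMap_redQA_imL (n : ℕ) (x : locS A) :
    coeffMap (redQA A p n) (imL hA hp (n + 1) x) = imL hA hp n x := by
  obtain ⟨a, b, hb, hx⟩ := (mem_locS A).mp x.2
  have e : ∀ y : intS A, coeffMap (redQA A p n) (im (n + 1) y) = im n y := fun y => by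
    ext k; rfl
  refine ((isUnit_im (p := p) hA hp n b hb).mul_left_inj).mp ?_
  rw [imL_mul_im hA hp n x hx, ← e, ← e, ← map_mul, imL_mul_im hA hp (n + 1) x hx]

theorem coeffMap_resQA_imL (n : ℕ) (x : locS A) :
    coeffMap (resQA hA n) (imL hA hp (n + 1) x) = redL A x := by
  obtain ⟨a, b, hb, hx⟩ := (mem_locS A).mp x.2
  have e : ∀ y : intS A, coeffMap (resQA hA n) (im (n + 1) y) = red A y := fun y => by
    ext k; rfl
  refine mul_right_cancel₀ hb ?_
  rw [redL_mul_red x hb hx, ← e, ← e, ← map_mul, imL_mul_im hA hp (n + 1) x hx]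

theorem imL_coeffMap {σ : GQ} {φ : Res A →+* Res A} (hσ : ResLift A σ φ) (n : ℕ) {x : LSer}
    (hx : x ∈ locS A) :
    ∃ h : coeffMap (σ : QBar →+* QBar) x ∈ locS A,
      imL hA hp n ⟨_, h⟩ = coeffMap (sigQA hσ n) (imL hA hp n ⟨x, hx⟩) := by
  obtain ⟨a, b, hb, hab⟩ := (mem_locS A).mp hx
  obtain ⟨h, -⟩ := hσ.redL_coeffMap hx
  refine ⟨h, ?_⟩
  have hb' : red A ⟨_, hσ.coeffMap_mem b.2⟩ ≠ 0 := by
    rw [hσ.red_coeffMap]
    exact fun h0 => hb (coeffMap_injective φ (h0.trans (map_zero _).symm))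
  have e : ∀ y : intS A, coeffMap (sigQA hσ n) (im (p := p) n y) =
      im n ⟨_, hσ.coeffMap_mem y.2⟩ := fun y => by ext k; rfl
  refine ((isUnit_im (p := p) hA hp n _ hb').mul_left_inj).mp ?_
  rw [imL_mul_im hA hp n ⟨_, h⟩ (a := ⟨_, hσ.coeffMap_mem a.2⟩)
    (show coeffMap (σ : QBar →+* QBar) x * _ = _ by rw [← map_mul, hab]), ← e, ← e, ← map_mul,
    imL_mul_im hA hp n ⟨x, hx⟩ hab]

theorem imL_qExpand (n d : ℕ) [NeZero d] {x : LSer} (hx : x ∈ locS A) :
    imL hA hp n ⟨_, qExpand_mem_locS d hx⟩ = qExpand (QA A p n) d (imL hA hp n ⟨x, hx⟩) := by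
  obtain ⟨a, b, hb, hab⟩ := (mem_locS A).mp hx
  have hb' : red A ⟨_, qExpand_mem_intS d b.2⟩ ≠ 0 := by
    rw [red_qExpand]
    exact fun h => hb (qExpand_injective d (by rw [h, map_zero]))
  have hab' : qExpand QBar d x * qExpand QBar d b.1 = qExpand QBar d a.1 := by
    rw [← map_mul, hab]
  have h1 := imL_mul_im (p := p) hA hp n ⟨qExpand QBar d x, qExpand_mem_locS d hx⟩
    (a := ⟨qExpand QBar d a.1, qExpand_mem_intS d a.2⟩)
    (b := ⟨qExpand QBar d b.1, qExpand_mem_intS d b.2⟩) hab'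
  have h2 := imL_mul_im (p := p) hA hp n ⟨x, hx⟩ hab
  refine ((isUnit_im (p := p) hA hp n _ hb').mul_left_inj).mp ?_
  rw [h1, im_qExpand, im_qExpand, ← map_mul, h2]

theorem imL_algebraMap (n : ℕ) {a : QBar} (ha : a ∈ A) :
    imL hA hp n ⟨_, algebraMap_mem_locS ha⟩ = HahnSeries.C (mkQA A p n ⟨a, ha⟩) := by
  rw [imL_congr hA hp n _ (intS_le_locS (algebraMap_mem_intS ha)) rfl,
    imL_of_intS hA hp n ⟨_, algebraMap_mem_intS ha⟩]
  ext k
  rw [coeff_im, HahnSeries.C_apply]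
  rcases eq_or_ne k 0 with rfl | hk
  · rw [HahnSeries.coeff_single_same]
    congr 1
    exact Subtype.ext (by simp [MazurP.algebraMap_eq_C])
  · rw [HahnSeries.coeff_single_of_ne hk, mkQA_eq_zero_iff]
    convert dvd_zero ((p : A) ^ n)
    simp [MazurP.algebraMap_eq_C, hk]

/-! ### The logarithmic derivative -/

open scoped Classical in
/-- `θ x / x` modulo `p ^ n` for a scaling of `x`. -/
def dser (n : ℕ) (x : LSer) : LaurentSeries (QA A p n) :=
  if h : ∃ c : QBar, ∃ hc : algebraMap QBar LSer c * x ∈ locS A, redL A ⟨_, hc⟩ ≠ 0 then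
    dl (imL hA hp n ⟨_, h.choose_spec.choose⟩)
  else 0

theorem dser_eq (n : ℕ) {x : LSer} {c : QBar} (hc : algebraMap QBar LSer c * x ∈ locS A)
    (hne : redL A ⟨_, hc⟩ ≠ 0) : dser hA hp n x = dl (imL hA hp n ⟨_, hc⟩) := by
  have h : ∃ c : QBar, ∃ hc : algebraMap QBar LSer c * x ∈ locS A, redL A ⟨_, hc⟩ ≠ 0 :=
    ⟨c, hc, hne⟩
  rw [dser, dif_pos h]
  have key : ∀ (u v : QBar) (hu : algebraMap QBar LSer u * x ∈ locS A)
      (hv : algebraMap QBar LSer v * x ∈ locS A), redL A ⟨_, hu⟩ ≠ 0 → redL A ⟨_, hv⟩ ≠ 0 →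
      v / u ∈ A → dl (imL hA hp n ⟨_, hv⟩) = dl (imL hA hp n ⟨_, hu⟩) := by
    intro u v hu hv hu0 hv0 hA'
    have hune : u ≠ 0 := fun h0 => hu0 (by
      rw [redL_congr hu (zero_mem _) (by rw [h0, map_zero, zero_mul])]; exact map_zero _)
    have e : algebraMap QBar LSer v * x =
        algebraMap QBar LSer (v / u) * (algebraMap QBar LSer u * x) := by
      rw [← mul_assoc, ← map_mul, div_mul_cancel₀ _ hune]
    have h1 : IsUnit (imL hA hp n ⟨_, algebraMap_mem_locS hA'⟩) := by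
      refine isUnit_imL hA hp n _ fun h0 => hv0 ?_
      rw [redL_congr hv (mul_mem (algebraMap_mem_locS hA') hu) e,
        RT.MazurP.redL_mul' (algebraMap_mem_locS hA') hu, h0, zero_mul]
    rw [imL_congr hA hp n hv (mul_mem (algebraMap_mem_locS hA') hu) e,
      show imL hA hp n ⟨_, mul_mem (algebraMap_mem_locS hA') hu⟩ =
        imL hA hp n ⟨_, algebraMap_mem_locS hA'⟩ * imL hA hp n ⟨_, hu⟩ from
        map_mul (imL hA hp n) (⟨_, algebraMap_mem_locS hA'⟩ : locS A) ⟨_, hu⟩,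
      dl_mul h1 (isUnit_imL hA hp n _ hu0), imL_algebraMap hA hp n hA', dl_C, zero_add]
  rcases A.mem_or_inv_mem (h.choose / c) with h' | h'
  · exact key _ _ hc _ hne h.choose_spec.choose_spec h'
  · rw [inv_div] at h'
    exact (key _ _ h.choose_spec.choose hc h.choose_spec.choose_spec hne h').symm

theorem dser_mul (n : ℕ) {x y : LSer} (hx : x ∈ fracS A) (hx0 : x ≠ 0) (hy : y ∈ fracS A)
    (hy0 : y ≠ 0) : dser hA hp n (x * y) = dser hA hp n x + dser hA hp n y := by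
  obtain ⟨c, -, hc, hc0⟩ := exists_scale hA hp hx hx0
  obtain ⟨d, -, hd, hd0⟩ := exists_scale hA hp hy hy0
  have e : algebraMap QBar LSer (c * d) * (x * y) =
      algebraMap QBar LSer c * x * (algebraMap QBar LSer d * y) := by
    rw [map_mul, mul_mul_mul_comm]
  have hcd : algebraMap QBar LSer (c * d) * (x * y) ∈ locS A := e ▸ mul_mem hc hd
  have hne : redL A ⟨_, hcd⟩ ≠ 0 := by
    rw [redL_congr hcd (mul_mem hc hd) e, RT.MazurP.redL_mul' hc hd]
    exact mul_ne_zero hc0 hd0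
  rw [dser_eq hA hp n hcd hne, dser_eq hA hp n hc hc0, dser_eq hA hp n hd hd0,
    imL_congr hA hp n hcd (mul_mem hc hd) e,
    show imL hA hp n ⟨_, mul_mem hc hd⟩ = imL hA hp n ⟨_, hc⟩ * imL hA hp n ⟨_, hd⟩ from
      map_mul (imL hA hp n) (⟨_, hc⟩ : locS A) ⟨_, hd⟩,
    dl_mul (isUnit_imL hA hp n _ hc0) (isUnit_imL hA hp n _ hd0)]

theorem dser_algebraMap (n : ℕ) (a : QBar) : dser hA hp n (algebraMap QBar LSer a) = 0 := by
  rcases eq_or_ne a 0 with rfl | ha
  · rw [dser, dif_neg]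
    rintro ⟨c, hc, hne⟩
    refine hne ?_
    rw [redL_congr hc (zero_mem _) (by rw [map_zero, mul_zero])]
    exact map_zero _
  have e : algebraMap QBar LSer a⁻¹ * algebraMap QBar LSer a = 1 := by
    rw [← map_mul, inv_mul_cancel₀ ha, map_one]
  have hm : algebraMap QBar LSer a⁻¹ * algebraMap QBar LSer a ∈ locS A := e ▸ one_mem _
  have hne : redL A ⟨_, hm⟩ ≠ 0 := by
    rw [redL_congr hm (one_mem _) e, show (⟨1, one_mem _⟩ : locS A) = 1 from rfl, map_one]
    exact one_ne_zero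
  rw [dser_eq hA hp n hm hne, imL_congr hA hp n hm (one_mem _) e]
  exact (congrArg dl (map_one (imL hA hp n))).trans dl_one

theorem dser_one (n : ℕ) : dser hA hp n 1 = 0 := by
  rw [← map_one (algebraMap QBar LSer), dser_algebraMap]

theorem dser_pow (n : ℕ) {x : LSer} (hx : x ∈ fracS A) (hx0 : x ≠ 0) (k : ℕ) :
    dser hA hp n (x ^ k) = k • dser hA hp n x := by
  induction k with
  | zero => rw [pow_zero, zero_smul, dser_one]
  | succ k ih =>
    rw [pow_succ, dser_mul hA hp n (pow_mem hx k) (pow_ne_zero _ hx0) hx hx0, ih, succ_nsmul]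

theorem coeffMap_redQA_dser (n : ℕ) {x : LSer} (hx : x ∈ fracS A) (hx0 : x ≠ 0) :
    coeffMap (redQA A p n) (dser hA hp (n + 1) x) = dser hA hp n x := by
  obtain ⟨c, -, hc, hc0⟩ := exists_scale hA hp hx hx0
  rw [dser_eq hA hp _ hc hc0, dser_eq hA hp _ hc hc0, ← dl_coeffMap _ (isUnit_imL hA hp _ _ hc0),
    coeffMap_redQA_imL]

theorem coeffMap_resQA_dser (n : ℕ) {x : LSer} {z : LaurentSeries (Res A)}
    (h : MazurP.IsRed A x z) : coeffMap (resQA hA n) (dser hA hp (n + 1) x) = MazurP.dlog z := by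
  obtain ⟨hz, c, -, hc, rfl⟩ := h
  rw [dser_eq hA hp _ hc hz, ← dl_coeffMap _ (isUnit_imL hA hp _ _ hz), coeffMap_resQA_imL,
    dl, MazurP.dlog, div_eq_mul_inv, Ring.inverse_eq_inv']

theorem dser_coeffMap {σ : GQ} {φ : Res A →+* Res A} (hσ : ResLift A σ φ) (n : ℕ) {x : LSer}
    (hx : x ∈ fracS A) (hx0 : x ≠ 0) :
    dser hA hp n (coeffMap (σ : QBar →+* QBar) x) = coeffMap (sigQA hσ n) (dser hA hp n x) := by
  obtain ⟨c, -, hc, hc0⟩ := exists_scale hA hp hx hx0
  obtain ⟨h, e⟩ := imL_coeffMap hA hp hσ n hc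
  obtain ⟨h', er⟩ := hσ.redL_coeffMap hc
  have es : coeffMap (σ : QBar →+* QBar) (algebraMap QBar LSer c * x) =
      algebraMap QBar LSer (σ c) * coeffMap (σ : QBar →+* QBar) x := by
    rw [map_mul, algebraMap_laurentSeries_eq_single, algebraMap_laurentSeries_eq_single,
      coeffMap_single]
    rfl
  have hm : algebraMap QBar LSer (σ c) * coeffMap (σ : QBar →+* QBar) x ∈ locS A := es ▸ h
  have hne : redL A ⟨_, hm⟩ ≠ 0 := by
    rw [redL_congr hm h' es.symm, er]
    exact fun h0 => hc0 (coeffMap_injective φ (h0.trans (map_zero _).symm))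
  rw [dser_eq hA hp n hm hne, dser_eq hA hp n hc hc0, imL_congr hA hp n hm h es.symm, e,
    dl_coeffMap _ (isUnit_imL hA hp n _ hc0)]

theorem dser_qExpand (n d : ℕ) [NeZero d] {x : LSer} (hx : x ∈ fracS A) (hx0 : x ≠ 0) :
    dser hA hp n (qExpand QBar d x) =
      HahnSeries.C (d : QA A p n) * qExpand (QA A p n) d (dser hA hp n x) := by
  obtain ⟨c, -, hc, hc0⟩ := exists_scale hA hp hx hx0
  have es : algebraMap QBar LSer c * qExpand QBar d x =
      qExpand QBar d (algebraMap QBar LSer c * x) := by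
    rw [map_mul, qExpand_const]
  have hm : algebraMap QBar LSer c * qExpand QBar d x ∈ locS A := es ▸ qExpand_mem_locS d hc
  have hne : redL A ⟨_, hm⟩ ≠ 0 := by
    rw [redL_congr hm (qExpand_mem_locS d hc) es, redL_qExpand d hc]
    exact fun h0 => hc0 (qExpand_injective d (h0.trans (map_zero _).symm))
  rw [dser_eq hA hp n hm hne, dser_eq hA hp n hc hc0,
    imL_congr hA hp n hm (qExpand_mem_locS d hc) es, imL_qExpand hA hp n d hc,
    dl_qExpand d (isUnit_imL hA hp n _ hc0)]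

/-- **Dwork's congruence**: a Frobenius element sends the coefficient at `q ^ (p ^ j)` to that at
`q ^ (p ^ (j + 1))` for large `j`. -/
theorem exists_coeff_dser_frobenius [Fact p.Prime] [CharP (Res A) p] {σ : GQ}
    (hσ : A.IsFrobeniusAt σ p) (n : ℕ) {x : LSer} (hx : x ∈ fracS A) (hx0 : x ≠ 0) :
    ∃ J : ℕ, ∀ j, J ≤ j →
      sigQA (resLift_of_frobenius hσ) n ((dser hA hp n x).coeff ((p : ℤ) ^ j)) =
        (dser hA hp n x).coeff ((p : ℤ) ^ (j + 1)) := by
  set hσ' := resLift_of_frobenius hσ with hσd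
  -- scale `x` to have nonzero reduction
  obtain ⟨c, -, hc, hc0⟩ := exists_scale hA hp hx hx0
  set y := algebraMap QBar LSer c * x with hy
  -- `y^σ(q ^ p) ≡ y ^ p` modulo the maximal ideal
  obtain ⟨hs, esr⟩ := hσ'.redL_coeffMap hc
  have hne : qExpand QBar p (coeffMap (σ : QBar →+* QBar) y) ∈ locS A := qExpand_mem_locS p hs
  have hz : redL A ⟨_, sub_mem hne (pow_mem hc p)⟩ = 0 := by
    show redL A ((⟨_, hne⟩ : locS A) - ⟨_, pow_mem hc p⟩) = 0
    rw [map_sub, redL_qExpand p hs, esr, show redL A ⟨y ^ p, pow_mem hc p⟩ = redL A ⟨y, hc⟩ ^ p from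
      map_pow (redL A) (⟨y, hc⟩ : locS A) p, pow_char_eq_qExpand, sub_self]
  set m := n + 1
  set z := imL hA hp m ⟨y, hc⟩ with hzd
  have hzu : IsUnit z := isUnit_imL hA hp m _ hc0
  obtain ⟨u, hu⟩ := hzu.pow p
  obtain ⟨E, hE⟩ : IsNilpotent (imL hA hp m ⟨_, sub_mem hne (pow_mem hc p)⟩ *
      ((u⁻¹ : (LaurentSeries (QA A p m))ˣ) : LaurentSeries (QA A p m))) :=
    (Commute.all _ _).isNilpotent_mul_right (isNilpotent_imL hA hp m _ hz)
  set ε := imL hA hp m ⟨_, sub_mem hne (pow_mem hc p)⟩ *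
      ((u⁻¹ : (LaurentSeries (QA A p m))ˣ) : LaurentSeries (QA A p m)) with hε
  -- so `z^σ(q ^ p) = z ^ p (1 + ε)` with `ε` nilpotent
  have key : qExpand (QA A p m) p (coeffMap (sigQA hσ' m) z) = z ^ p * (1 + ε) := by
    obtain ⟨hs', esi⟩ := imL_coeffMap hA hp hσ' m hc
    rw [← esi, ← imL_qExpand hA hp m p hs', ← hu, hε, mul_add, mul_one,
      mul_left_comm, Units.mul_inv, mul_one, hu]
    have e : imL hA hp m ⟨_, sub_mem hne (pow_mem hc p)⟩ =
        imL hA hp m ⟨_, hne⟩ - z ^ p := by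
      rw [hzd, ← map_pow, ← map_sub]
      rfl
    rw [e, add_sub_cancel]
  have hε1 : IsUnit (1 + ε) := (dl_one_add hE).1
  have hk := congrArg dl key
  -- take logarithmic derivatives
  rw [dl_qExpand p (hzu.map _), dl_coeffMap _ hzu, dl_mul (hzu.pow p) hε1, dl_pow hzu] at hk
  refine ⟨m + E, fun j hj => ?_⟩
  -- at `q ^ (p ^ (j + 1))` the `ε` term vanishes; divide by `p`
  have h1 := congrArg (fun t => HahnSeries.coeff t ((p : ℤ) * (p : ℤ) ^ j)) hk
  simp only [MazurP.coeff_C_mul, qExpand_coeff_mul, coeffMap_coeff, HahnSeries.coeff_add,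
    nsmul_eq_mul] at h1
  rw [← pow_succ', ← map_natCast (HahnSeries.C : QA A p m →+* LaurentSeries (QA A p m)),
    MazurP.coeff_C_mul,
    coeff_dl_one_add hp (fun k hk => isUnit_natCast_A hA hp hk) (mkQA_surjective m)
      (fun _ => mkQA_eq_zero_iff) hE (hj.trans j.le_succ), add_zero, ← sub_eq_zero,
    ← mul_sub] at h1
  have h2 := redQA_eq_zero_of_mul hp h1
  rw [map_sub, sub_eq_zero] at h2
  have hsig : ∀ a, redQA A p n (sigQA hσ' (n + 1) a) = sigQA hσ' n (redQA A p n a) := fun a => by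
    obtain ⟨a, rfl⟩ := mkQA_surjective (n + 1) a
    rw [sigQA_mk, redQA_mk, redQA_mk, sigQA_mk]
  rw [← coeffMap_redQA_dser hA hp n hx hx0, coeffMap_coeff, coeffMap_coeff,
    dser_eq hA hp (n + 1) hc hc0, ← hsig]
  exact h2

end Fermat.Agent.RT.AtP

end
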