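import Fermat.Agent.GaloisReps.JacobianModel

/-!
# Functionals on torsion read on vectors over a coefficient ring

An additive functional `L` on the classes killed by `p ^ n`, with values in a group killed by
`p ^ n`, gives the linear map `v ↦ ∑ vᵢ ⊗ L(eᵢ)` on vectors over any `ℤ_p`-algebra, `eᵢ` the
coordinate classes; an endomorphism of the classes with matrix `T` corresponds to `v ↦ T v`.
-/

set_option autoImplicit false

noncomputable section

open scoped TensorProduct
open Fermat.Agent.GaloisReps (JTors TorsionIso)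

namespace Fermat.Agent.RT.AtP

variable {N p : ℕ} [NeZero N] [Fact p.Prime] (E : TorsionIso N p)
variable {R : Type} [CommRing R] {Q : Type} [AddCommGroup Q]

/-- The coordinate class. -/
def crd (n : ℕ) (i : Fin (2 * Gamma0.genus N)) : JTors N p n :=
  (E.psi n).symm (Pi.single i 1)

omit [Fact (Nat.Prime p)] in
theorem psi_crd (n : ℕ) (i : Fin (2 * Gamma0.genus N)) : E.psi n (crd E n i) = Pi.single i 1 :=
  (E.psi n).apply_symm_apply _

omit [Fact (Nat.Prime p)] in
/-- The class with given integral coordinates. -/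
theorem eq_sum_crd (n : ℕ) (a : Fin (2 * Gamma0.genus N) → ℤ) (x : JTors N p n)
    (hx : ∀ i, E.psi n x i = (a i : ZMod (p ^ n))) : x = ∑ i, a i • crd E n i := by
  classical
  refine (E.psi n).injective (funext fun j => ?_)
  rw [map_sum, Finset.sum_apply, hx j]
  simp [psi_crd, Pi.single_apply]

/-- The pairing of a functional with a vector. -/
def pairT (n : ℕ) (L : JTors N p n →+ Q) :
    (Fin (2 * Gamma0.genus N) → R) →ₗ[R] R ⊗[ℤ] Q where
  toFun v := ∑ i, v i ⊗ₜ[ℤ] L (crd E n i)
  map_add' v w := by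
    simp only [Pi.add_apply, TensorProduct.add_tmul, Finset.sum_add_distrib]
  map_smul' r v := by
    simp only [Pi.smul_apply, RingHom.id_apply, Finset.smul_sum, TensorProduct.smul_tmul']

omit [Fact (Nat.Prime p)] in
/-- `pairT E n L v` is the sum of the `v i ⊗ L (crd E n i)`. -/
theorem pairT_apply (n : ℕ) (L : JTors N p n →+ Q) (v : Fin (2 * Gamma0.genus N) → R) :
    pairT E n L v = ∑ i, v i ⊗ₜ[ℤ] L (crd E n i) :=
  rfl

omit [Fact (Nat.Prime p)] in
/-- An element of `p ^ n R` pairs to zero with a group killed by `p ^ n`. -/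
theorem tmul_eq_zero_of_dvd (n : ℕ) (hQ : ∀ q : Q, (p ^ n) • q = 0) (r : R) (q : Q) :
    ((p : R) ^ n * r) ⊗ₜ[ℤ] q = 0 := by
  rw [show (p : R) ^ n * r = ((p ^ n : ℕ) : ℤ) • r by
    rw [zsmul_eq_mul, Int.cast_natCast, Nat.cast_pow],
    TensorProduct.smul_tmul, natCast_zsmul, hQ q, TensorProduct.tmul_zero]

omit [Fact (Nat.Prime p)] in
theorem smul_eq_zero_of_dvd (n : ℕ) (hQ : ∀ q : Q, (p ^ n) • q = 0) {r : R}
    (hr : (p : R) ^ n ∣ r) (z : R ⊗[ℤ] Q) : r • z = 0 := by
  obtain ⟨s, rfl⟩ := hr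
  induction z using TensorProduct.induction_on with
  | zero => rw [smul_zero]
  | tmul a b =>
    rw [TensorProduct.smul_tmul', smul_eq_mul, mul_assoc]
    exact tmul_eq_zero_of_dvd n hQ _ _
  | add a b ha hb => rw [smul_add, ha, hb, add_zero]

/-- A matrix over `ℤ_p` acting on the classes and on the vectors. -/
theorem pairT_mulVec (n : ℕ) (hQ : ∀ q : Q, (p ^ n) • q = 0) (L : JTors N p n →+ Q)
    (ι : ℤ_[p] →+* R) (T : JTors N p n →+ JTors N p n)
    (M : Matrix (Fin (2 * Gamma0.genus N)) (Fin (2 * Gamma0.genus N)) ℤ_[p])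
    (hT : ∀ x, E.psi n (T x) = (M.map (PadicInt.toZModPow n)).mulVec (E.psi n x))
    (v : Fin (2 * Gamma0.genus N) → R) :
    pairT E n L ((M.map ι).mulVec v) = pairT E n (L.comp T) v := by
  classical
  have hint : ∀ i j, ∃ a : ℤ, PadicInt.toZModPow n (M i j) = (a : ZMod (p ^ n)) ∧
      ∀ (r : R) (q : Q), (ι (M i j) * r) ⊗ₜ[ℤ] q = r ⊗ₜ[ℤ] (a • q) := fun i j => by
    obtain ⟨a, ha⟩ := ZMod.intCast_surjective (PadicInt.toZModPow n (M i j))
    refine ⟨a, ha.symm, fun r q => ?_⟩
    have hker : M i j - (a : ℤ_[p]) ∈ RingHom.ker (PadicInt.toZModPow n) := by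
      rw [RingHom.mem_ker, map_sub, map_intCast, ha, sub_self]
    rw [PadicInt.ker_toZModPow, Ideal.mem_span_singleton] at hker
    obtain ⟨c, hc⟩ := hker
    rw [sub_eq_iff_eq_add.mp hc, map_add, map_mul, map_pow, map_natCast, map_intCast, add_mul,
      TensorProduct.add_tmul, mul_assoc, tmul_eq_zero_of_dvd n hQ, zero_add, ← zsmul_eq_mul,
      TensorProduct.smul_tmul]
  choose a ha hmul using hint
  rw [pairT_apply, pairT_apply]
  have hcol : ∀ j, T (crd E n j) = ∑ i, a i j • crd E n i := fun j => by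
    refine eq_sum_crd E n (fun i => a i j) _ fun i => ?_
    rw [hT, psi_crd, Matrix.mulVec_single_one]
    exact ha i j
  calc ∑ i, (M.map ι).mulVec v i ⊗ₜ[ℤ] L (crd E n i)
      = ∑ i, ∑ j, v j ⊗ₜ[ℤ] (a i j • L (crd E n i)) := by
        refine Finset.sum_congr rfl fun i _ => ?_
        rw [Matrix.mulVec, dotProduct, TensorProduct.sum_tmul]
        exact Finset.sum_congr rfl fun j _ => hmul i j _ _
    _ = ∑ j, v j ⊗ₜ[ℤ] L (T (crd E n j)) := by
        rw [Finset.sum_comm]
        refine Finset.sum_congr rfl fun j _ => ?_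
        rw [hcol j, map_sum, TensorProduct.tmul_sum]
        exact Finset.sum_congr rfl fun i _ => by rw [map_zsmul]
    _ = _ := rfl

end Fermat.Agent.RT.AtP

end
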