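import Fermat.Agent.RT.AtP.Classes
import Fermat.Agent.RT.AtP.Pairing
import Fermat.Agent.Arith.Frobenius
import Fermat.Agent.GaloisReps.Lattice
import Fermat.Agent.Semistable.Torsion

/-!
# The coefficients on an eigenspace

`Phi n k` reads the coefficient `k` of the series of the classes killed by `p ^ n` on vectors over
`R`. On an eigenspace the coefficient at `p ^ j` is a multiple of the coefficient at `1`; with a
unit root `α` of `X² - a X + δ p`, Dwork's congruence shows that a Frobenius element acts on the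
coefficient at `1` by `α` and inertia trivially.
-/

set_option autoImplicit false

noncomputable section

open scoped TensorProduct
open ModularCurve AlgebraicCurve
open Fermat.Agent.Semistable (Res ResLift resLift_of_frobenius charP_res FB LSer)
open Fermat.Agent.GaloisReps
open Fermat.Agent.Arith (QBar GQ)

namespace Fermat.Agent.RT.AtP

/-- Extension of scalars of an additive map. -/
def mapR (R : Type) [CommRing R] {Q Q' : Type} [AddCommGroup Q] [AddCommGroup Q'] (f : Q →+ Q') :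
    R ⊗[ℤ] Q →ₗ[R] R ⊗[ℤ] Q' :=
  TensorProduct.AlgebraTensorModule.lTensor R R f.toIntLinearMap

theorem mapR_tmul (R : Type) [CommRing R] {Q Q' : Type} [AddCommGroup Q] [AddCommGroup Q']
    (f : Q →+ Q') (r : R) (q : Q) : mapR R f (r ⊗ₜ[ℤ] q) = r ⊗ₜ[ℤ] f q := rfl

variable {N p : ℕ} [NeZero N] [Fact p.Prime] {A : ValuationSubring QBar} (hA : A.LiesOverPrime p)
  (E : TorsionIso N p) {R : Type} [CommRing R]

/-- The coefficient `k` of the series read on vectors. -/
def Phi (n : ℕ) (k : ℤ) : (Fin (2 * Gamma0.genus N) → R) →ₗ[R] R ⊗[ℤ] QA A p n :=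
  pairT E n ((HahnSeries.coeff.addMonoidHom k).comp (serT hA Fact.out n))

omit [Fact (Nat.Prime p)] in
theorem QA_nsmul_eq_zero (n : ℕ) (q : QA A p n) : (p ^ n) • q = 0 := by
  rw [nsmul_eq_mul, Nat.cast_pow, natCast_QA_eq_zero, zero_mul]

omit [Fact (Nat.Prime p)] in
theorem pairT_mapR {Q Q' : Type} [AddCommGroup Q] [AddCommGroup Q'] (n : ℕ) (L : JTors N p n →+ Q)
    (f : Q →+ Q') (v : Fin (2 * Gamma0.genus N) → R) :
    pairT E n (f.comp L) v = mapR R f (pairT E n L v) := by
  rw [pairT_apply, pairT_apply, map_sum]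
  exact Finset.sum_congr rfl fun i _ => rfl

/-- Changing the precision. -/
theorem mapR_redQA_Phi (n : ℕ) (k : ℤ) (v : Fin (2 * Gamma0.genus N) → R) :
    mapR R (redQA A p n).toAddMonoidHom (Phi hA E (n + 1) k v) = Phi hA E n k v := by
  rw [Phi, Phi, ← pairT_mapR, pairT_apply, pairT_apply]
  refine Finset.sum_congr rfl fun i _ => congrArg _ ?_
  have hmem : p • (crd E (n + 1) i : JZero N) ∈ JTors N p n := by
    rw [Pic0.mem_torsion, ← Nat.cast_smul_eq_nsmul ℤ, smul_smul, ← Nat.cast_mul, ← pow_succ]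
    exact Pic0.mem_torsion.mp (crd E (n + 1) i).2
  have hy : crd E n i = ⟨_, hmem⟩ := by
    refine (E.psi n).injective (Eq.trans (psi_crd E n i) ?_)
    rw [E.psi_apply, E.compat n (crd E (n + 1) i) ⟨_, hmem⟩ rfl]
    funext j
    show _ = ZMod.castHom (pow_dvd_pow p n.le_succ) (ZMod (p ^ n))
      (E.psi (n + 1) (crd E (n + 1) i) j)
    rw [psi_crd]
    rcases eq_or_ne j i with rfl | hj
    · rw [Pi.single_eq_same, Pi.single_eq_same, map_one]
    · rw [Pi.single_eq_of_ne hj, Pi.single_eq_of_ne hj, map_zero]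
  show redQA A p n ((serT hA Fact.out (n + 1) (crd E (n + 1) i)).coeff k) =
    (serT hA Fact.out n (crd E n i)).coeff k
  rw [← coeffMap_coeff, ← serT_nsmul hA Fact.out n _ (crd E n i) (by rw [hy])]

variable (ι : ℤ_[p] →+* R) (θ : FullHecke N →+* R)

include ι in
/-- The Hecke relation on eigenvectors. -/
theorem Phi_hecke (n : ℕ) {l : ℕ} (hl : l.Prime) (k : ℤ) {v : Fin (2 * Gamma0.genus N) → R}
    (hv : v ∈ eigenspace (latticeMat N) θ) :
    θ (HeckeDuality.heckeOp N 2 l hl) • Phi hA E n k v = Phi hA E n ((l : ℤ) * k) v +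
      if ¬ l ∣ N ∧ (l : ℤ) ∣ k then (l : R) • Phi hA E n (k / l) v else 0 := by
  have hT : ∀ x : JTors N p n, E.psi n (heckeTors n ⟨l, hl⟩ x) =
      ((matIn (latticeMat N) ℤ_[p] (HeckeDuality.heckeOp N 2 l hl)).map
        (PadicInt.toZModPow n)).mulVec (E.psi n x) := fun x => by
    rw [matIn_apply, latticeMat_heckeOp, map_intCast_toZModPow, ← E.mat_heckeTors, E.mat_mulVec]
  have hι : (matIn (latticeMat N) ℤ_[p] (HeckeDuality.heckeOp N 2 l hl)).map ι =
      matIn (latticeMat N) R (HeckeDuality.heckeOp N 2 l hl) := by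
    ext i j
    simp
  rw [← map_smul, ← (mem_eigenspace (latticeMat N) θ v).mp hv, ← hι, Phi,
    pairT_mulVec E n (QA_nsmul_eq_zero n) _ ι (heckeTors n ⟨l, hl⟩) _ hT]
  simp only [Phi, pairT_apply, Finset.smul_sum]
  have hc : ∀ i, ((HahnSeries.coeff.addMonoidHom k).comp (serT hA Fact.out n)).comp
      (heckeTors n ⟨l, hl⟩) (crd E n i) =
      (serT hA Fact.out n (crd E n i)).coeff ((l : ℤ) * k) +
        if ¬ l ∣ N ∧ (l : ℤ) ∣ k then
          (l : QA A p n) * (serT hA Fact.out n (crd E n i)).coeff (k / l) else 0 :=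
    fun i => coeff_serT_hecke hA Fact.out n l hl _ _ rfl k
  split_ifs with h
  · rw [← Finset.sum_add_distrib]
    refine Finset.sum_congr rfl fun i _ => ?_
    rw [hc i, if_pos h, TensorProduct.tmul_add, Nat.cast_smul_eq_nsmul,
      ← TensorProduct.tmul_smul, nsmul_eq_mul]
    rfl
  · rw [add_zero]
    refine Finset.sum_congr rfl fun i _ => ?_
    rw [hc i, if_neg h, add_zero]
    rfl

/-- The Galois relation. -/
theorem Phi_galois {σ : GQ} {φ : Res A →+* Res A} (hσ : ResLift A σ φ) (n : ℕ) (k : ℤ)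
    (v : Fin (2 * Gamma0.genus N) → R) :
    Phi hA E n k (((E.gal σ).map ι).mulVec v) =
      mapR R (sigQA hσ n).toAddMonoidHom (Phi hA E n k v) := by
  have hT : ∀ x : JTors N p n, E.psi n (galTors n σ x) =
      ((E.gal σ).map (PadicInt.toZModPow n)).mulVec (E.psi n x) := fun x => by
    rw [E.map_gal, E.galLvl_mulVec]
  rw [Phi, pairT_mulVec E n (QA_nsmul_eq_zero n) _ ι (galTors n σ) _ hT, ← pairT_mapR,
    pairT_apply, pairT_apply]
  refine Finset.sum_congr rfl fun i _ => congrArg _ ?_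
  show (serT hA Fact.out n (galTors n σ (crd E n i))).coeff k =
    sigQA hσ n ((serT hA Fact.out n (crd E n i)).coeff k)
  rw [serT_galTors hA Fact.out hσ, coeffMap_coeff]

/-- Dwork's congruence on the vectors. -/
theorem exists_Phi_frobenius [CharP (Res A) p] {σ : GQ} (hσ : A.IsFrobeniusAt σ p) (n : ℕ) :
    ∃ J : ℕ, ∀ j, J ≤ j → ∀ v : Fin (2 * Gamma0.genus N) → R,
      mapR R (sigQA (resLift_of_frobenius hσ) n).toAddMonoidHom (Phi hA E n ((p : ℤ) ^ j) v) =
        Phi hA E n ((p : ℤ) ^ (j + 1)) v := by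
  choose J hJ using fun i => exists_coeff_dser_frobenius hA Fact.out hσ n
    (x := (fricke N ((repF n (crd E n i) : (FB N)ˣ) : FB N) : LSer))
    (Semistable.mem_fracS_of_mem _) (coe_fricke_ne_zero (Units.ne_zero _))
  refine ⟨Finset.univ.sup J, fun j hj v => ?_⟩
  rw [Phi, Phi, ← pairT_mapR, pairT_apply, pairT_apply]
  refine Finset.sum_congr rfl fun i _ => congrArg _ ?_
  exact hJ i j ((Finset.le_sup (Finset.mem_univ i)).trans hj)

variable {ι θ}

include ι in
/-- The coefficient at `p ^ (j + 1)` from the one at `p ^ j`. -/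
theorem Phi_pow_succ (n : ℕ) {α β : R}
    (hsum : α + β = θ (HeckeDuality.heckeOp N 2 p Fact.out))
    (hprod : α * β = if p ∣ N then 0 else (p : R)) {v : Fin (2 * Gamma0.genus N) → R}
    (hv : v ∈ eigenspace (latticeMat N) θ) (j : ℕ) :
    Phi hA E n ((p : ℤ) ^ (j + 1)) v =
      α • Phi hA E n ((p : ℤ) ^ j) v + β ^ (j + 1) • Phi hA E n 1 v := by
  have hp : p.Prime := Fact.out
  induction j with
  | zero =>
    have h := Phi_hecke hA E ι θ n hp 1 hv
    rw [if_neg fun h' => hp.one_lt.not_ge (Nat.le_of_dvd one_pos (Int.natCast_dvd_natCast.mp h'.2)),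
      add_zero, mul_one] at h
    rw [zero_add, pow_one, pow_zero, pow_one, ← h, ← hsum, add_smul]
  | succ j ih =>
    have h := Phi_hecke hA E ι θ n hp ((p : ℤ) ^ (j + 1)) hv
    rw [← pow_succ', show ((p : ℤ) ^ (j + 1)) / (p : ℤ) = (p : ℤ) ^ j by
      rw [pow_succ, Int.mul_ediv_cancel _ (by exact_mod_cast hp.ne_zero)]] at h
    have h' : θ (HeckeDuality.heckeOp N 2 p hp) • Phi hA E n ((p : ℤ) ^ (j + 1)) v =
        Phi hA E n ((p : ℤ) ^ (j + 1 + 1)) v + (α * β) • Phi hA E n ((p : ℤ) ^ j) v := by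
      rw [h, hprod]
      by_cases hN : p ∣ N
      · rw [if_neg (fun h' => h'.1 hN), if_pos hN, zero_smul]
      · rw [if_pos ⟨hN, dvd_pow_self _ j.succ_ne_zero⟩, if_neg hN]
    rw [show θ (HeckeDuality.heckeOp N 2 p hp) = α + β from hsum.symm] at h'
    rw [eq_sub_of_add_eq h'.symm, add_smul, add_sub_assoc, mul_comm α β, mul_smul, ← smul_sub]
    congr 1
    rw [ih, add_sub_cancel_left, smul_smul, ← pow_succ']

include ι in
/-- The coefficient at `p ^ j` is a unit multiple of the coefficient at `1`. -/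
theorem exists_Phi_pow_eq [IsLocalRing R] (hpR : (p : R) ∈ IsLocalRing.maximalIdeal R) (n : ℕ)
    {α β : R} (hα : IsUnit α) (hsum : α + β = θ (HeckeDuality.heckeOp N 2 p Fact.out))
    (hprod : α * β = if p ∣ N then 0 else (p : R)) {v : Fin (2 * Gamma0.genus N) → R}
    (hv : v ∈ eigenspace (latticeMat N) θ) (j : ℕ) :
    (∃ t : R, IsUnit t ∧ Phi hA E n ((p : ℤ) ^ j) v = t • Phi hA E n 1 v) ∧
      (n ≤ j → Phi hA E n ((p : ℤ) ^ (j + 1)) v = α • Phi hA E n ((p : ℤ) ^ j) v) := by
  have hβ : (p : R) ∣ β := by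
    rw [← hα.dvd_mul_left, hprod]
    split_ifs
    exacts [dvd_zero _, dvd_rfl]
  refine ⟨?_, fun hj => ?_⟩
  · induction j with
    | zero => exact ⟨1, isUnit_one, by rw [pow_zero, one_smul]⟩
    | succ j ih =>
      obtain ⟨t, ht, e⟩ := ih
      refine ⟨α * t + β ^ (j + 1), ?_, ?_⟩
      · have hm : β ^ (j + 1) ∈ IsLocalRing.maximalIdeal R := by
          obtain ⟨c, rfl⟩ := hβ
          rw [pow_succ]
          exact Ideal.mul_mem_left _ _ (Ideal.mul_mem_right _ _ hpR)
        refine IsLocalRing.notMem_maximalIdeal.mp fun hmem => ?_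
        have h2 := sub_mem hmem hm
        rw [add_sub_cancel_right] at h2
        exact IsLocalRing.notMem_maximalIdeal.mpr (hα.mul ht) h2
      · rw [Phi_pow_succ hA E (ι := ι) n hsum hprod hv, e, smul_smul, ← add_smul]
  · rw [Phi_pow_succ hA E (ι := ι) n hsum hprod hv, add_eq_left]
    exact smul_eq_zero_of_dvd n (QA_nsmul_eq_zero n)
      ((pow_dvd_pow_of_dvd hβ n).trans (pow_dvd_pow β (hj.trans j.le_succ))) _

/-- Galois preserves the eigenspace. -/
theorem gal_mem_eigenspace (G : TorsionGalois N p) (σ : GQ) {v : Fin (2 * Gamma0.genus N) → R}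
    (hv : v ∈ eigenspace (latticeMat N) θ) :
    ((E.gal σ).map ι).mulVec v ∈ eigenspace (latticeMat N) θ :=
  (E.toModel G).galIn_mem ι θ σ v hv

/-- **A Frobenius element acts on the coefficient at `1` by the unit root.** -/
theorem Phi_one_frobenius [IsLocalRing R]
    (hpR : (p : R) ∈ IsLocalRing.maximalIdeal R) (n : ℕ) {α β : R} (hα : IsUnit α)
    (hsum : α + β = θ (HeckeDuality.heckeOp N 2 p Fact.out))
    (hprod : α * β = if p ∣ N then 0 else (p : R)) {σ : GQ} (hσ : A.IsFrobeniusAt σ p)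
    {v : Fin (2 * Gamma0.genus N) → R} (hv : v ∈ eigenspace (latticeMat N) θ) :
    Phi hA E n 1 (((E.gal σ).map ι).mulVec v) = α • Phi hA E n 1 v := by
  have := charP_res hA
  obtain ⟨J, hJ⟩ := exists_Phi_frobenius hA E (R := R) hσ n
  set j := J + n
  obtain ⟨⟨t, ht, e⟩, hs⟩ := exists_Phi_pow_eq hA E (ι := ι) hpR n hα hsum hprod hv j
  have hσ' := resLift_of_frobenius hσ
  have h1 := hJ j (Nat.le_add_right _ _) v
  rw [hs (Nat.le_add_left _ _), e, map_smul, smul_comm α t, ← Phi_galois hA E ι hσ'] at h1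
  exact ht.smul_left_cancel.mp h1

/-- **Inertia fixes the coefficient at `1`.** -/
theorem Phi_one_inertia (G : TorsionGalois N p) [IsLocalRing R]
    (hpR : (p : R) ∈ IsLocalRing.maximalIdeal R) (n : ℕ) {α β : R} (hα : IsUnit α)
    (hsum : α + β = θ (HeckeDuality.heckeOp N 2 p Fact.out))
    (hprod : α * β = if p ∣ N then 0 else (p : R)) {τ : GQ} (hτ : τ ∈ A.inertiaSubgroupIn ℚ)
    {v : Fin (2 * Gamma0.genus N) → R} (hv : v ∈ eigenspace (latticeMat N) θ) :
    Phi hA E n 1 (((E.gal τ).map ι).mulVec v) = Phi hA E n 1 v := by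
  obtain ⟨σ, hσ⟩ := Arith.exists_isFrobeniusAt hA (Fact.out : p.Prime)
  have h1 := Phi_one_frobenius hA E (ι := ι) hpR n hα hsum hprod
    (Arith.isFrobeniusAt_mul_inertia hσ hτ) hv
  rw [map_mul, Matrix.map_mul, ← Matrix.mulVec_mulVec,
    Phi_one_frobenius hA E (ι := ι) hpR n hα hsum hprod hσ
      (gal_mem_eigenspace E (ι := ι) G τ hv)] at h1
  exact hα.smul_left_cancel.mp h1

end Fermat.Agent.RT.AtP

end
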