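import Fermat.Prelude.Def_GaloisRep_StrictOrdinary
import Fermat.Agent.CFT.Flat.Slots
import Fermat.Agent.CFT.Local.Global
import Fermat.Agent.Arith.Frobenius
import Fermat.Agent.Deform.Matrix
import Fermat.Agent.EC.Rep.Local.Line
import Mathlib.RingTheory.DiscreteValuationRing.Basic

/-!
# From equations at Frobenius and inertia to strict ordinarity

Let `Q` be a nonzero singular matrix with `Q ρ(τ) = Q` on inertia and `Q ρ(F) = α Q` at a
Frobenius element, `α² = 1`. Then `Q ρ(g) = z Q` with `z² = 1` on the whole decomposition group,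
so, if the determinant is cyclotomic, the kernel of `Q` is the line of a strictly ordinary
representation.
-/

set_option autoImplicit false

noncomputable section

namespace Fermat.Agent.RT.AtP

open Fermat.Agent.Deform (M2 Gal)
open Fermat.Agent.Arith
open scoped Pointwise

section Algebra

variable {R : Type} [CommRing R]

theorem cayley_two (X : M2 R) : X * X = X.trace • X - X.det • 1 := by
  ext i j
  fin_cases i <;> fin_cases j <;>
    simp [Matrix.mul_apply, Fin.sum_univ_two, Matrix.trace_fin_two, Matrix.det_fin_two] <;> ring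

theorem det_sub_smul (X : M2 R) (c : R) :
    (X - c • 1).det = c * c - c * X.trace + X.det := by
  simp [Matrix.det_fin_two, Matrix.trace_fin_two]
  ring

/-- If the images of `T - 1` and of `Y` lie in a set of pairwise dependent vectors and
`det T ≠ 1`, then `(T - det T) Y = 0`. -/
theorem mul_eq_zero_of_collinear [IsDomain R] {T Y : M2 R} (K : (Fin 2 → R) → Prop)
    (hK : ∀ x y, K x → K y → x 0 * y 1 - x 1 * y 0 = 0)
    (hT : ∀ v, K ((T - 1).mulVec v)) (hY : ∀ v, K (Y.mulVec v)) (hd : T.det ≠ 1) :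
    (T - T.det • 1) * Y = 0 := by
  have hcol : ∀ (X : M2 R) (j : Fin 2), X.mulVec (Pi.single j 1) = fun i => X i j := fun X j => by
    funext i
    rw [Matrix.mulVec_single_one, Matrix.col_apply]
  have h0 : (T - 1).det = 0 := by
    have h := hK _ _ (hT (Pi.single 0 1)) (hT (Pi.single 1 1))
    rw [hcol, hcol] at h
    rw [Matrix.det_fin_two]
    linear_combination h
  have htr : T.trace = 1 + T.det := by
    rw [show T - 1 = T - (1 : R) • 1 by rw [one_smul], det_sub_smul] at h0
    linear_combination -h0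
  set Q := T - T.det • 1 with hQ
  have hQT : Q * (T - 1) = 0 := by
    rw [hQ, sub_mul, mul_sub, mul_one, cayley_two, smul_mul_assoc, one_mul, smul_sub, htr,
      add_smul, one_smul]
    abel
  obtain ⟨j, k, hjk⟩ : ∃ j k, (T - 1) k j ≠ 0 := by
    by_contra! hall
    exact hd (by rw [show T = 1 from sub_eq_zero.mp (Matrix.ext fun k j => hall j k),
      Matrix.det_one])
  set c := (T - 1).mulVec (Pi.single j 1) with hc
  have hck : c k ≠ 0 := by rwa [hc, hcol]
  have hQc : Q.mulVec c = 0 := by rw [hc, Matrix.mulVec_mulVec, hQT, Matrix.zero_mulVec]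
  have hkill : ∀ y, K y → Q.mulVec y = 0 := fun y hy => by
    have h := hK c y (hT _) hy
    have e : c k • y = y k • c := by
      funext i
      fin_cases k <;> fin_cases i <;> simp at h ⊢ <;>
        first | ring | linear_combination h | linear_combination -h
    have h2 := congrArg (Q.mulVec ·) e
    simp only [Matrix.mulVec_smul, hQc, smul_zero] at h2
    exact (smul_eq_zero.mp h2).resolve_left hck
  ext i j'
  have h := congrFun (hkill _ (hY (Pi.single j' 1))) i
  rwa [Matrix.mulVec_mulVec, hcol] at h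

theorem det_eq_zero_of_mul_eq_zero [IsDomain R] {Q Y : M2 R} (hY : Y ≠ 0) (h : Q * Y = 0) :
    Q.det = 0 := by
  have h2 := congrArg (Q.adjugate * ·) h
  simp only [← mul_assoc, Matrix.adjugate_mul, smul_mul_assoc, one_mul, mul_zero] at h2
  exact (smul_eq_zero.mp h2).resolve_right hY

/-- The kernel of a nonzero singular matrix over a valuation domain is a line with a complement. -/
theorem exists_kernel_basis [IsDomain R] [ValuationRing R] {Q : M2 R} (h0 : Q ≠ 0)
    (hdet : Q.det = 0) :
    ∃ b : Module.Basis (Fin 2) R (Fin 2 → R), ∀ v, Q.mulVec v = 0 ↔ v ∈ R ∙ b 0 := by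
  rw [Matrix.det_fin_two] at hdet
  obtain ⟨a, j, ha, hdvd⟩ : ∃ a j, Q a j ≠ 0 ∧ Q a j ∣ Q a (1 - j) := by
    obtain ⟨a, ha⟩ : ∃ a, Q a ≠ 0 := by
      by_contra! hall
      exact h0 (funext hall)
    obtain ⟨j, hj⟩ : ∃ j, Q a j ≠ 0 := Function.ne_iff.mp ha
    rcases ValuationRing.dvd_total (Q a j) (Q a (1 - j)) with h | h
    · exact ⟨a, j, hj, h⟩
    · refine ⟨a, 1 - j, fun e => hj (zero_dvd_iff.mp (e ▸ h)), ?_⟩
      rwa [sub_sub_cancel]
  obtain ⟨c, hc⟩ := hdvd
  -- the kernel is spanned by `w`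
  let w : Fin 2 → R := fun i => if i = j then -c else 1
  have hj : (1 : Fin 2) - j ≠ j := by fin_cases j <;> decide
  have hw : w j = -c := if_pos rfl
  have hw' : w (1 - j) = 1 := if_neg hj
  have hsum : ∀ (v : Fin 2 → R) (i : Fin 2), Q.mulVec v i = Q i j * v j
      + Q i (1 - j) * v (1 - j) := by
    intro v i
    fin_cases j <;> simp [Matrix.mulVec, dotProduct, Fin.sum_univ_two]
    ring
  have hker : ∀ v, Q.mulVec v = 0 ↔ v j + c * v (1 - j) = 0 := by
    intro v
    constructor
    · intro h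
      have := congrFun h a
      rw [hsum, hc, Pi.zero_apply] at this
      exact (mul_eq_zero.mp (by linear_combination this :
        Q a j * (v j + c * v (1 - j)) = 0)).resolve_left ha
    · intro h
      funext i
      have hrow : Q a j * Q i (1 - j) = Q i j * Q a (1 - j) := by
        fin_cases a <;> fin_cases i <;> fin_cases j <;> simp <;>
          first | ring | linear_combination hdet | linear_combination -hdet
      have h1 : Q i (1 - j) = Q i j * c := mul_left_cancel₀ ha (by rw [hrow, hc]; ring)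
      rw [hsum, h1, Pi.zero_apply]
      linear_combination Q i j * h
  let e : (Fin 2 → R) ≃ₗ[R] (Fin 2 → R) :=
    { toFun := fun q => q 0 • w + q 1 • Pi.single j 1
      map_add' := fun q q' => by simp only [Pi.add_apply, add_smul]; abel
      map_smul' := fun r q => by simp only [Pi.smul_apply, smul_eq_mul, mul_smul, smul_add,
        RingHom.id_apply]
      invFun := fun v => ![v (1 - j), v j + c * v (1 - j)]
      left_inv := fun q => by
        funext i
        fin_cases i <;> simp [hj, hw, hw']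
        ring
      right_inv := fun v => by
        funext i
        fin_cases j <;> fin_cases i <;> simp [w] <;> ring }
  refine ⟨(Pi.basisFun R (Fin 2)).map e, fun v => ?_⟩
  have hb : (Pi.basisFun R (Fin 2)).map e 0 = w := by
    show e (Pi.basisFun R (Fin 2) 0) = w
    simp [e]
  rw [hker, hb, Submodule.mem_span_singleton]
  constructor
  · intro h
    refine ⟨v (1 - j), funext fun i => ?_⟩
    by_cases hi : i = j
    · subst hi
      rw [Pi.smul_apply, hw, smul_eq_mul]
      linear_combination -h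
    · rw [show i = 1 - j by fin_cases i <;> fin_cases j <;> simp_all, Pi.smul_apply, hw',
        smul_eq_mul, mul_one]
  · rintro ⟨r, rfl⟩
    rw [Pi.smul_apply, Pi.smul_apply, hw, hw', smul_eq_mul, smul_eq_mul]
    ring

end Algebra

variable {R : Type} [CommRing R] [IsDomain R] [IsDiscreteValuationRing R] {p : ℕ} [Fact p.Prime]

omit [Fact p.Prime] in
theorem eq_zero_of_forall_mem_pow {x : R}
    (h : ∀ n : ℕ, x ∈ IsLocalRing.maximalIdeal R ^ n) : x = 0 := by
  rw [← Ideal.mem_bot, ← Ideal.iInf_pow_eq_bot_of_isDomain _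
    (IsLocalRing.maximalIdeal.isMaximal R).ne_top, Ideal.mem_iInf]
  exact h

/-- The equations extend to the decomposition group. -/
theorem exists_eq_smul_of_decomposition {ρ : Gal →* M2 R} (hcont : Deform.IsCont ρ) {Q : M2 R}
    {F : Gal} (hF : (padicPlace p).IsFrobeniusAt F p) {α : R} (hα : α * α = 1)
    (hI : ∀ t ∈ (padicPlace p).inertiaSubgroupIn ℚ, Q * ρ t = Q) (hQF : Q * ρ F = α • Q)
    {g : Gal} (hg : g ∈ (padicPlace p).decompositionSubgroup ℚ) :
    ∃ z : R, z * z = 1 ∧ Q * ρ g = z • Q := by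
  have hpow : ∀ i : ℕ, Q * ρ (F ^ i) = α ^ i • Q := by
    intro i
    induction i with
    | zero => rw [pow_zero, pow_zero, map_one, mul_one, one_smul]
    | succ i ih => rw [pow_succ, map_mul, ← mul_assoc, ih, smul_mul_assoc, hQF, smul_smul,
      ← pow_succ]
  -- modulo each power of the maximal ideal `z = 1` or `z = α` works
  have happrox : ∀ n : ℕ, ∃ z : R, (z = 1 ∨ z = α) ∧
      ∀ a b, (Q * ρ g - z • Q) a b ∈ IsLocalRing.maximalIdeal R ^ n := by
    intro n
    obtain ⟨L, hL, h1⟩ := hcont n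
    let L' : IntermediateField ℚ QBar := IntermediateField.normalClosure ℚ L QBar
    have : Normal ℚ L' := normalClosure.normal ℚ L QBar
    have : FiniteDimensional ℚ L' := normalClosure.is_finiteDimensional ℚ L QBar
    -- `g` is a power of `F` times an element near `1` times an inertia element
    obtain ⟨i, h, t, hh, -, ht, rfl⟩ := CFT.Flat.exists_frobenius_decomp (p := p) (φ := F) hF.choose
      (fun x hx => (CFT.Flat.mem_nonunits_iff p).mp
        ((Arith.isFrobeniusAt_iff_forall_mem.mp hF).2 x ((CFT.Flat.mem_place_iff p).mpr hx))) hg L'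
    refine ⟨α ^ i, ?_, fun a b => ?_⟩
    · obtain ⟨k, rfl | rfl⟩ := Nat.even_or_odd' i
      · exact Or.inl (by rw [pow_mul, sq, hα, one_pow])
      · exact Or.inr (by rw [pow_succ, pow_mul, sq, hα, one_pow, one_mul])
    have hh1 : ∀ a b, (ρ h - 1) a b ∈ IsLocalRing.maximalIdeal R ^ n := fun a b => by
      rw [Matrix.sub_apply]
      exact h1 h (fun x hx => (IntermediateField.mem_fixingSubgroup_iff _ _).mp hh x
        (IntermediateField.le_normalClosure L hx)) a b
    have e : Q * ρ (F ^ i * h * t) - α ^ i • Q = α ^ i • (Q * (ρ h - 1) * ρ t) := by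
      rw [map_mul, map_mul, ← mul_assoc, ← mul_assoc, hpow, mul_sub, mul_one, sub_mul, hI t ht,
        smul_sub, smul_mul_assoc, smul_mul_assoc]
    rw [e, Matrix.smul_apply, Matrix.mul_apply, smul_eq_mul]
    refine Ideal.mul_mem_left _ _ (Ideal.sum_mem _ fun c _ => Ideal.mul_mem_right _ _ ?_)
    rw [Matrix.mul_apply]
    exact Ideal.sum_mem _ fun d _ => Ideal.mul_mem_left _ _ (hh1 d c)
  -- so the entrywise products of the two defects vanish
  have hprod : ∀ a b c d, (Q * ρ g - (1 : R) • Q) a b * (Q * ρ g - α • Q) c d = 0 := by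
    intro a b c d
    refine eq_zero_of_forall_mem_pow fun n => ?_
    obtain ⟨z, rfl | rfl, hz⟩ := happrox n
    · exact Ideal.mul_mem_right _ _ (hz a b)
    · exact Ideal.mul_mem_left _ _ (hz c d)
  -- and `R` is a domain
  by_cases h : Q * ρ g - α • Q = 0
  · exact ⟨α, hα, sub_eq_zero.mp h⟩
  · obtain ⟨c, d, hcd⟩ : ∃ c d, (Q * ρ g - α • Q) c d ≠ 0 := by
      by_contra! hall
      exact h (Matrix.ext hall)
    exact ⟨1, one_mul 1, sub_eq_zero.mp (Matrix.ext fun a b =>
      (mul_eq_zero.mp (hprod a b c d)).resolve_right hcd)⟩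

omit [IsDiscreteValuationRing R] [Fact p.Prime] in
theorem decomposition_smul_iff {g σ : Gal} {P : ValuationSubring QBar} :
    σ ∈ (g • P).decompositionSubgroup ℚ ↔ g⁻¹ * σ * g ∈ P.decompositionSubgroup ℚ := by
  rw [mem_decomposition_iff, mem_decomposition_iff, mul_smul, mul_smul, inv_smul_eq_iff]

/-- **Strict ordinarity from the equations.** -/
theorem isStrictOrdinaryAt_of_equations (ρ : GaloisRepAdic R) (hdet : ρ.DetIsCyclotomic p)
    (b₀ : Module.Basis (Fin 2) R ρ.V) {Q : M2 R} (h0 : Q ≠ 0) (hQ : Q.det = 0)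
    {F : Gal} (hF : (padicPlace p).IsFrobeniusAt F p) {α : R} (hα : α * α = 1)
    (hI : ∀ t ∈ (padicPlace p).inertiaSubgroupIn ℚ, Q * Deform.matOf ρ b₀ t = Q)
    (hQF : Q * Deform.matOf ρ b₀ F = α • Q) : ρ.IsStrictOrdinaryAt p := by
  -- a basis whose first vector spans the kernel of `Q`
  obtain ⟨c, hc⟩ := exists_kernel_basis h0 hQ
  refine EC.Rep.isStrictOrdinaryAt_of_lines ρ hdet fun P hP => ?_
  obtain ⟨g, rfl⟩ := exists_smul_eq (CFT.Local.padicPlace_liesOverPrime p) hP Fact.out
  let u : ρ.V ≃ₗ[R] ρ.V := LinearEquiv.ofLinearMap (ρ.ρ g) (ρ.ρ g⁻¹)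
    (LinearMap.ext fun v => by
      rw [LinearMap.comp_apply, ← Module.End.mul_apply, ← map_mul, mul_inv_cancel, map_one]; rfl)
    (LinearMap.ext fun v => by
      rw [LinearMap.comp_apply, ← Module.End.mul_apply, ← map_mul, inv_mul_cancel, map_one]; rfl)
  -- at the place moved by `g` the line is the translate of this kernel
  let L : Submodule R ρ.V :=
    LinearMap.ker (Q.mulVecLin ∘ₗ (b₀.equivFun : ρ.V →ₗ[R] (Fin 2 → R)) ∘ₗ ρ.ρ g⁻¹)
  have hL : ∀ v, v ∈ L ↔ Q.mulVec (b₀.equivFun (ρ.ρ g⁻¹ v)) = 0 := fun v => LinearMap.mem_ker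
  let b : Module.Basis (Fin 2) R ρ.V := (c.map b₀.equivFun.symm).map u
  have hLb : L = R ∙ b 0 := by
    ext v
    rw [hL, hc]
    have hb : b 0 = u (b₀.equivFun.symm (c 0)) := rfl
    rw [Submodule.mem_span_singleton, Submodule.mem_span_singleton]
    constructor
    · rintro ⟨r, hr⟩
      refine ⟨r, ?_⟩
      rw [hb, ← map_smul u, ← map_smul b₀.equivFun.symm, hr, LinearEquiv.symm_apply_apply]
      exact u.apply_symm_apply v
    · rintro ⟨r, rfl⟩
      refine ⟨r, ?_⟩
      rw [hb, map_smul, map_smul, show ρ.ρ g⁻¹ (u (b₀.equivFun.symm (c 0))) = b₀.equivFun.symm (c 0)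
        from u.symm_apply_apply _, LinearEquiv.apply_symm_apply]
  have hmat : ∀ (σ : Gal) (v : ρ.V),
      b₀.equivFun (ρ.ρ σ v) = (Deform.matOf ρ b₀ σ).mulVec (b₀.equivFun v) := fun σ v =>
    (LinearMap.toMatrix_mulVec_repr b₀ b₀ (ρ.ρ σ) v).symm
  have hact : ∀ (σ : Gal) (v : ρ.V),
      ρ.ρ g⁻¹ (ρ.ρ σ v) = ρ.ρ (g⁻¹ * σ * g) (ρ.ρ g⁻¹ v) := fun σ v => by
    simp only [← Module.End.mul_apply, ← map_mul]
    congr 2
    group
  -- an equation for the conjugate of `σ` says `σ` is the scalar `z` modulo the line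
  have key : ∀ σ : Gal, ∀ z : R,
      Q * Deform.matOf ρ b₀ (g⁻¹ * σ * g) = z • Q → ∀ v, ρ.ρ σ v - z • v ∈ L := by
    intro σ z hz v
    rw [hL, map_sub, map_smul, map_sub, map_smul, Matrix.mulVec_sub, Matrix.mulVec_smul, hact,
      hmat, Matrix.mulVec_mulVec, hz, Matrix.smul_mulVec, sub_self]
  refine ⟨b, fun σ hσ v => ?_, fun σ hσ => ?_⟩
  · rw [← hLb]
    have h1 : g⁻¹ * σ * g ∈ (padicPlace p).inertiaSubgroupIn ℚ := by
      have h2 : g * (g⁻¹ * σ * g) * g⁻¹ = σ := by group
      exact mem_inertia_smul_iff.mp (h2.symm ▸ hσ)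
    simpa using key σ 1 (by rw [hI _ h1, one_smul]) v
  · rw [← hLb]
    -- decomposition elements satisfy one with `z * z = 1`
    obtain ⟨z, hz1, hz⟩ := exists_eq_smul_of_decomposition (Deform.isCont_matOf ρ b₀) hF hα hI hQF
      (decomposition_smul_iff.mp hσ)
    refine ⟨?_, z, hz1, key σ z hz⟩
    have hb0 : b 0 ∈ L := hLb ▸ Submodule.mem_span_singleton_self _
    have := add_mem (key σ z hz (b 0)) (L.smul_mem z hb0)
    rwa [sub_add_cancel] at this

end Fermat.Agent.RT.AtP

end
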