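import Fermat.Agent.RT.AtP.Eigen
import Fermat.Agent.GaloisReps.Rep
import Fermat.Agent.RT.AtP.LineAlgebra
import Mathlib.RingTheory.Flat.TorsionFree

/-!
# The kernel of the coefficient at `1` is a line

If the coefficient at `1` is not zero on an eigenspace, the vectors killed by it at every precision
are pairwise dependent. With the actions of Frobenius and inertia on the coefficient this gives the
equations `(ρ τ₀ - d) (ρ τ - 1) = 0` and `(ρ τ₀ - d) (ρ F - α) = 0` on the eigen lattice.
-/

set_option autoImplicit false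

noncomputable section

open scoped TensorProduct
open Fermat.Agent.GaloisReps
open Fermat.Agent.Arith (QBar GQ)

namespace Fermat.Agent.RT.AtP

variable {N p : ℕ} [NeZero N] [Fact p.Prime] {A : ValuationSubring QBar}

/-- Multiplication by `p` from level `n` to level `n + 1`. -/
def pMul (n : ℕ) : QA A p n →+ QA A p (n + 1) :=
  (mkQA A p n).toAddMonoidHom.liftOfSurjective (mkQA_surjective n)
    ⟨(AddMonoidHom.mulLeft (p : QA A p (n + 1))).comp (mkQA A p (n + 1)).toAddMonoidHom,
      fun x hx => by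
        obtain ⟨y, hy⟩ := mkQA_eq_zero_iff.mp (AddMonoidHom.mem_ker.mp hx)
        show (p : QA A p (n + 1)) * mkQA A p (n + 1) x = 0
        rw [← map_natCast (mkQA A p (n + 1)), ← map_mul, mkQA_eq_zero_iff]
        exact ⟨y, by rw [hy, pow_succ]; ring⟩⟩

omit [Fact (Nat.Prime p)] in
theorem pMul_redQA (n : ℕ) (a : QA A p (n + 1)) :
    pMul n (redQA A p n a) = (p : QA A p (n + 1)) * a := by
  obtain ⟨x, rfl⟩ := mkQA_surjective (n + 1) a
  exact AddMonoidHom.liftOfRightInverse_comp_apply _ _ _ _ x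

theorem pMul_injective (n : ℕ) : Function.Injective (pMul (A := A) (p := p) n) := by
  rw [injective_iff_map_eq_zero]
  intro b hb
  obtain ⟨x, rfl⟩ := mkQA_surjective n b
  rw [← redQA_mk n x, pMul_redQA] at hb
  rw [← redQA_mk n x]
  exact redQA_eq_zero_of_mul Fact.out hb

variable (hA : A.LiesOverPrime p) (E : TorsionIso N p) {R : Type} [CommRing R] [IsDomain R]
  [CharZero R]

/-- Divisibility is seen one level lower. -/
theorem mapR_redQA_eq_zero (n : ℕ) {x : R ⊗[ℤ] QA A p (n + 1)} (hx : (p : R) • x = 0) :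
    mapR R (redQA A p n).toAddMonoidHom x = 0 := by
  have : Module.IsTorsionFree ℤ R :=
    Module.isTorsionFree_iff_algebraMap_injective.mpr (algebraMap ℤ R).injective_int
  have hinj : Function.Injective (mapR R (pMul (A := A) (p := p) n)) := by
    have := Module.Flat.lTensor_preserves_injective_linearMap (M := R)
      (pMul (A := A) (p := p) n).toIntLinearMap (pMul_injective n)
    exact this
  refine hinj ?_
  rw [map_zero, ← hx]
  clear hx
  induction x using TensorProduct.induction_on with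
  | zero => simp
  | tmul r a =>
    rw [mapR_tmul, mapR_tmul, RingHom.toAddMonoidHom_eq_coe, AddMonoidHom.coe_coe, pMul_redQA,
      ← nsmul_eq_mul, Nat.cast_smul_eq_nsmul, ← TensorProduct.tmul_smul]
  | add a b ha hb => rw [map_add, map_add, ha, hb, smul_add]

/-- If `p ^ k` kills the value at level `n + k`, the value at level `n` is zero. -/
theorem Phi_eq_zero_of_smul (k n : ℕ) (v : Fin (2 * Gamma0.genus N) → R)
    (h : (p : R) ^ k • Phi hA E (n + k) 1 v = 0) : Phi hA E n 1 v = 0 := by
  induction k with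
  | zero => simpa using h
  | succ k ih =>
    refine ih ?_
    have h' : (p : R) • ((p : R) ^ k • Phi hA E (n + k + 1) 1 v) = 0 := by
      rw [smul_smul, ← pow_succ']
      exact h
    have := mapR_redQA_eq_zero (R := R) (A := A) (p := p) (n + k) h'
    rwa [map_smul, mapR_redQA_Phi] at this

variable [IsDiscreteValuationRing R] (θ : FullHecke N →+* R) (ι : ℤ_[p] →+* R)
  (G : TorsionGalois N p)

/-- The vector with given coordinates in the eigen basis. -/
def vecOf : (Fin 2 → R) →ₗ[R] (Fin (2 * Gamma0.genus N) → R) :=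
  (eigenspace (E.toModel G).hecke θ).subtype ∘ₗ
    (((E.toModel G).eigenBasis θ).equivFun.symm : (Fin 2 → R) →ₗ[R] _)

theorem vecOf_equivFun (v : eigenspace (E.toModel G).hecke θ) :
    vecOf E θ G (((E.toModel G).eigenBasis θ).equivFun v) = (v : Fin (E.toModel G).d → R) :=
  congrArg Subtype.val (((E.toModel G).eigenBasis θ).equivFun.symm_apply_apply v)

/-- Killed at every precision. -/
def InKer (w : Fin 2 → R) : Prop := ∀ n, Phi hA E n 1 (vecOf E θ G w) = 0

variable (hpR : (p : R) ∈ IsLocalRing.maximalIdeal R)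

include hpR in
omit [Fact (Nat.Prime p)] [CharZero R] in
theorem exists_dvd_pow {d : R} (hd : d ≠ 0) : ∃ k : ℕ, d ∣ (p : R) ^ k := by
  obtain ⟨π, hπ⟩ := IsDiscreteValuationRing.exists_irreducible R
  obtain ⟨a, ha⟩ := IsDiscreteValuationRing.associated_pow_irreducible hd hπ
  refine ⟨a, ha.dvd.trans (pow_dvd_pow_of_dvd ?_ a)⟩
  rwa [← Ideal.mem_span_singleton,
    ← (IsDiscreteValuationRing.irreducible_iff_uniformizer π).mp hπ]

include hpR in
/-- Two killed vectors are dependent. -/
theorem det_eq_zero_of_inKer (hnv : ∃ v ∈ eigenspace (latticeMat N) θ, Phi hA E 1 1 v ≠ 0)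
    (x y : Fin 2 → R) (hx : InKer hA E θ G x) (hy : InKer hA E θ G y) :
    x 0 * y 1 - x 1 * y 0 = 0 := by
  by_contra hd
  set d := x 0 * y 1 - x 1 * y 0 with hdef
  obtain ⟨v, hv, hne⟩ := hnv
  obtain ⟨k, c, hc⟩ := exists_dvd_pow (p := p) hpR hd
  refine hne (Phi_eq_zero_of_smul hA E k 1 v ?_)
  let vv : eigenspace (E.toModel G).hecke θ := ⟨v, hv⟩
  set w := ((E.toModel G).eigenBasis θ).equivFun vv
  have hw : d • w = (w 0 * y 1 - w 1 * y 0) • x + (x 0 * w 1 - x 1 * w 0) • y := by
    funext i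
    fin_cases i <;> simp [hdef] <;> ring
  have h2 := congrArg (fun u => Phi hA E (1 + k) 1 (vecOf E θ G u)) hw
  simp only [map_add, map_smul, hx (1 + k), hy (1 + k), smul_zero, add_zero, w,
    vecOf_equivFun] at h2
  rw [hc, mul_comm, mul_smul]
  exact (congrArg (c • ·) h2).trans (smul_zero c)

/-- If `σ` acts on the coefficient at `1` by `α`, the image of `σ - α` is killed by it at every
precision. -/
theorem inKer_mulVec {σ : GQ} {α : R}
    (h : ∀ n, ∀ v ∈ eigenspace (latticeMat N) θ,
      Phi hA E n 1 (((E.gal σ).map ι).mulVec v) = α • Phi hA E n 1 v) (w : Fin 2 → R) :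
    InKer hA E θ G (((E.toModel G).eigenMatrix ι θ σ - α • 1).mulVec w) := by
  intro n
  set D := E.toModel G
  set v : eigenspace D.hecke θ := (D.eigenBasis θ).equivFun.symm w with hv
  have e : (D.eigenMatrix ι θ σ - α • 1).mulVec w =
      (D.eigenBasis θ).equivFun (D.eigenAction ι θ σ v - α • v) := by
    rw [map_sub, map_smul, Matrix.sub_mulVec, Matrix.smul_mulVec, Matrix.one_mulVec, hv,
      LinearEquiv.apply_symm_apply]
    congr 1
    have := LinearMap.toMatrix_mulVec_repr (D.eigenBasis θ) (D.eigenBasis θ) (D.eigenAction ι θ σ) v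
    rw [hv, show ⇑((D.eigenBasis θ).repr ((D.eigenBasis θ).equivFun.symm w)) = w from
      (D.eigenBasis θ).equivFun.apply_symm_apply w] at this
    exact this
  rw [e, vecOf_equivFun, Submodule.coe_sub, Submodule.coe_smul, HeckeGaloisModel.coe_eigenAction]
  exact ((map_sub (Phi hA E n 1) _ _).trans
    (congrArg (_ - ·) (map_smul (Phi hA E n 1) _ _))).trans (sub_eq_zero.mpr (h n _ v.2))

include hpR in
/-- **The equations on the eigen lattice.** -/
theorem equations_of_ne_zero {α β : R} (hα : IsUnit α)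
    (hsum : α + β = θ (HeckeDuality.heckeOp N 2 p Fact.out))
    (hprod : α * β = if p ∣ N then 0 else (p : R))
    (hnv : ∃ v ∈ eigenspace (latticeMat N) θ, Phi hA E 1 1 v ≠ 0)
    {τ₀ : GQ} (hτ₀ : τ₀ ∈ A.inertiaSubgroupIn ℚ)
    (hd : ((E.toModel G).eigenMatrix ι θ τ₀).det ≠ 1) :
    (∀ τ ∈ A.inertiaSubgroupIn ℚ,
      ((E.toModel G).eigenMatrix ι θ τ₀ - ((E.toModel G).eigenMatrix ι θ τ₀).det • 1) *
        ((E.toModel G).eigenMatrix ι θ τ - 1) = 0) ∧
    ∀ F : GQ, A.IsFrobeniusAt F p →
      ((E.toModel G).eigenMatrix ι θ τ₀ - ((E.toModel G).eigenMatrix ι θ τ₀).det • 1) *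
        ((E.toModel G).eigenMatrix ι θ F - α • 1) = 0 := by
  have hI : ∀ τ ∈ A.inertiaSubgroupIn ℚ, ∀ w,
      InKer hA E θ G (((E.toModel G).eigenMatrix ι θ τ - 1).mulVec w) := fun τ hτ w => by
    have := inKer_mulVec hA E θ ι G (σ := τ) (α := 1) (fun n v hv => by
      rw [Phi_one_inertia hA E G hpR n hα hsum hprod hτ hv, one_smul]) w
    rwa [one_smul] at this
  have hK := det_eq_zero_of_inKer hA E θ G hpR hnv
  refine ⟨fun τ hτ => mul_eq_zero_of_collinear _ hK (hI τ₀ hτ₀) (hI τ hτ) hd,
    fun F hF => mul_eq_zero_of_collinear _ hK (hI τ₀ hτ₀) (inKer_mulVec hA E θ ι G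
      fun n v hv => Phi_one_frobenius hA E hpR n hα hsum hprod hF hv) hd⟩

end Fermat.Agent.RT.AtP

end
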