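import Fermat.Agent.RT.Mazur.Poles

/-!
# The two components meet

For every `M` prime to `q` the two components of the special fibre at level `q M` meet: the genus
formula gives `12 (g(q M) + 1 - 2 g(M)) ≥ (q - 1) ψ(M)`, since a square root of `-1` or a cube root
of unity in `ZMod M` extends in at most two ways to `ZMod (q M)`.
-/

set_option autoImplicit false

noncomputable section

namespace Fermat.Agent.RT.AtP

open ModularCurve AlgebraicCurve
open Fermat.Agent.Semistable Fermat.Agent.Arith

variable {q M : ℕ} [NeZero M] [hq : Fact q.Prime]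

/-- A monic quadratic has at most two roots in a field. -/
theorem natCard_roots_le {F : Type*} [Field F] (b c : F) :
    Nat.card {x : F // x ^ 2 + b * x + c = 0} ≤ 2 := by
  classical
  rcases isEmpty_or_nonempty {x : F // x ^ 2 + b * x + c = 0} with hE | ⟨⟨r, hr⟩⟩
  · simp
  · have hsub : {x : F | x ^ 2 + b * x + c = 0} ⊆ {r, -b - r} := fun x hx => by
      have h0 : (x - r) * (x - (-b - r)) = 0 := by
        rw [Set.mem_ofPred_eq] at hx
        linear_combination hx - hr
      rcases mul_eq_zero.mp h0 with h | h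
      · exact Or.inl (sub_eq_zero.mp h)
      · exact Or.inr (sub_eq_zero.mp h)
    calc Nat.card {x : F // x ^ 2 + b * x + c = 0}
        = ({x : F | x ^ 2 + b * x + c = 0}).ncard := Nat.card_coe_set_eq _
      _ ≤ ({r, -b - r} : Set F).ncard := Set.ncard_le_ncard hsub (Set.toFinite _)
      _ ≤ _ := (Set.ncard_insert_le _ _).trans (by rw [Set.ncard_singleton])

/-- A quadratic has at most twice as many roots modulo `q M` as modulo `M`. -/
theorem natCard_roots_mul_le (hqM : ¬ q ∣ M) (b : ℕ) :
    Nat.card {x : ZMod (q * M) // x ^ 2 + (b : ZMod (q * M)) * x + 1 = 0} ≤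
      2 * Nat.card {x : ZMod M // x ^ 2 + (b : ZMod M) * x + 1 = 0} := by
  have hco : Nat.Coprime q M := (Nat.Prime.coprime_iff_not_dvd hq.out).mpr hqM
  set e := ZMod.chineseRemainder hco
  have he : ∀ {x : ZMod (q * M)}, x ^ 2 + (b : ZMod (q * M)) * x + 1 = 0 →
      (e x).1 ^ 2 + (b : ZMod q) * (e x).1 + 1 = 0 ∧
        (e x).2 ^ 2 + (b : ZMod M) * (e x).2 + 1 = 0 := fun {x} hx => by
    have h := congrArg e hx
    rw [map_add, map_add, map_pow, map_mul, map_natCast, map_one, map_zero] at h
    exact ⟨congrArg Prod.fst h, congrArg Prod.snd h⟩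
  let f : {x : ZMod (q * M) // x ^ 2 + (b : ZMod (q * M)) * x + 1 = 0} →
      {x : ZMod q // x ^ 2 + (b : ZMod q) * x + 1 = 0} ×
        {x : ZMod M // x ^ 2 + (b : ZMod M) * x + 1 = 0} :=
    fun x => (⟨_, (he x.2).1⟩, ⟨_, (he x.2).2⟩)
  have hf : Function.Injective f := fun x y hxy => Subtype.ext (e.injective (Prod.ext
    (congrArg (fun z => z.1.1) hxy) (congrArg (fun z => z.2.1) hxy)))
  refine (Nat.card_le_card_of_injective f hf).trans ?_
  rw [Nat.card_prod]
  exact Nat.mul_le_mul_right _ (natCard_roots_le _ _)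

/-- The genus inequality. -/
theorem genus_ineq (hqM : ¬ q ∣ M) :
    ((q : ℤ) - 1) * dedekindPsi M ≤
      12 * ((genusFF QBar (FB (q * M)) : ℤ) + 1 - 2 * genusFF QBar (FB M)) := by
  have g1 : (genus QBar (FB (q * M)) : ℚ) = genusFormula (q * M) :=
    Genus.genus_eq_genusFormula (N := q * M)
  have g2 : (genus QBar (FB M) : ℚ) = genusFormula M := Genus.genus_eq_genusFormula (N := M)
  rw [FF.genus_eq_genusFF, genusFormula, RT.Mazur.cuspCount_prime_mul hq.out hqM,
    Gamma0.dedekindPsi_mul_of_not_dvd hq.out hqM] at g1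
  rw [FF.genus_eq_genusFF, genusFormula] at g2
  push_cast at g1
  have h2 : nuTwo (q * M) ≤ 2 * nuTwo M := by
    simpa [nuTwo] using natCard_roots_mul_le hqM 0
  have h3 : nuThree (q * M) ≤ 2 * nuThree M := by
    simpa [nuThree] using natCard_roots_mul_le hqM 1
  have h2' : (nuTwo (q * M) : ℚ) ≤ 2 * nuTwo M := by exact_mod_cast h2
  have h3' : (nuThree (q * M) : ℚ) ≤ 2 * nuThree M := by exact_mod_cast h3
  have : ((q : ℚ) - 1) * dedekindPsi M ≤
      12 * ((genusFF QBar (FB (q * M)) : ℚ) + 1 - 2 * genusFF QBar (FB M)) := by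
    rw [g1, g2]
    linarith
  exact_mod_cast this

variable {A : ValuationSubring QBar} [CharP (Res A) q] [FF.IsFunctionField (Res A) (KM A M)]
  (h : Setup A M q)

/-- The meeting points exist. -/
theorem nonempty_pt : Nonempty (Pt h) :=
  RT.Mazur.nonempty_pt_of_genus_ineq h (genus_ineq h.hqM)

end Fermat.Agent.RT.AtP

end
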