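import Fermat.Agent.RT.AtP.Equations
import Fermat.Agent.RT.Lifting.Inputs
import Fermat.Agent.Newforms.Newform

/-!
# Strictness at `p` of a newform with `p` exactly in the level

The eigenvalue of `U_p` is `α = ±1`, so for odd `p` the equations at Frobenius and inertia make
every residually absolutely irreducible model of the newform strictly ordinary at `p`, as soon as
the coefficient at `1` is not zero on its eigen lattice.
-/

set_option autoImplicit false

noncomputable section

open IsLocalRing Module CongruenceSubgroup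
open Fermat.Agent.GaloisReps
open Fermat.Agent.Arith (GQ)
open Fermat.Agent.RT.Glue (KBar)

namespace Fermat.Agent.RT.AtP

variable {N p : ℕ} [NeZero N] [Fact p.Prime] {R : Type} [CommRing R] [IsDomain R]
  [IsDiscreteValuationRing R] [CharZero R] (ι : ℤ_[p] →+* R) (θ : FullHecke N →+* R)
  (hpR : (p : R) ∈ maximalIdeal R)

include hpR in
/-- The determinant of a model is cyclotomic. -/
theorem detIsCyclotomic_rep (D : HeckeGaloisModel N p) : (D.rep ι θ hpR).DetIsCyclotomic p :=
  ⟨hpR, fun n σ a ha => by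
    rw [Nat.cast_pow, Ideal.mem_span_singleton]
    exact D.det_eigenAction_congr ι θ hpR (s := σ) (q := a) (n := n) ha⟩

include hpR in
/-- **Strictness from nonvanishing**, for `p` in the level and `U_p ^ 2 = 1`. -/
theorem isStrictOrdinaryAt_rep (hp2 : p ≠ 2) (D : HeckeGaloisModel N p)
    (habs : (D.rep ι θ hpR).residual.IsAbsolutelyIrreducible) (hpN : p ∣ N)
    (hU : θ (HeckeDuality.heckeOp N 2 p Fact.out) * θ (HeckeDuality.heckeOp N 2 p Fact.out) = 1)
    (hnv : ∃ v ∈ eigenspace (latticeMat N) θ,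
      Phi (CFT.Local.padicPlace_liesOverPrime p) (stdIso N p) 1 1 v ≠ 0) :
    (D.rep ι θ hpR).IsStrictOrdinaryAt p := by
  set α := θ (HeckeDuality.heckeOp N 2 p Fact.out) with hα
  have hA := CFT.Local.padicPlace_liesOverPrime p
  obtain ⟨τ₀, hτ₀, hu⟩ := exists_inertia_det_unit ι θ hpR hp2 D hA
  have hd : LinearMap.det (D.eigenAction ι θ τ₀) ≠ 1 := fun h => by
    rw [h, sub_self] at hu
    exact not_isUnit_zero hu
  obtain ⟨hI, hF⟩ := exists_equations ι θ hpR hp2 D habs hA (α := α) (β := 0)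
    (IsUnit.of_mul_eq_one α hU) (add_zero α) (by rw [mul_zero, if_pos hpN]) hnv hτ₀ hd
  obtain ⟨F, hF'⟩ := Arith.exists_isFrobeniusAt hA (Fact.out : p.Prime)
  have hmat : ∀ g, Deform.matOf (D.rep ι θ hpR) (D.eigenBasis θ) g = D.eigenMatrix ι θ g :=
    fun _ => rfl
  set d := (D.eigenMatrix ι θ τ₀).det with hdd
  have hd1 : d ≠ 1 := by
    rwa [hdd, HeckeGaloisModel.eigenMatrix, LinearMap.det_toMatrix]
  set Q := D.eigenMatrix ι θ τ₀ - d • 1 with hQ
  have hd0 : d ≠ 0 := by
    rw [hdd, HeckeGaloisModel.eigenMatrix, LinearMap.det_toMatrix]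
    exact (((Group.isUnit τ₀).map (D.eigenAction ι θ)).map LinearMap.det).ne_zero
  have hQ0 : Q ≠ 0 := fun h => by
    have h2 := congrArg Matrix.det (sub_eq_zero.mp h)
    rw [Matrix.det_smul, Matrix.det_one, mul_one, Fintype.card_fin, ← hdd, sq] at h2
    exact hd1 (mul_left_cancel₀ hd0 (h2.symm.trans (mul_one d).symm))
  have hY : D.eigenMatrix ι θ τ₀ - 1 ≠ 0 := fun h => hd1 (by
    rw [hdd, sub_eq_zero.mp h, Matrix.det_one])
  refine isStrictOrdinaryAt_of_equations (D.rep ι θ hpR) (detIsCyclotomic_rep ι θ hpR D)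
    (D.eigenBasis θ) hQ0 (det_eq_zero_of_mul_eq_zero hY (hI τ₀ hτ₀)) hF' hU
    (fun t ht => ?_) ?_
  · rw [hmat]
    exact sub_eq_zero.mp (by
      have h := hI t ht
      rwa [mul_sub, mul_one] at h)
  · rw [hmat]
    exact sub_eq_zero.mp (by
      have h := hF F hF'
      rwa [mul_sub, mul_smul_comm, mul_one] at h)

omit [IsDiscreteValuationRing R] [CharZero R] in
/-- The eigenvalue of `U_p` of a newform with `p` exactly in the level squares to one. -/
theorem mul_self_U_eq_one {O : Type} [CommRing O] [IsDomain O] [IsDiscreteValuationRing O]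
    {M : ℕ} [NeZero M] {g : CuspForm (Gamma0 M) 2} {hg : g.IsNewform} {e : KBar O ≃+* ℂ}
    (r : Glue.Realisation O p hg e) (hpM : p ∣ M) (hp2M : ¬ p ^ 2 ∣ M) :
    r.θ' (HeckeDuality.heckeOp M 2 p Fact.out) * r.θ' (HeckeDuality.heckeOp M 2 p Fact.out) =
      1 := by
  refine r.j_injective (e.injective ?_)
  simp only [map_mul, map_one, r.emb_θ']
  have h : ConductorLevel.eigenChar hg.1 ∅ (HeckeDuality.heckeOp M 2 p Fact.out) =
      ModularFormClass.qCoeff g p := by
    show ModularFormClass.qCoeff ((HeckeDuality.heckeOp M 2 p Fact.out).1 g) 1 = _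
    rw [HeckeDuality.heckeOp_apply_of_isNormalizedEigenform hg.1,
      HeckeDuality.coeff_smul, hg.1.qCoeff_one, mul_one]
  rw [h, ← sq]
  exact Newforms.qCoeff_sq_eq_one hg Fact.out hpM hp2M

/-- **`StrictAtNew` from nonvanishing of the coefficient at one.** -/
theorem strictAtNew_of_ne_zero (O : Type) [CommRing O] [IsDomain O] [IsDiscreteValuationRing O]
    [IsAdicComplete (maximalIdeal O) O] [Finite (ResidueField O)] (hp2 : p ≠ 2)
    (hcore : ∀ (M : ℕ) [NeZero M] (g : CuspForm (Gamma0 M) 2) (hg : g.IsNewform), p ∣ M →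
      ¬ p ^ 2 ∣ M → ∀ (e : KBar O ≃+* ℂ) (r : Glue.Realisation O p hg e)
        (D : HeckeGaloisModel M p), (D.rep r.ι r.θ' r.p_mem).residual.IsAbsolutelyIrreducible →
        (GaloisRepAdic.ofResidualGaloisRep (D.rep r.ι r.θ' r.p_mem).residual).IsOrdinaryAt p →
        ∃ v ∈ eigenspace (latticeMat M) r.θ',
          Phi (CFT.Local.padicPlace_liesOverPrime p) (stdIso M p) 1 1 v ≠ 0) :
    Lifting.StrictAtNew p O := fun M _ g hg hpM hp2M e r D habs hres =>
  isStrictOrdinaryAt_rep r.ι r.θ' r.p_mem hp2 D habs hpM (mul_self_U_eq_one r hpM hp2M)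
    (hcore M g hg hpM hp2M e r D habs hres)

end Fermat.Agent.RT.AtP

end
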