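import Fermat.Agent.RT.AtP.ResClasses
import Fermat.Agent.RT.AtP.Residual
import Mathlib.RingTheory.DiscreteValuationRing.Basic

/-!
# When the first coefficient vanishes on an eigenspace

For an odd `p` and an eigensystem with absolutely irreducible residual representation: if the
residual coefficient at `1` of all classes of the eigenspace vanishes, so do all coefficients. For
every eigensystem: if it does not, the eigenvalue at `p` is a unit and the coefficient at `1` read
on vectors is nonzero.
-/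

set_option autoImplicit false

noncomputable section

open scoped TensorProduct
open IsLocalRing
open Fermat.Agent.Semistable (Res)
open Fermat.Agent.GaloisReps
open Fermat.Agent.Arith (QBar GQ)

namespace Fermat.Agent.RT.AtP

variable {N p : ℕ} [NeZero N] [Fact p.Prime] {A : ValuationSubring QBar} (hA : A.LiesOverPrime p)
  (E : TorsionIso N p) {R : Type} [CommRing R] [IsDomain R] [IsDiscreteValuationRing R] [CharZero R]
  (ι : ℤ_[p] →+* R) {θ : FullHecke N →+* R}

include ι in
omit [IsDomain R] [IsDiscreteValuationRing R] [CharZero R] in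
/-- The coefficient at `k` of a Hecke translate. -/
theorem cof_cls_hecke (lam : R →+ ZMod (p ^ 1)) {l : ℕ} (hl : l.Prime)
    {v : Fin (2 * Gamma0.genus N) → R} (hv : v ∈ eigenspace (latticeMat N) θ) (k : ℤ) :
    cof hA k (cls E lam (θ (HeckeDuality.heckeOp N 2 l hl) • v)) =
      cof hA ((l : ℤ) * k) (cls E lam v) +
        if ¬ l ∣ N ∧ (l : ℤ) ∣ k then (l : Res A) * cof hA (k / l) (cls E lam v) else 0 := by
  rw [cls_hecke E ι lam hl hv, cof_hecke]

include ι in
/-- The coefficient at `1` determines all coefficients. -/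
theorem cof_eq_zero_of_one (hp2 : p ≠ 2) (hpR : (p : R) ∈ maximalIdeal R)
    (D : HeckeGaloisModel N p) (habs : (D.rep ι θ hpR).residual.IsAbsolutelyIrreducible)
    (h1 : ∀ v ∈ eigenspace (latticeMat N) θ, ∀ lam, cof hA 1 (cls E lam v) = 0)
    {v : Fin (2 * Gamma0.genus N) → R} (hv : v ∈ eigenspace (latticeMat N) θ)
    (lam : R →+ ZMod (p ^ 1)) (k : ℤ) : cof hA k (cls E lam v) = 0 := by
  -- positive indices: induction, by the Hecke relation at the least prime factor
  have key : ∀ n : ℕ, 1 ≤ n → ∀ v ∈ eigenspace (latticeMat N) θ, ∀ lam,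
      cof hA (n : ℤ) (cls E lam v) = 0 := by
    intro n
    induction n using Nat.strong_induction_on with
    | _ n ih =>
      intro hn v hv lam
      rcases eq_or_ne n 1 with rfl | hn1
      · rw [Nat.cast_one]
        exact h1 v hv lam
      set l := n.minFac
      have hl : l.Prime := Nat.minFac_prime hn1
      obtain ⟨m, hm⟩ := Nat.minFac_dvd n
      have hm1 : 1 ≤ m := Nat.pos_of_ne_zero fun h0 => by rw [hm, h0, mul_zero] at hn; omega
      have hlt : m < n := by
        rw [hm]
        exact lt_mul_of_one_lt_left hm1 hl.one_lt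
      have h := cof_cls_hecke hA E ι lam hl hv (m : ℤ)
      rw [ih m hlt hm1 _ (Submodule.smul_mem _ _ hv) lam, ← Nat.cast_mul, ← hm] at h
      split_ifs at h with hd
      · have hd' : l ∣ m := Int.natCast_dvd_natCast.mp hd.2
        rw [show (m : ℤ) / (l : ℤ) = ((m / l : ℕ) : ℤ) from (Int.natCast_div m l).symm,
          ih (m / l) ((Nat.div_le_self m l).trans_lt hlt)
            (Nat.div_pos (Nat.le_of_dvd hm1 hd') hl.pos) v hv lam,
          mul_zero, add_zero] at h
        exact h.symm
      · rw [add_zero] at h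
        exact h.symm
  rcases lt_trichotomy k 0 with hk | rfl | hk
  · exact cof_of_neg hA hk _
  -- index zero: some `T_l - (l + 1)` is invertible and kills it
  · obtain ⟨l, hl, hlN, hu⟩ := exists_isUnit_sub_succ hpR hp2 D habs
    obtain ⟨u, hu⟩ := hu
    set w := (↑u⁻¹ : R) • v
    have hw : w ∈ eigenspace (latticeMat N) θ := Submodule.smul_mem _ _ hv
    have hvw : v = θ (HeckeDuality.heckeOp N 2 l hl) • w - ((l + 1 : ℕ) : R) • w := by
      rw [← sub_smul, Nat.cast_succ, ← hu, smul_smul, u.mul_inv, one_smul]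
    have h := cof_cls_hecke hA E ι lam hl hw 0
    rw [if_pos ⟨fun h => hlN (h.mul_right p), dvd_zero _⟩, mul_zero, Int.zero_ediv] at h
    rw [hvw, map_sub, map_sub, cls_natCast_smul, map_nsmul, h, nsmul_eq_mul, Nat.cast_succ]
    ring
  · obtain ⟨n, rfl⟩ := Int.eq_ofNat_of_zero_le hk.le
    exact key n (by omega) v hv lam

include ι in
/-- A nonzero coefficient at `1` makes the eigenvalue at `p` a unit. -/
theorem isUnit_of_cof_one_ne_zero {v : Fin (2 * Gamma0.genus N) → R}
    (hv : v ∈ eigenspace (latticeMat N) θ) {lam : R →+ ZMod (p ^ 1)}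
    (h1 : cof hA 1 (cls E lam v) ≠ 0) : IsUnit (θ (HeckeDuality.heckeOp N 2 p Fact.out)) := by
  have := Semistable.charP_res hA
  by_contra hnu
  set a := θ (HeckeDuality.heckeOp N 2 p Fact.out)
  have hpow : ∀ j : ℕ, cof hA 1 (cls E lam (a ^ j • v)) = cof hA 1 (cls E lam v) ^ p ^ j := by
    intro j
    induction j with
    | zero => rw [pow_zero, one_smul, pow_zero, pow_one]
    | succ j ih =>
      rw [pow_succ', mul_smul, cls_hecke E ι lam Fact.out (Submodule.smul_mem _ _ hv),
        cof_hecke_self, ih, ← pow_mul, ← pow_succ]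
  obtain ⟨ϖ, hϖ⟩ := IsDiscreteValuationRing.exists_irreducible R
  obtain ⟨n, u, hu⟩ := IsDiscreteValuationRing.eq_unit_mul_pow_irreducible
    (Nat.cast_ne_zero.mpr (Fact.out : p.Prime).ne_zero : (p : R) ≠ 0) hϖ
  obtain ⟨c, hc⟩ : ∃ c, a ^ n = (p : R) * c := by
    have hm : a ∈ maximalIdeal R := hnu
    rw [hϖ.maximalIdeal_eq, Ideal.mem_span_singleton] at hm
    obtain ⟨b, hb⟩ := hm
    refine ⟨↑u⁻¹ * b ^ n, ?_⟩
    rw [hb, mul_pow, hu, mul_mul_mul_comm, u.mul_inv, one_mul]
  refine h1 (eq_zero_of_pow_eq_zero (n := p ^ n) ?_)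
  rw [← hpow, show cls E lam (a ^ n • v) = 0 from (E.psi 1).injective (funext fun i => by
    rw [psi_cls, map_zero, Pi.zero_apply]
    show lam ((a ^ n • v) i) = 0
    rw [Pi.smul_apply, smul_eq_mul, hc, mul_assoc, lam_natCast_mul]), map_zero]

omit [IsDomain R] [IsDiscreteValuationRing R] [CharZero R] in
/-- A nonzero coefficient at `1` is seen on vectors. -/
theorem Phi_ne_zero_of_cof {v : Fin (2 * Gamma0.genus N) → R} {lam : R →+ ZMod (p ^ 1)}
    (h1 : cof hA 1 (cls E lam v) ≠ 0) : Phi hA E 1 1 v ≠ 0 := by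
  have := Semistable.charP_res hA
  intro h0
  refine h1 ?_
  let ct : ZMod (p ^ 1) →+* Res A := ZMod.castHom (dvd_pow_self p one_ne_zero) (Res A)
  let μ : R →+ QA A p 1 →+ Res A := AddMonoidHom.mk'
    (fun r => (AddMonoidHom.mulLeft (ct (lam r))).comp (resQA hA 0).toAddMonoidHom)
    fun r s => AddMonoidHom.ext fun q => by
      show ct (lam (r + s)) * _ = ct (lam r) * _ + ct (lam s) * _
      rw [map_add, map_add, add_mul]
  let Ψ : R ⊗[ℤ] QA A p 1 →+ Res A := TensorProduct.liftAddHom μ fun m r q => by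
    show ct (lam (m • r)) * _ = ct (lam r) * resQA hA 0 (m • q)
    rw [map_zsmul, map_zsmul, map_zsmul, zsmul_eq_mul, zsmul_eq_mul, mul_left_comm, mul_assoc]
    rfl
  choose a ha using fun i => ZMod.intCast_surjective (lam (v i))
  rw [eq_sum_crd E 1 a (cls E lam v) fun i => by rw [psi_cls]; exact (ha i).symm, map_sum]
  have h2 := congrArg Ψ h0
  rw [Phi, pairT_apply, map_sum, map_zero] at h2
  refine Eq.trans (Finset.sum_congr rfl fun i _ => ?_) h2
  rw [map_zsmul, zsmul_eq_mul]
  show (a i : Res A) * _ = ct (lam (v i)) * resQA hA 0 _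
  rw [← ha i, map_intCast]
  rfl

end Fermat.Agent.RT.AtP

end
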