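import Fermat.Agent.OrdinaryAtP.NoQuotient
import Fermat.Agent.RT.AtP.Degeneracy
import Fermat.Agent.RT.AtP.Meeting
import Fermat.Agent.RT.AtP.Vanishing
import Fermat.Agent.GaloisReps.Models

/-!
# Nonvanishing of the coefficient at `1`

For an odd `p`, on a residually absolutely irreducible and ordinary eigensystem, `p ^ 2` not
dividing the level and new at `p` if `p` divides it, the coefficient at `1` is nonzero and the
eigenvalue at `p` is a unit: otherwise the reduced eigenspace would consist of classes with trivial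
gluing, which has no inertia invariant quotient.
-/

set_option autoImplicit false

noncomputable section

namespace Fermat.Agent.RT.AtP

open ModularCurve IsLocalRing
open Fermat.Agent.Semistable Fermat.Agent.OrdinaryAtP
open Fermat.Agent.GaloisReps
open Fermat.Agent.NewformLocal (levelPrimes)
open Arith (QBar GQ)

/-- An invariant map factoring through an equivariant one. -/
theorem exists_invariant_factor {G V X B : Type} [Monoid G] [AddCommGroup V] [AddCommGroup X]
    [DistribMulAction G X] [AddCommGroup B] (S : Set G) (T : G → V → V) (Ψ : V →+ X) (f : V →+ B)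
    (hker : Ψ.ker ≤ f.ker) (hT : ∀ g ∈ S, ∀ v, Ψ (T g v) = g • Ψ v)
    (hf : ∀ g ∈ S, ∀ v, f (T g v) = f v) :
    ∃ hst : ∀ g ∈ S, ∀ z ∈ Ψ.range, g • z ∈ Ψ.range, ∃ π : Ψ.range →+ B,
      (∀ g (hg : g ∈ S) (z : Ψ.range), π ⟨g • (z : X), hst g hg z z.2⟩ = π z) ∧
        ∀ v, π (Ψ.rangeRestrict v) = f v := by
  refine ⟨fun g hg z hz => ?_, ?_⟩
  · obtain ⟨v, rfl⟩ := hz
    exact ⟨_, hT g hg v⟩
  have hker' : Ψ.rangeRestrict.ker ≤ f.ker := by
    rw [AddMonoidHom.ker_rangeRestrict]
    exact hker
  let π : Ψ.range →+ B := Ψ.rangeRestrict.liftOfSurjective Ψ.rangeRestrict_surjective ⟨f, hker'⟩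
  have hπ : ∀ v, π (Ψ.rangeRestrict v) = f v := fun v =>
    AddMonoidHom.liftOfRightInverse_comp_apply _ _ _ ⟨f, hker'⟩ v
  refine ⟨π, fun g hg z => ?_, hπ⟩
  obtain ⟨v, rfl⟩ := Ψ.rangeRestrict_surjective z
  rw [hπ, ← hf g hg v, ← hπ]
  exact congrArg π (Subtype.ext (hT g hg v).symm)

section Conn

variable {A : ValuationSubring QBar} {p M : ℕ} [NeZero M] [Fact p.Prime] [CharP (Res A) p]
  [FF.IsFunctionField (Res A) (KM A M)] (h : Setup A M p) [Nonempty (Pt h)]

/-- An inertia stable group of families of classes with trivial gluing has no nonzero invariant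
map to `ℤ/p`. -/
theorem eq_zero_of_invariant_of_conn_pi (hp3 : 3 ≤ p) {I : Type} (s : Finset I)
    (H : AddSubgroup (I → JZero (p * M))) (hs : ∀ y ∈ H, ∀ i ∉ s, y i = 0)
    (hconn : ∀ y ∈ H, ∀ i, ConnClass h (y i))
    (hst : ∀ τ ∈ A.inertiaSubgroupIn ℚ, ∀ y ∈ H, τ • y ∈ H) (π : H →+ ZMod p)
    (hπ : ∀ τ (hτ : τ ∈ A.inertiaSubgroupIn ℚ) (y : H),
      π ⟨τ • (y : I → JZero (p * M)), hst τ hτ y y.2⟩ = π y) :
    π = 0 := by
  classical
  -- by induction on the support: vanish on the kernel of one evaluation, then on its image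
  induction s using Finset.induction_on generalizing H with
  | empty =>
    refine AddMonoidHom.ext fun y => ?_
    rw [show y = 0 from Subtype.ext (funext fun i => hs y y.2 i (Finset.notMem_empty i)), map_zero,
      map_zero]
  | insert a s ha ih =>
    let ev : H →+ JZero (p * M) :=
      (Pi.evalAddMonoidHom (fun _ : I => JZero (p * M)) a).comp H.subtype
    let K : AddSubgroup (I → JZero (p * M)) :=
      H ⊓ (Pi.evalAddMonoidHom (fun _ : I => JZero (p * M)) a).ker
    have hK : π.comp (AddSubgroup.inclusion inf_le_left : K →+ H) = 0 := by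
      refine ih K (fun y hy i hi => ?_) (fun y hy => hconn y hy.1) (fun τ hτ y hy => ?_) _
        (fun τ hτ y => hπ τ hτ ⟨y, y.2.1⟩)
      · rcases eq_or_ne i a with rfl | hia
        · exact AddMonoidHom.mem_ker.mp hy.2
        · exact hs y hy.1 i fun hmem => hi ((Finset.mem_insert.mp hmem).resolve_left hia)
      · refine ⟨hst τ hτ y hy.1, AddMonoidHom.mem_ker.mpr ?_⟩
        show τ • y a = 0
        rw [show y a = 0 from AddMonoidHom.mem_ker.mp hy.2]
        exact smul_zero (A := JZero (p * M)) τ
    have hker : ev.rangeRestrict.ker ≤ π.ker := fun y hy => by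
      rw [AddMonoidHom.ker_rangeRestrict] at hy
      exact DFunLike.congr_fun hK ⟨y, y.2, hy⟩
    let π' : ev.range →+ ZMod p := ev.rangeRestrict.liftOfSurjective
      ev.rangeRestrict_surjective ⟨π, hker⟩
    have hπ' : ∀ y, π' (ev.rangeRestrict y) = π y := fun y =>
      AddMonoidHom.liftOfRightInverse_comp_apply _ _ _ ⟨π, hker⟩ y
    have hrange : ∀ τ ∈ A.inertiaSubgroupIn ℚ, ∀ z ∈ ev.range, τ • z ∈ ev.range := by
      rintro τ hτ _ ⟨y, rfl⟩
      exact ⟨⟨τ • (y : I → JZero (p * M)), hst τ hτ y y.2⟩, rfl⟩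
    have hzero : π' = 0 := by
      refine eq_zero_of_invariant_of_conn h hp3 ev.range ?_ hrange π' fun τ hτ z => ?_
      · rintro _ ⟨y, rfl⟩
        exact hconn y y.2 a
      · obtain ⟨y, rfl⟩ := ev.rangeRestrict_surjective z
        rw [hπ']
        refine Eq.trans (congrArg π' (Subtype.ext rfl)) ((hπ' _).trans (hπ τ hτ y))
    refine AddMonoidHom.ext fun y => ?_
    rw [← hπ', hzero]
    rfl

variable {N : ℕ} [NeZero N] {R : Type} [CommRing R] [IsDomain R] [IsDiscreteValuationRing R]
  [CharZero R] [Finite (ResidueField R)] (ι : ℤ_[p] →+* R) {θ : FullHecke N →+* R}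

include h in
/-- An ordinary reduced eigenspace is not made of classes with trivial gluing. -/
theorem false_of_conn (hp2 : p ≠ 2) (hpR : (p : R) ∈ maximalIdeal R) (D : HeckeGaloisModel N p)
    (habs : (D.rep ι θ hpR).residual.IsAbsolutelyIrreducible)
    (hres : (GaloisRepAdic.ofResidualGaloisRep (D.rep ι θ hpR).residual).IsOrdinaryAt p)
    (J : JTors N p 1 →+ JTors (p * M) p 1) (hJ : Function.Injective J)
    (hJgal : ∀ σ x, J (galTors 1 σ x) = galTors 1 σ (J x))
    (hconn : ∀ v ∈ eigenspace (latticeMat N) θ, ∀ lam,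
      ConnClass h ((J (cls (torsionIso N p (conjProperty N)) lam v) : JTors (p * M) p 1) :
        JZero (p * M))) : False := by
  classical
  set E := torsionIso N p (conjProperty N)
  let V := eigenspace (latticeMat N) θ
  have G := torsionGalois N p (eichlerShimuraCongruence N p)
  obtain ⟨f, hf0, hfm, hfi⟩ : ∃ f : V →+ ZMod p, f ≠ 0 ∧
      (∀ r ∈ maximalIdeal R, ∀ v, f (r • v) = 0) ∧
      ∀ τ ∈ A.inertiaSubgroupIn ℚ, ∀ v : V,
        f ⟨((E.gal τ).map ι).mulVec v.1, gal_mem_eigenspace E (ι := ι) G τ v.2⟩ = f v :=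
    exists_invariant_functional hpR hp2 D (modelOfCongruence (eichlerShimuraCongruence N p))
      habs hres h.hA
  have : Finite (ResidueField R →+ ZMod (p ^ 1)) :=
    Finite.of_injective (fun μ => (μ : ResidueField R → ZMod (p ^ 1))) DFunLike.coe_injective
  have := Fintype.ofFinite (ResidueField R →+ ZMod (p ^ 1))
  -- `Ψ v` is the family of classes of `v` paired with the functionals of the residue field
  let I := ResidueField R →+ ZMod (p ^ 1)
  let lam : I → R →+ ZMod (p ^ 1) := fun μ => μ.comp (residue R).toAddMonoidHom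
  let Ψ : V →+ (I → JZero (p * M)) := AddMonoidHom.pi fun μ =>
    (((JTors (p * M) p 1).subtype.comp J).comp (cls E (lam μ))).comp V.subtype.toAddMonoidHom
  have hΨ : ∀ v μ, Ψ v μ = ((J (cls E (lam μ) v.1) : JTors (p * M) p 1) : JZero (p * M)) :=
    fun _ _ => rfl
  -- a vector killed by `Ψ` is divisible by the uniformiser in the eigenspace, so killed by `f`
  have hker : Ψ.ker ≤ f.ker := by
    intro v hv
    rw [AddMonoidHom.mem_ker]
    let : CharP (ResidueField R) p := by
      refine (CharP.charP_iff_prime_eq_zero Fact.out).mpr ?_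
      rw [← map_natCast (residue R), IsLocalRing.residue_eq_zero_iff]
      exact hpR
    let : Algebra (ZMod p) (ResidueField R) := ZMod.algebra _ p
    have hmax : ∀ i, v.1 i ∈ maximalIdeal R := by
      intro i
      by_contra hi
      rw [← IsLocalRing.residue_eq_zero_iff] at hi
      set z := residue R (v.1 i) with hz
      let B := Module.Free.chooseBasis (ZMod p) (ResidueField R)
      obtain ⟨j, hj⟩ : ∃ j, B.repr z j ≠ 0 := by
        by_contra hall
        push Not at hall
        exact hi (B.repr.injective (Finsupp.ext fun m => by rw [hall m]; simp))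
      have : Fact (1 < p ^ 1) := ⟨by rw [pow_one]; exact (Fact.out : p.Prime).one_lt⟩
      let c : ZMod p →+* ZMod (p ^ 1) := ZMod.castHom (by rw [pow_one]) (ZMod (p ^ 1))
      let μ : I := c.toAddMonoidHom.comp (B.coord j).toAddMonoidHom
      have h0 := congrFun (show Ψ v = 0 from hv) μ
      rw [hΨ, Pi.zero_apply, ZeroMemClass.coe_eq_zero, map_eq_zero_iff J hJ] at h0
      have h1 := congrFun (congrArg (E.psi 1) h0) i
      rw [psi_cls, map_zero, Pi.zero_apply] at h1
      exact hj ((map_eq_zero c).mp h1)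
    obtain ⟨ϖ, hϖ⟩ := IsDiscreteValuationRing.exists_irreducible R
    have hd : ∀ i, ∃ w, v.1 i = ϖ * w := fun i => by
      have := hmax i
      rwa [hϖ.maximalIdeal_eq, Ideal.mem_span_singleton] at this
    choose w hw using hd
    have hwV : w ∈ V := by
      refine (mem_eigenspace (latticeMat N) θ w).mpr fun a => ?_
      have hv' := (mem_eigenspace (latticeMat N) θ v.1).mp v.2 a
      rw [show v.1 = ϖ • w from funext hw, Matrix.mulVec_smul,
        smul_comm] at hv'
      exact funext fun i => mul_left_cancel₀ hϖ.ne_zero (congrFun hv' i)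
    rw [show v = ϖ • (⟨w, hwV⟩ : V) from Subtype.ext (funext hw)]
    exact hfm ϖ (by rw [hϖ.maximalIdeal_eq]; exact Ideal.mem_span_singleton_self ϖ) _
  -- so `f` is an invariant map on the range of `Ψ`, which consists of classes with trivial gluing
  have hequiv : ∀ (τ : GQ) (v : V),
      Ψ ⟨((E.gal τ).map ι).mulVec v.1, gal_mem_eigenspace E (ι := ι) G τ v.2⟩ = τ • Ψ v :=
        fun τ v => by
    funext μ
    rw [Pi.smul_apply, hΨ, hΨ]
    show ((J (cls E (lam μ) (((E.gal τ).map ι).mulVec v.1)) : JTors (p * M) p 1) :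
      JZero (p * M)) = _
    rw [cls_gal E ι, hJgal]
    rfl
  obtain ⟨hrange, π, hπi, hπ⟩ :=
    exists_invariant_factor (G := GQ) (V := V) (X := I → JZero (p * M)) (B := ZMod p)
      (A.inertiaSubgroupIn ℚ : Set GQ)
      (fun τ v => ⟨((E.gal τ).map ι).mulVec v.1, gal_mem_eigenspace E (ι := ι) G τ v.2⟩)
      Ψ f hker (fun τ _ v => hequiv τ v) hfi
  have hzero : π = 0 := eq_zero_of_invariant_of_conn_pi h
    (lt_of_le_of_ne (Fact.out : p.Prime).two_le hp2.symm) Finset.univ Ψ.range
    (fun y _ i hi => absurd (Finset.mem_univ i) hi)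
    (by
      rintro _ ⟨v, rfl⟩ μ
      rw [hΨ]
      exact hconn v.1 v.2 (lam μ))
    hrange π hπi
  exact hf0 (AddMonoidHom.ext fun v => by rw [← hπ, hzero]; rfl)

end Conn

variable {N p : ℕ} [NeZero N] [Fact p.Prime]

/-- **The coefficient at `1` does not vanish and the eigenvalue at `p` is a unit**, on a residually
absolutely irreducible and ordinary eigensystem which is new at `p` if `p` is in its level. -/
theorem coeff_one_ne_zero_and_isUnit (hp2 : p ≠ 2) {A : ValuationSubring QBar}
    (hA : A.LiesOverPrime p)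
    {R : Type} [CommRing R] [IsDomain R] [IsDiscreteValuationRing R] [CharZero R]
    [Finite (ResidueField R)] (ι : ℤ_[p] →+* R) (θ : FullHecke N →+* R)
    (hpR : (p : R) ∈ maximalIdeal R) (hp2N : ¬ p ^ 2 ∣ N)
    (hold : ∀ hpN : p ∣ N, ∃ t : CuspForm.heckeAlgebra N 2 (levelPrimes N),
      (∀ f : CuspForm (CongruenceSubgroup.Gamma0 (N / p)) 2,
        t.1 (Newforms.levelIncl (Nat.div_dvd_of_dvd hpN) f) = 0) ∧ θ (toFull _ t) ≠ 0)
    (D : HeckeGaloisModel N p) (habs : (D.rep ι θ hpR).residual.IsAbsolutelyIrreducible)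
    (hres : (GaloisRepAdic.ofResidualGaloisRep (D.rep ι θ hpR).residual).IsOrdinaryAt p) :
    IsUnit (θ (HeckeDuality.heckeOp N 2 p Fact.out)) ∧
      ∃ v ∈ eigenspace (latticeMat N) θ,
        Phi hA (torsionIso N p (conjProperty N)) (R := R) 1 1 v ≠ 0 := by
  have := Semistable.charP_res hA
  set E := torsionIso N p (conjProperty N)
  -- one class with nonzero first coefficient is enough
  suffices hex : ∃ v ∈ eigenspace (latticeMat N) θ, ∃ lam, cof hA 1 (cls E lam v) ≠ 0 by
    obtain ⟨v, hv, lam, h1⟩ := hex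
    exact ⟨isUnit_of_cof_one_ne_zero hA E ι hv h1, v, hv, Phi_ne_zero_of_cof hA E h1⟩
  by_contra hno
  push Not at hno
  -- otherwise all coefficients of all classes vanish
  have hall := fun v hv lam k =>
    cof_eq_zero_of_one hA E ι hp2 hpR D habs hno (v := v) hv lam k
  -- if `p ∣ N`, newness puts the Fricke images in the connected part
  by_cases hpN : p ∣ N
  · obtain ⟨t, ht, hθt⟩ := hold hpN
    obtain ⟨M, rfl⟩ := hpN
    have : NeZero M := ⟨fun h0 => NeZero.ne (p * M) (by rw [h0, mul_zero])⟩
    have hpM : ¬ p ∣ M := fun hd => hp2N (by rw [pow_two]; exact mul_dvd_mul_left p hd)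
    have key : ∀ (R' : ℕ) (hR' : R' ∣ p * M), R' = M →
        (∀ f : CuspForm (CongruenceSubgroup.Gamma0 R') 2, t.1 (Newforms.levelIncl hR' f) = 0) →
        ∀ f : CuspForm (CongruenceSubgroup.Gamma0 M) 2,
          t.1 (Newforms.levelIncl (dvd_mul_left M p) f) = 0 := by
      rintro R' hR' rfl h'
      exact h'
    have ht' := key _ _ (Nat.mul_div_cancel_left M (Fact.out : p.Prime).pos) ht
    have h := setup_of_not_dvd hA hpM
    have := isFunctionField_KM A h.hM
    have := nonempty_pt h
    exact false_of_conn h ι hp2 hpR D habs hres (frickeTors (p * M) (p ^ 1))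
      (Function.LeftInverse.injective (frickeTors_frickeTors (N := p * M) (m := p ^ 1)))
      (fun σ x => frickeTors_galTors σ x)
      fun v hv lam => connClass_frickeTors h (dvd_mul_left M p) t ht' hθt hv lam (hall v hv lam)
  -- otherwise the pullbacks to level `p N`; both contradict residual irreducibility
  · have h := setup_of_not_dvd hA hpN
    have := isFunctionField_KM A h.hM
    have := nonempty_pt h
    exact false_of_conn h ι hp2 hpR D habs hres (upTors p N) (upTors_injective hpN)
      (fun σ x => upTors_galTors σ x)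
      fun v hv lam => connClass_upTors h _ (hall v hv lam)

end Fermat.Agent.RT.AtP

end
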