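import Fermat.Agent.RT.AtP.Series
import Fermat.Agent.Semistable.SeriesLemmas

/-!
# Series of `locS` modulo powers of `p`

A series of `locS A` gives a series over `A / p ^ n`, a unit if its reduction is nonzero and
nilpotent if its reduction is zero.
-/

set_option autoImplicit false

noncomputable section

open ModularCurve
open Fermat.Agent.Semistable
open Fermat.Agent.Arith (QBar GQ)

namespace Fermat.Agent.RT.AtP

variable (A : ValuationSubring QBar) (p : ℕ)

/-- `A / p ^ n`. -/
def QA (n : ℕ) : Type := A ⧸ Ideal.span {(p : A) ^ n}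

instance instCommRingQA (n : ℕ) : CommRing (QA A p n) :=
  inferInstanceAs (CommRing (A ⧸ Ideal.span {(p : A) ^ n}))

/-- The quotient map. -/
def mkQA (n : ℕ) : A →+* QA A p n := Ideal.Quotient.mk (Ideal.span {(p : A) ^ n})

variable {A p}

/-- The quotient map to `A / p ^ n` is surjective. -/
theorem mkQA_surjective (n : ℕ) : Function.Surjective (mkQA A p n) :=
  Ideal.Quotient.mk_surjective

/-- `x` vanishes in `A / p ^ n` iff `p ^ n` divides it. -/
theorem mkQA_eq_zero_iff {n : ℕ} {x : A} : mkQA A p n x = 0 ↔ (p : A) ^ n ∣ x :=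
  Ideal.Quotient.eq_zero_iff_mem.trans Ideal.mem_span_singleton

/-- `p ^ n` is zero in `A / p ^ n`. -/
theorem natCast_QA_eq_zero (n : ℕ) : (p : QA A p n) ^ n = 0 := by
  rw [← map_natCast (mkQA A p n), ← map_pow, mkQA_eq_zero_iff]

theorem coe_natCast_A (k : ℕ) : ((k : A) : QBar) = (k : QBar) := map_natCast A.subtype k

/-- A natural number prime to `p` is a unit in a valuation ring over `p`. -/
theorem isUnit_natCast_A (hA : A.LiesOverPrime p) (hp : p.Prime) {k : ℕ} (hk : ¬ p ∣ k) :
    IsUnit (k : A) := by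
  have h := natCast_ne_nonunit hA hp hk
  rw [← IsLocalRing.notMem_maximalIdeal, ← ValuationSubring.coe_mem_nonunits_iff]
  rwa [coe_natCast_A]

/-- The image of an integral series. -/
def im (n : ℕ) : intS A →+* LaurentSeries (QA A p n) :=
  (coeffMap (mkQA A p n)).comp (toA A)

/-- The coefficients of `im n x` are those of `x` modulo `p ^ n`. -/
theorem coeff_im (n : ℕ) (x : intS A) (k : ℤ) :
    (im (p := p) n x).coeff k = mkQA A p n ⟨x.1.coeff k, coeff_mem A x k⟩ := rfl

theorem im_qExpand (n d : ℕ) [NeZero d] (x : intS A) :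
    im (p := p) n ⟨_, qExpand_mem_intS d x.2⟩ = qExpand (QA A p n) d (im n x) := by
  ext k
  by_cases hk : (d : ℤ) ∣ k
  · obtain ⟨m, rfl⟩ := hk
    conv_rhs => rw [qExpand_coeff_mul, coeff_im]
    exact congrArg _ (Subtype.ext (qExpand_coeff_mul d x.1 m))
  · conv_rhs => rw [qExpand_coeff_of_not_dvd d _ hk]
    rw [coeff_im, mkQA_eq_zero_iff]
    convert dvd_zero ((p : A) ^ n)
    exact qExpand_coeff_of_not_dvd d x.1 hk

/-- Nonunits are nilpotent modulo `p ^ n`. -/
theorem isNilpotent_mk (hA : A.LiesOverPrime p) (hp : p.Prime) (n : ℕ) {g : A}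
    (hg : (g : QBar) ∈ A.nonunits) :
    IsNilpotent (mkQA A p n g) := by
  have hp0 : ((p : QBar)) ^ n ≠ 0 := pow_ne_zero _ (Nat.cast_ne_zero.mpr hp.ne_zero)
  obtain ⟨E, hE⟩ := exists_pow_valuation_lt hA hp hg hp0
  refine ⟨E, ?_⟩
  rw [← map_pow, mkQA_eq_zero_iff]
  have hmem : (g : QBar) ^ E / (p : QBar) ^ n ∈ A := by
    rw [← A.valuation_le_one_iff, map_div₀, div_le_one₀ (zero_lt_iff.mpr
      ((Valuation.ne_zero_iff _).mpr hp0))]
    exact hE.le
  refine ⟨⟨_, hmem⟩, Subtype.ext ?_⟩
  push_cast [coe_natCast_A]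
  exact (mul_div_cancel₀ _ hp0).symm

/-- Integral series with zero reduction are nilpotent modulo `p ^ n`. -/
theorem isNilpotent_im (hA : A.LiesOverPrime p) (hp : p.Prime) (n : ℕ) (x : intS A)
    (h : red A x = 0) : IsNilpotent (im (p := p) n x) := by
  rcases eq_or_ne (x : LSer) 0 with h0 | h0
  · rw [show x = 0 from Subtype.ext h0, map_zero]
    exact IsNilpotent.zero
  obtain ⟨m, hm, hdiv⟩ := exists_max_coeff hA hp x.2 h0
  let g : A := ⟨x.1.coeff m, coeff_mem A x m⟩
  let y : LaurentSeries A := ⟨fun k => ⟨x.1.coeff k / x.1.coeff m, hdiv k⟩,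
    x.1.isPWO_support.mono fun k hk => by
      simp only [Function.mem_support, HahnSeries.mem_support, ne_eq] at hk ⊢
      exact fun e => hk (Subtype.ext (by simp [e]))⟩
  have e : toA A x = HahnSeries.C g * y := by
    ext k
    rw [MazurP.coeff_C_mul]
    push_cast
    rw [coeff_toA]
    exact (mul_div_cancel₀ _ hm).symm
  show IsNilpotent (coeffMap (mkQA A p n) (toA A x))
  rw [e, map_mul]
  refine (Commute.all _ _).isNilpotent_mul_right ?_
  have hg : (g : QBar) ∈ A.nonunits := red_eq_zero_iff.mp h m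
  obtain ⟨E, hE⟩ := isNilpotent_mk hA hp n hg
  refine ⟨E, ?_⟩
  have hC : coeffMap (mkQA A p n) (HahnSeries.C g) =
      HahnSeries.C (mkQA A p n g) := by
    ext k
    rw [coeffMap_coeff, HahnSeries.C_apply, HahnSeries.C_apply]
    rcases eq_or_ne k 0 with rfl | hk
    · simp
    · simp [hk]
  rw [hC, ← map_pow, hE, map_zero]

/-- Integral series with nonzero reduction are units modulo `p ^ n`. -/
theorem isUnit_im (hA : A.LiesOverPrime p) (hp : p.Prime) (n : ℕ) (x : intS A)
    (h : red A x ≠ 0) : IsUnit (im (p := p) n x) := by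
  classical
  set e := (red A x).order with he
  -- at the order `e` of the reduction the coefficient is a unit, below it lie non-units
  have hu : x.1.coeff e ∉ A.nonunits := by
    rw [← residue_eq_zero_iff (coeff_mem A x e), ← coeff_red]
    exact fun h0 => h (HahnSeries.coeff_order_eq_zero.mp h0)
  have hlow : ∀ k < e, x.1.coeff k ∈ A.nonunits := fun k hk => by
    rw [← residue_eq_zero_iff (coeff_mem A x k), ← coeff_red]
    exact HahnSeries.coeff_eq_zero_of_lt_order hk
  obtain ⟨⟨L, hL, hxL⟩, hxA⟩ := mem_intS.mp x.2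
  -- drop the part below `e`
  let hiS : LSer := ⟨fun k => if e ≤ k then x.1.coeff k else 0,
    x.1.isPWO_support.mono fun k hk => by
      simp only [Function.mem_support, HahnSeries.mem_support, ne_eq] at hk ⊢
      exact fun h0 => hk (by simp [h0])⟩
  let hi : intS A := ⟨hiS, mem_intS.mpr ⟨⟨L, hL, fun k => by
      show (if e ≤ k then x.1.coeff k else 0) ∈ L
      split_ifs
      exacts [hxL k, zero_mem L]⟩, fun k => by
      show (if e ≤ k then x.1.coeff k else 0) ∈ A
      split_ifs
      exacts [hxA k, zero_mem A]⟩⟩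
  have hred : red A (x - hi) = 0 := red_eq_zero_iff.mpr fun k => by
    show x.1.coeff k - (if e ≤ k then x.1.coeff k else 0) ∈ A.nonunits
    split_ifs with hk
    · rw [sub_self]; exact zero_mem _
    · rw [sub_zero]; exact hlow k (not_le.mp hk)
  -- what is left is `q ^ e` times a power series with unit constant term
  obtain ⟨hi', hhi⟩ : ∃ P : PowerSeries (QA A p n),
      IsUnit (PowerSeries.constantCoeff P) ∧
        im (p := p) n hi = HahnSeries.single e 1 * HahnSeries.ofPowerSeries ℤ _ P := by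
    refine ⟨PowerSeries.mk fun k => (im (p := p) n hi).coeff (e + k), ?_, ?_⟩
    · rw [← PowerSeries.coeff_zero_eq_constantCoeff, PowerSeries.coeff_mk, Nat.cast_zero, add_zero,
        coeff_im]
      refine IsUnit.map _ ?_
      rw [← IsLocalRing.notMem_maximalIdeal, ← ValuationSubring.coe_mem_nonunits_iff]
      show (if e ≤ e then x.1.coeff e else 0) ∉ _
      rwa [if_pos le_rfl]
    · ext k
      rw [HahnSeries.coeff_single_mul, one_mul]
      by_cases hk : 0 ≤ k - e
      · obtain ⟨i, hi'⟩ := Int.eq_ofNat_of_zero_le hk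
        rw [hi', HahnSeries.ofPowerSeries_apply_coeff, PowerSeries.coeff_mk,
          show e + (i : ℤ) = k by omega]
      · rw [ofPowerSeries_coeff_of_neg _ (not_le.mp hk), coeff_im, mkQA_eq_zero_iff]
        convert dvd_zero ((p : A) ^ n)
        show (if e ≤ k then x.1.coeff k else 0) = 0
        rw [if_neg (by omega)]
  have hunit : IsUnit (im (p := p) n hi) := by
    rw [hhi.2]
    refine IsUnit.mul ?_ ((PowerSeries.isUnit_iff_constantCoeff.mpr hhi.1).map _)
    exact IsUnit.of_mul_eq_one (HahnSeries.single (-e) 1) (by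
      rw [HahnSeries.single_mul_single, add_neg_cancel, one_mul]; rfl)
  -- and `x` differs from it by a nilpotent
  rw [show x = (x - hi) + hi by abel, map_add, add_comm]
  exact (isNilpotent_im hA hp n _ hred).isUnit_add_left_of_commute hunit (mul_comm _ _)

/-- The image of a series of `locS`. -/
def imLFun (n : ℕ) (x : locS A) : LaurentSeries (QA A p n) :=
  im n ((mem_locS A).mp x.2).choose * Ring.inverse (im n ((mem_locS A).mp x.2).choose_spec.choose)

theorem imLFun_eq (hA : A.LiesOverPrime p) (hp : p.Prime) (n : ℕ) (x : locS A) {a b : intS A}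
    (h : x.1 * (b : LSer) = a) :
    imLFun (p := p) n x * im n b = im n a := by
  obtain ⟨hb₀, h₀⟩ := ((mem_locS A).mp x.2).choose_spec.choose_spec
  set a₀ := ((mem_locS A).mp x.2).choose
  set b₀ := ((mem_locS A).mp x.2).choose_spec.choose
  have e : a₀ * b = a * b₀ := Subtype.ext (by push_cast; rw [← h₀, ← h]; ring)
  obtain ⟨u, hu⟩ := isUnit_im (p := p) hA hp n b₀ hb₀
  show im n a₀ * Ring.inverse (im n b₀) * im n b = im n a
  rw [mul_right_comm, ← map_mul, e, map_mul, ← hu, Ring.inverse_unit, mul_assoc, Units.mul_inv,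
    mul_one]

/-- The reduction modulo `p ^ n` on `locS`. -/
def imL (hA : A.LiesOverPrime p) (hp : p.Prime) (n : ℕ) :
    locS A →+* LaurentSeries (QA A p n) where
  toFun := imLFun n
  map_one' := by
    simpa using imLFun_eq hA hp n 1 (a := 1) (b := 1) (by simp)
  map_mul' x y := by
    obtain ⟨a, b, hb, hx⟩ := (mem_locS A).mp x.2
    obtain ⟨c, d, hd, hy⟩ := (mem_locS A).mp y.2
    have hbd : red A (b * d) ≠ 0 := by rw [map_mul]; exact mul_ne_zero hb hd
    have h : (x * y).1 * ((b * d : intS A) : LSer) = ((a * c : intS A) : LSer) := by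
      push_cast; rw [← hx, ← hy]; ring
    refine ((isUnit_im (p := p) hA hp n _ hbd).mul_left_inj).mp ?_
    rw [imLFun_eq hA hp n _ h, map_mul, map_mul, mul_mul_mul_comm, imLFun_eq hA hp n _ hx,
      imLFun_eq hA hp n _ hy]
  map_zero' := by
    simpa using imLFun_eq hA hp n 0 (a := 0) (b := 1) (by simp)
  map_add' x y := by
    obtain ⟨a, b, hb, hx⟩ := (mem_locS A).mp x.2
    obtain ⟨c, d, hd, hy⟩ := (mem_locS A).mp y.2
    have hbd : red A (b * d) ≠ 0 := by rw [map_mul]; exact mul_ne_zero hb hd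
    have h : (x + y).1 * ((b * d : intS A) : LSer) = ((a * d + c * b : intS A) : LSer) := by
      push_cast; rw [← hx, ← hy]; ring
    refine ((isUnit_im (p := p) hA hp n _ hbd).mul_left_inj).mp ?_
    rw [imLFun_eq hA hp n _ h, map_add, map_mul, map_mul, map_mul,
      ← imLFun_eq hA hp n _ hx, ← imLFun_eq hA hp n _ hy]
    ring

variable (hA : A.LiesOverPrime p) (hp : p.Prime)

/-- `imL n x` times the image of `b` is the image of `a` when `x b = a` and `b` reduces nonzero. -/
theorem imL_mul_im (n : ℕ) (x : locS A) {a b : intS A}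
    (h : x.1 * (b : LSer) = a) : imL hA hp n x * im n b = im n a :=
  imLFun_eq hA hp n x h

theorem imL_of_intS (n : ℕ) (x : intS A) :
    imL hA hp n ⟨x.1, intS_le_locS x.2⟩ = im n x := by
  simpa using imL_mul_im hA hp n ⟨x.1, intS_le_locS x.2⟩ (a := x) (b := 1) (by simp)

theorem imL_congr (n : ℕ) {x y : LSer} (hx : x ∈ locS A) (hy : y ∈ locS A) (h : x = y) :
    imL hA hp n ⟨x, hx⟩ = imL hA hp n ⟨y, hy⟩ := congrArg _ (Subtype.ext h)

/-- An element of `locS` with nonzero reduction has an invertible image modulo `p ^ n`. -/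
theorem isUnit_imL (n : ℕ) (x : locS A) (h : redL A x ≠ 0) : IsUnit (imL hA hp n x) := by
  obtain ⟨a, b, hb, hx⟩ := (mem_locS A).mp x.2
  have ha : red A a ≠ 0 := by
    rw [← redL_mul_red x hb hx]
    exact mul_ne_zero h hb
  exact (IsUnit.mul_iff.mp (imL_mul_im hA hp n x hx ▸ isUnit_im (p := p) hA hp n a ha)).1

theorem isNilpotent_imL (n : ℕ) (x : locS A) (h : redL A x = 0) :
    IsNilpotent (imL hA hp n x) := by
  obtain ⟨a, b, hb, hx⟩ := (mem_locS A).mp x.2
  have ha : red A a = 0 := by rw [← redL_mul_red x hb hx, h, zero_mul]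
  obtain ⟨u, hu⟩ := isUnit_im (p := p) hA hp n b hb
  have e : imL hA hp n x = im n a * ((u⁻¹ : (LaurentSeries (QA A p n))ˣ) : LaurentSeries
      (QA A p n)) := by
    rw [← imL_mul_im hA hp n x hx, ← hu, Units.mul_inv_cancel_right]
  rw [e]
  exact (Commute.all _ _).isNilpotent_mul_right (isNilpotent_im hA hp n a ha)

end Fermat.Agent.RT.AtP

end
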