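import Fermat.Agent.RT.MazurP.Theta

/-!
# Logarithmic derivatives of units modulo powers of `p`

For a unit `x` of the Laurent series over a ring, `dl x = θ x / x`. Over `A / p ^ m` the
coefficient at `q ^ (p ^ j)` of `dl (1 + ε)`, `ε` nilpotent, vanishes for large `j`: this is the
congruence of Dwork in the form used here.
-/

set_option autoImplicit false

noncomputable section

open ModularCurve

namespace Fermat.Agent.RT.AtP

open MazurP (theta theta_mul theta_C theta_qExpand theta_coeffMap coeff_C_mul coeff_theta)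

variable {R S : Type*} [CommRing R] [CommRing S]

/-- The logarithmic derivative `θ x / x`, meaningful on units. -/
def dl (x : LaurentSeries R) : LaurentSeries R := theta R x * Ring.inverse x

theorem dl_mul {x y : LaurentSeries R} (hx : IsUnit x) (hy : IsUnit y) :
    dl (x * y) = dl x + dl y := by
  obtain ⟨u, rfl⟩ := hx
  obtain ⟨v, rfl⟩ := hy
  rw [dl, dl, dl, theta_mul, ← Units.val_mul, Ring.inverse_unit, Ring.inverse_unit,
    Ring.inverse_unit, mul_inv, Units.val_mul]
  linear_combination theta R ((u : LaurentSeries R)) *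
    ((u⁻¹ : (LaurentSeries R)ˣ) : LaurentSeries R) *
      v.mul_inv + theta R ((v : LaurentSeries R)) * ((v⁻¹ : (LaurentSeries R)ˣ) : LaurentSeries R) *
      u.mul_inv

theorem dl_C (r : R) : dl (HahnSeries.C r : LaurentSeries R) = 0 := by
  rw [dl, theta_C, zero_mul]

theorem dl_one : dl (1 : LaurentSeries R) = 0 := by
  rw [← map_one (HahnSeries.C : R →+* LaurentSeries R), dl_C]

theorem dl_pow {x : LaurentSeries R} (hx : IsUnit x) (k : ℕ) : dl (x ^ k) = k • dl x := by
  induction k with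
  | zero => rw [pow_zero, zero_smul, dl_one]
  | succ k ih => rw [pow_succ, dl_mul (hx.pow k) hx, ih, succ_nsmul]

theorem dl_prod {ι : Type*} (s : Finset ι) {x : ι → LaurentSeries R} (hx : ∀ i ∈ s, IsUnit (x i)) :
    IsUnit (∏ i ∈ s, x i) ∧ dl (∏ i ∈ s, x i) = ∑ i ∈ s, dl (x i) := by
  classical
  induction s using Finset.induction_on with
  | empty => exact ⟨by simp, by simp [dl_one]⟩
  | insert i s hi ih =>
    obtain ⟨h1, h2⟩ := ih fun j hj => hx j (Finset.mem_insert_of_mem hj)
    have h0 := hx i (Finset.mem_insert_self i s)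
    rw [Finset.prod_insert hi, Finset.sum_insert hi]
    exact ⟨h0.mul h1, by rw [dl_mul h0 h1, h2]⟩

theorem inverse_map (φ : LaurentSeries R →+* LaurentSeries S) {x : LaurentSeries R}
    (hx : IsUnit x) : Ring.inverse (φ x) = φ (Ring.inverse x) := by
  obtain ⟨u, rfl⟩ := hx
  rw [Ring.inverse_unit, show φ (u : LaurentSeries R) =
    (Units.map φ.toMonoidHom u : LaurentSeries S)
    from rfl, Ring.inverse_unit]
  rfl

theorem dl_coeffMap (φ : R →+* S) {x : LaurentSeries R} (hx : IsUnit x) :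
    dl (coeffMap φ x) = coeffMap φ (dl x) := by
  rw [dl, dl, map_mul, theta_coeffMap, inverse_map _ hx]

theorem dl_qExpand (l : ℕ) [NeZero l] {x : LaurentSeries R} (hx : IsUnit x) :
    dl (qExpand R l x) = HahnSeries.C (l : R) * qExpand R l (dl x) := by
  rw [dl, dl, theta_qExpand, map_mul, inverse_map _ hx, mul_assoc]

/-- The function underlying `tw`. -/
def twFun (u : Rˣ) (x : LaurentSeries R) : LaurentSeries R :=
  HahnSeries.mk (fun k => ((u ^ k : Rˣ) : R) * x.coeff k) <|
    x.isPWO_support.mono fun k hk => by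
      simp only [Function.mem_support, ne_eq] at hk ⊢
      exact fun h => hk (by rw [h, mul_zero])

theorem coeff_twFun (u : Rˣ) (x : LaurentSeries R) (k : ℤ) :
    (twFun u x).coeff k = ((u ^ k : Rˣ) : R) * x.coeff k := rfl

theorem twFun_mul (u : Rˣ) (x y : LaurentSeries R) : twFun u (x * y) = twFun u x * twFun u y := by
  ext k
  have hsupp : ∀ z : LaurentSeries R, (twFun u z).support = z.support := fun z => by
    ext n
    simp only [HahnSeries.mem_support, coeff_twFun, ne_eq, Units.mul_right_eq_zero]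
  rw [coeff_twFun, HahnSeries.coeff_mul, HahnSeries.coeff_mul, Finset.mul_sum]
  refine Finset.sum_congr (by simp only [hsupp]) fun ij hij => ?_
  have hk : ij.1 + ij.2 = k := (Finset.mem_antidiagonal.mp hij).2.2
  rw [coeff_twFun, coeff_twFun, ← hk, zpow_add, Units.val_mul]
  ring

/-- `q ↦ u q`. -/
def tw (u : Rˣ) : LaurentSeries R →+* LaurentSeries R where
  toFun := twFun u
  map_one' := by
    ext k
    rw [coeff_twFun, HahnSeries.coeff_one]
    split_ifs with h
    · simp [h]
    · simp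
  map_mul' := twFun_mul u
  map_zero' := by ext k; simp [coeff_twFun]
  map_add' x y := by ext k; simp [coeff_twFun, mul_add]

@[simp]
theorem coeff_tw (u : Rˣ) (x : LaurentSeries R) (k : ℤ) :
    (tw u x).coeff k = ((u ^ k : Rˣ) : R) * x.coeff k := rfl

theorem theta_tw (u : Rˣ) (x : LaurentSeries R) : theta R (tw u x) = tw u (theta R x) := by
  ext k
  simp only [coeff_theta, coeff_tw]
  ring

theorem dl_tw (u : Rˣ) {x : LaurentSeries R} (hx : IsUnit x) : dl (tw u x) = tw u (dl x) := by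
  rw [dl, dl, theta_tw, map_mul, inverse_map _ hx]

/-- The sum over the twists by an `l`-th root of one, at exponents divisible by `l`. -/
theorem coeff_dl_prod_tw (l : ℕ) {z : Rˣ} (hz : z ^ l = 1) {x : LaurentSeries R} (hx : IsUnit x)
    (m : ℤ) :
    (dl (∏ i : Fin l, tw (z ^ (i : ℕ)) x)).coeff ((l : ℤ) * m) =
      (l : R) * (dl x).coeff ((l : ℤ) * m) := by
  rw [(dl_prod _ fun (i : Fin l) _ => hx.map (tw (z ^ (i : ℕ)))).2, HahnSeries.coeff_sum]
  have h : ∀ i : ℕ, (z ^ i) ^ ((l : ℤ) * m) = (1 : Rˣ) := fun i => by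
    rw [zpow_mul, zpow_natCast, ← pow_mul, mul_comm i, pow_mul, hz, one_pow, one_zpow]
  simp only [dl_tw _ hx, coeff_tw, h, Units.val_one, one_mul, Finset.sum_const, Finset.card_univ,
    Fintype.card_fin, nsmul_eq_mul]

/-! ### Series congruent to one -/

theorem exists_lift_series {φ : R →+* S} (hφ : Function.Surjective φ) (x : LaurentSeries S) :
    ∃ y : LaurentSeries R, coeffMap φ y = x := by
  classical
  refine ⟨HahnSeries.mk (fun k => if x.coeff k = 0 then 0 else Function.surjInv hφ (x.coeff k))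
    (x.isPWO_support.mono fun k hk => ?_), HahnSeries.ext (funext fun k => ?_)⟩
  · simp only [Function.mem_support, HahnSeries.mem_support, ne_eq] at hk ⊢
    exact fun h => hk (if_pos h)
  · rw [coeffMap_coeff]
    show φ (if x.coeff k = 0 then 0 else _) = _
    split_ifs with h
    · rw [map_zero, h]
    · exact Function.surjInv_eq hφ _

/-- `dl (1 + ε)` as a finite sum. -/
theorem dl_one_add {ε : LaurentSeries R} {E : ℕ} (hE : ε ^ E = 0) :
    IsUnit (1 + ε) ∧ dl (1 + ε) = ∑ k ∈ Finset.range E, (-ε) ^ k * theta R ε := by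
  have h : (1 + ε) * ∑ k ∈ Finset.range E, (-ε) ^ k = 1 := by
    have := mul_neg_geom_sum (-ε) E
    rwa [sub_neg_eq_add, neg_pow, hE, mul_zero, sub_zero] at this
  let u : (LaurentSeries R)ˣ := ⟨1 + ε, _, h, (mul_comm _ _).trans h⟩
  refine ⟨u.isUnit, ?_⟩
  rw [dl, show (1 + ε) = (u : LaurentSeries R) from rfl, Ring.inverse_unit,
    show ((u : LaurentSeries R)) = 1 + ε from rfl, map_add, Derivation.map_one_eq_zero, zero_add,
    show ((u⁻¹ : (LaurentSeries R)ˣ) : LaurentSeries R) = ∑ k ∈ Finset.range E, (-ε) ^ k from rfl,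
    Finset.mul_sum]
  exact Finset.sum_congr rfl fun k _ => mul_comm _ _

section Torsion

variable {A : Type*} [CommRing A] [IsDomain A] [CharZero A] {p : ℕ}

theorem dvd_of_natCast_mul_eq (hp : p.Prime) (hu : ∀ k : ℕ, ¬ p ∣ k → IsUnit (k : A))
    {k j : ℕ} {x y : A} (hk : k ≠ 0) (h : (k : A) * x = (p : A) ^ j * y) (hj : k ≤ j) :
    (p : A) ^ (j - k) ∣ x := by
  obtain ⟨v, u, hpu, rfl⟩ := Nat.exists_eq_pow_mul_and_not_dvd hk p hp.ne_one
  have hv : v < p ^ v * u := lt_of_lt_of_le (Nat.lt_pow_self hp.one_lt)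
    (Nat.le_mul_of_pos_right _ (Nat.pos_of_ne_zero fun h0 => by simp [h0] at hpu))
  obtain ⟨u', hu'⟩ := hu u hpu
  have h0 : (p : A) ^ v ≠ 0 := pow_ne_zero _ (Nat.cast_ne_zero.mpr hp.ne_zero)
  have h1 : (u : A) * x = (p : A) ^ (j - v) * y := by
    refine mul_left_cancel₀ h0 ?_
    rw [← mul_assoc, ← mul_assoc, ← pow_add, Nat.add_sub_of_le (hv.le.trans hj)]
    push_cast at h
    exact h
  refine (pow_dvd_pow _ (Nat.sub_le_sub_left hv.le j)).trans ⟨↑u'⁻¹ * y, ?_⟩
  rw [mul_left_comm, ← h1, ← hu', Units.inv_mul_cancel_left]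

/-- **Dwork's congruence**: the coefficient of `dl (1 + ε)` at `q ^ (p ^ j)` vanishes modulo
`p ^ m` once `j ≥ m + E`, `ε ^ E = 0`. -/
theorem coeff_dl_one_add (hp : p.Prime) (hu : ∀ k : ℕ, ¬ p ∣ k → IsUnit (k : A)) {m : ℕ}
    {B : Type*} [CommRing B] {φ : A →+* B} (hφ : Function.Surjective φ)
    (hker : ∀ x, φ x = 0 ↔ (p : A) ^ m ∣ x)
    {ε : LaurentSeries B} {E j : ℕ} (hE : ε ^ E = 0)
    (hj : m + E ≤ j) : (dl (1 + ε)).coeff ((p : ℤ) ^ j) = 0 := by
  obtain ⟨e, rfl⟩ := exists_lift_series hφ ε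
  rw [(dl_one_add hE).2, HahnSeries.coeff_sum]
  refine Finset.sum_eq_zero fun k hk => ?_
  rw [← map_neg, ← map_pow, theta_coeffMap, ← map_mul, coeffMap_coeff, hker]
  have hkE := Finset.mem_range.mp hk
  have key : ((k + 1 : ℕ) : LaurentSeries A) * ((-e) ^ k * theta A e) =
      -theta A ((-e) ^ (k + 1)) := by
    rw [Derivation.leibniz_pow, Nat.add_sub_cancel, map_neg, smul_neg, smul_neg, neg_neg,
      nsmul_eq_mul, smul_eq_mul]
  have hx : ((k + 1 : ℕ) : A) * ((-e) ^ k * theta A e).coeff ((p : ℤ) ^ j) =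
      (p : A) ^ j * -((-e) ^ (k + 1)).coeff ((p : ℤ) ^ j) := by
    have := congrArg (fun z : LaurentSeries A => z.coeff ((p : ℤ) ^ j)) key
    simp only [HahnSeries.coeff_neg, coeff_theta] at this
    rw [← map_natCast (HahnSeries.C : A →+* LaurentSeries A), coeff_C_mul] at this
    rw [this]
    push_cast
    ring
  exact (pow_dvd_pow _ (by omega)).trans
    (dvd_of_natCast_mul_eq hp hu k.succ_ne_zero hx (by omega))

end Torsion

end Fermat.Agent.RT.AtP

end
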