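import Fermat.Agent.RT.AtP.New
import Fermat.Agent.RT.AtP.Nonvanishing

/-!
# Newforms with `p` exactly in the level are strictly ordinary at `p`

`strictAtNew`: for an odd `p`, the representation of a newform with `p` exactly in its level whose
residual representation is absolutely irreducible and ordinary is strictly ordinary at `p`
(`Lifting.StrictAtNew`). It is used in `RT/Frey/Lowered` and `RT/Frey/Lifting`.
-/

set_option autoImplicit false

noncomputable section

open IsLocalRing

namespace Fermat.Agent.RT.AtP

variable (p : ℕ) [Fact p.Prime] (O : Type) [CommRing O] [IsDomain O] [IsDiscreteValuationRing O]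
  [IsAdicComplete (maximalIdeal O) O] [Finite (ResidueField O)] [CharZero O]

omit [CharZero O] in
/-- **Strictness at `p` on the new part.** -/
theorem strictAtNew (hp2 : p ≠ 2) : Lifting.StrictAtNew p O :=
  strictAtNew_of_ne_zero O hp2 fun M _ g hg hpM hp2M e r D habs hres =>
    (coeff_one_ne_zero_and_isUnit hp2 (CFT.Local.padicPlace_liesOverPrime p) r.ι r.θ' r.p_mem hp2M
      (fun hpN => by
      have hlt : M / p ≠ M :=
        (Nat.div_lt_self (Nat.pos_of_ne_zero (NeZero.ne M)) (Fact.out : p.Prime).one_lt).ne
      have : NeZero (M / p) :=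
        ⟨fun h => NeZero.ne M (by rw [← Nat.div_mul_cancel hpN, h, zero_mul])⟩
      obtain ⟨t, ht, htg⟩ :=
        NewformLocal.exists_killsOld_ne_zero hg (Nat.div_dvd_of_dvd hpN) hlt
      refine ⟨t, ht, fun h0 => htg ?_⟩
      rw [← NewformLocal.eigenChar_toFull hg.1, ← r.emb_θ', h0, map_zero, map_zero])
      D habs hres).2

end Fermat.Agent.RT.AtP

end
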